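import Fermat.Agent.Curve.Jac.Points

/-!
# A nonconstant function has finitely many ramified places

Outside the places where a primitive element has a pole or the derivative of its equation vanishes
the point of the plane model is simple, hence unramified.
-/

set_option autoImplicit false

noncomputable section

open AlgebraicCurve Polynomial IntermediateField
open scoped Polynomial Classical

namespace FermatAgent.Curve.Jac

variable {K F : Type*} [Field K] [Field F] [Algebra K F] [IsAlgClosed K] [IsFF K F] [CharZero K]

/-- **Finitely many ramified places.** -/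
theorem finite_ramified {r : F} (hr : Transcendental K r) :
    {w : Place K F | OrdGE w 0 r ∧ w.ord (r - algebraMap K F (pval w r)) ≠ 1}.Finite := by
  have := IsFF.finite_adjoin (F := F) hr
  have : CharZero K⟮r⟯ := charZero_of_injective_algebraMap (algebraMap K K⟮r⟯).injective
  obtain ⟨y, hy⟩ := Field.exists_primitive_element K⟮r⟯ F
  obtain ⟨P, hP0, hP1, -⟩ := exists_sep_equation hr y
  refine Set.Finite.subset ((finite_ord_ne_zero (K := K) y).union
    (finite_ord_ne_zero (K := K) (fev r y (derivative P)))) fun w hw => ?_
  by_contra h
  simp only [Set.mem_union, Set.mem_ofPred_eq, not_or, not_not] at h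
  have hwy : OrdGE w 0 y := Or.inr h.1.ge
  refine hw.2 (IsSimplePt.ord_sub_eq_one ⟨hr, exists_gen hr hy, hP0, ?_, fun h0 => ?_⟩
    (⟨hw.1, hwy, rfl, rfl⟩ : IsOverPt r y w _ _))
  · rw [← pval_fev hw.1 hwy, hP0, pval_zero]
  · rw [← pval_fev hw.1 hwy, pval_eq_zero_iff (ordGE_fev hw.1 hwy _), ordGE_iff_le hP1] at h0
    omega

end FermatAgent.Curve.Jac

end
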