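import Fermat.Agent.Curve.Jac.Genus
import Fermat.Agent.Curve.Jac.Ramified
import Mathlib.GroupTheory.CosetCover
import Mathlib.LinearAlgebra.Matrix.NonsingularInverse
import Mathlib.LinearAlgebra.Matrix.ToLin

/-!
# Functions in general position

Non-special divisors of `g` distinct places, functions with prescribed values at finitely many
places, and functions with simple zeros, some of them given, and one pole.
-/

set_option autoImplicit false

noncomputable section

open AlgebraicCurve Module
open scoped Classical

namespace FermatAgent.Curve.Jac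

variable {K F : Type*} [Field K] [Field F] [Algebra K F]

/-- The divisor of a finite family of places. -/
def dsum {ι : Type*} [Fintype ι] (Q : ι → Place K F) : Divisor K F :=
  ∑ i, Finsupp.single (Q i) 1

/-- A member of an injective family has multiplicity one. -/
theorem dsum_apply {ι : Type*} [Fintype ι] {Q : ι → Place K F} (hQ : Function.Injective Q) (i : ι) :
    dsum Q (Q i) = 1 := by
  simp [dsum, Finsupp.single_apply, hQ.eq_iff]

/-- Other places have multiplicity zero. -/
theorem dsum_apply_of_notMem {ι : Type*} [Fintype ι] {Q : ι → Place K F} {w : Place K F}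
    (hw : w ∉ Set.range Q) : dsum Q w = 0 := by
  simp only [dsum, Finsupp.finsetSum_apply, Finsupp.single_apply]
  exact Finset.sum_eq_zero fun i _ => if_neg fun h => hw ⟨i, h⟩

/-- The divisor of a family is effective. -/
theorem dsum_nonneg {ι : Type*} [Fintype ι] (Q : ι → Place K F) : 0 ≤ dsum Q := fun w => by
  simp only [dsum, Finsupp.finsetSum_apply, Finsupp.single_apply, Finsupp.zero_apply]
  exact Finset.sum_nonneg fun i _ => by split_ifs <;> simp

/-- A member of a family has positive multiplicity. -/
theorem one_le_dsum_apply {ι : Type*} [Fintype ι] (Q : ι → Place K F) (i : ι) :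
    1 ≤ dsum Q (Q i) := by
  simp only [dsum, Finsupp.finsetSum_apply, Finsupp.single_apply]
  exact le_trans (by rw [if_pos rfl]) (Finset.single_le_sum
    (f := fun j => if Q j = Q i then (1 : ℤ) else 0)
    (fun j _ => by split_ifs <;> simp) (Finset.mem_univ i))

theorem riemannRochSpace_sub_dsum_le {ι : Type*} [Fintype ι] (G : Divisor K F)
    (Q : ι → Place K F) : riemannRochSpace (G - dsum Q) ≤ riemannRochSpace G :=
  riemannRochSpace_le_of_le (sub_le_self G (dsum_nonneg Q))

/-- A section of `G` is regular where `G` is zero. -/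
theorem ordGE_zero_of_mem {G : Divisor K F} {f : F} (hf : f ∈ riemannRochSpace G) {v : Place K F}
    (hv : G v = 0) : OrdGE v 0 f := by
  simpa [hv] using mem_riemannRochSpace.1 hf v

/-- The divisor of a disjoint union of families. -/
theorem dsum_sum {ι κ : Type*} [Fintype ι] [Fintype κ] (Q : ι ⊕ κ → Place K F) :
    dsum Q = dsum (Q ∘ Sum.inl) + dsum (Q ∘ Sum.inr) := by
  simp [dsum, Fintype.sum_sum_type]

/-- The reduced divisor of a finite set of places. -/
def setDiv (s : Finset (Place K F)) : Divisor K F := ∑ v ∈ s, Finsupp.single v 1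

/-- The multiplicities of the reduced divisor. -/
theorem setDiv_apply [DecidableEq (Place K F)] (s : Finset (Place K F)) (w : Place K F) :
    setDiv s w = if w ∈ s then 1 else 0 := by
  simp [setDiv, Finsupp.single_apply]

/-- The reduced divisor is effective. -/
theorem setDiv_nonneg (s : Finset (Place K F)) : 0 ≤ setDiv s := fun w => by
  rw [setDiv_apply]; split_ifs <;> simp

/-- Classes agree iff the difference is principal. -/
theorem pic0_mk_eq_iff {D E : Divisor.degZero (K := K) (F := F)} :
    Pic0.mk D = Pic0.mk E ↔ Divisor.IsPrincipal ((D : Divisor K F) - (E : Divisor K F)) := by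
  rw [Pic0.mk, Pic0.mk, QuotientAddGroup.eq_iff_sub_mem, AddSubgroup.mem_addSubgroupOf]
  rfl

theorem mem_sub_single_iff {D : Divisor K F} {v : Place K F} {f : F}
    (hf : f ∈ riemannRochSpace D) (hf0 : f ≠ 0) :
    f ∈ riemannRochSpace (D - Finsupp.single v 1) ↔ v.ord f ≠ -D v := by
  have h1 := (mem_riemannRochSpace_iff_ne_zero hf0).1 hf
  rw [mem_riemannRochSpace_iff_ne_zero hf0]
  constructor
  · intro h heq
    have := h v
    rw [Finsupp.sub_apply, Finsupp.single_eq_same] at this
    omega
  · intro hne w
    have := h1 w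
    rw [Finsupp.sub_apply, Finsupp.single_apply]
    split_ifs with hw
    · subst hw; omega
    · omega

/-- A section of `D` not of `D - v` has order exactly `-D v`. -/
theorem ord_eq_of_notMem {D : Divisor K F} {v : Place K F} {f : F}
    (hf : f ∈ riemannRochSpace D) (hn : f ∉ riemannRochSpace (D - Finsupp.single v 1)) :
    f ≠ 0 ∧ v.ord f = -D v :=
  have hf0 : f ≠ 0 := fun h => hn (h ▸ Submodule.zero_mem _)
  ⟨hf0, not_not.1 fun h => hn ((mem_sub_single_iff hf hf0).2 h)⟩

variable [IsAlgClosed K] [IsFF K F]

/-- The degree of a reduced divisor is the number of places. -/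
theorem degree_setDiv (s : Finset (Place K F)) : Divisor.degree (setDiv s) = s.card := by
  simp [setDiv, deg_eq_one]

/-- The degree of the divisor of a family is its size. -/
theorem degree_dsum {ι : Type*} [Fintype ι] (Q : ι → Place K F) :
    Divisor.degree (dsum Q) = Fintype.card ι := by
  simp [dsum, deg_eq_one]

/-- A section with zeros at `T` shows `deg G = |T|`. -/
theorem degree_eq_card {ι : Type*} [Fintype ι] {G : Divisor K F} {u : F} {T : ι → Place K F}
    (hdiv : divisorOf u + G = dsum T) : Divisor.degree G = Fintype.card ι := by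
  simpa [degree_divisorOf, degree_dsum] using congrArg Divisor.degree hdiv

/-- In large degree any finite family of places imposes independent conditions. -/
theorem rrDim_sub_dsum_add_card {ι : Type*} [Fintype ι] {G : Divisor K F} {c : ℤ}
    (hc : ∀ E : Divisor K F, c ≤ Divisor.degree E →
      (rrDim E : ℤ) = Divisor.degree E + 1 - rGenus K F)
    (Q : ι → Place K F) (h : c + Fintype.card ι ≤ Divisor.degree G) :
    rrDim (G - dsum Q) + Fintype.card ι = rrDim G := by
  have h1 := hc G (by omega)
  have h2 := hc (G - dsum Q) (by rw [map_sub, degree_dsum]; omega)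
  rw [map_sub, degree_dsum] at h2
  omega

/-- There are infinitely many places. -/
theorem infinite_places : Infinite (Place K F) := by
  refine ⟨fun hfin => ?_⟩
  obtain ⟨x, hx, -⟩ := IsFF.exists_transcendental (K := K) (F := F)
  have ht : ∀ a : K, Transcendental K (x - algebraMap K F a) := fun a h => hx (by
    simpa using h.add (isAlgebraic_algebraMap a))
  choose v hv using fun a : K => exists_place_ord_pos (ht a)
  have hinj : Function.Injective v := fun a b hab => by
    have hreg : ∀ c, OrdGE (v c) 0 x := fun c => by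
      have h1 : OrdGE (v c) 0 (x - algebraMap K F c) := Or.inr (hv c).le
      simpa using h1.add (ordGE_algebraMap c)
    have hval : ∀ c, pval (v c) x = c := fun c =>
      (pval_eq_iff (hreg c)).2 (Or.inr (by have := hv c; omega))
    rw [← hval a, ← hval b, hab]
  have := Finite.of_injective v hinj
  exact not_finite K

omit [IsFF K F] in
/-- A point of a subspace outside finitely many others. -/
theorem exists_avoid {ι : Type*} [Finite ι] (V : Submodule K F) (W : ι → Submodule K F)
    (h : ∀ i, ¬ V ≤ W i) : ∃ x ∈ V, ∀ i, x ∉ W i := by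
  by_contra hno
  push Not at hno
  obtain ⟨i, hi⟩ := Subspace.exists_eq_top_of_iUnion_eq_univ
    (p := fun i => (W i).comap V.subtype) (Set.eq_univ_of_forall fun x => by
      obtain ⟨i, hi⟩ := hno x.1 x.2
      exact Set.mem_iUnion.2 ⟨i, hi⟩)
  exact h i fun x hx => (hi ▸ Submodule.mem_top : (⟨x, hx⟩ : V) ∈ (W i).comap V.subtype)

/-- In large degree every place imposes a condition. -/
theorem rrDim_sub_single_lt {D : Divisor K F} {v : Place K F} {c : ℤ}
    (hc : ∀ E : Divisor K F, c ≤ Divisor.degree E →
      (rrDim E : ℤ) = Divisor.degree E + 1 - rGenus K F)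
    (hD : c < Divisor.degree D) :
    ¬ riemannRochSpace D ≤ riemannRochSpace (D - Finsupp.single v 1) := fun hle => by
  have h0 : rrDim D ≤ rrDim (D - Finsupp.single v 1) := Submodule.finrank_mono hle
  have h1 := hc D hD.le
  have h2 := hc (D - Finsupp.single v 1) (by
    rw [map_sub, Divisor.degree_single, deg_eq_one v]; push_cast; omega)
  rw [map_sub, Divisor.degree_single, deg_eq_one v] at h2
  push_cast at h2
  omega

section Values

variable {ι : Type*} [Fintype ι] {G : Divisor K F} {Q : ι → Place K F} (hG : ∀ i, G (Q i) = 0)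

/-- The values at the places `Q` of the functions in `L(G)`, for `G` zero at `Q`. -/
def valMap : riemannRochSpace G →ₗ[K] (ι → K) where
  toFun f j := pval (Q j) (f : F)
  map_add' f g := funext fun j =>
    pval_add (ordGE_zero_of_mem f.2 (hG j)) (ordGE_zero_of_mem g.2 (hG j))
  map_smul' a f := funext fun j => pval_smul a (ordGE_zero_of_mem f.2 (hG j))

include hG in
/-- Values at finitely many distinct points are arbitrary when the dimension drops fully. -/
theorem exists_values (hQ : Function.Injective Q)
    (hdim : rrDim (G - dsum Q) + Fintype.card ι = rrDim G) :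
    ∃ e : ι → F, (∀ i, e i ∈ riemannRochSpace G) ∧
      ∀ i j, pval (Q j) (e i) = if i = j then 1 else 0 := by
  have hker : LinearMap.ker (valMap hG) ≤
      (riemannRochSpace (G - dsum Q)).comap (riemannRochSpace G).subtype := fun f hf =>
    mem_riemannRochSpace.2 fun w => by
      by_cases hw : w ∈ Set.range Q
      · obtain ⟨j, rfl⟩ := hw
        rw [Finsupp.sub_apply, hG, dsum_apply hQ]
        simpa using (pval_eq_zero_iff (ordGE_zero_of_mem f.2 (hG j))).1 (congrFun hf j)
      · rw [Finsupp.sub_apply, dsum_apply_of_notMem hw, sub_zero]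
        exact mem_riemannRochSpace.1 f.2 w
  have hsurj : LinearMap.range (valMap hG) = ⊤ := by
    refine Submodule.eq_top_of_finrank_eq (le_antisymm (Submodule.finrank_le _) ?_)
    have h1 := LinearMap.finrank_range_add_finrank_ker (valMap hG)
    have h2 := Submodule.finrank_mono hker
    rw [(Submodule.comapSubtypeEquivOfLe (riemannRochSpace_sub_dsum_le G Q)).finrank_eq] at h2
    rw [Module.finrank_fintype_fun_eq_card]
    simp only [rrDim] at hdim
    omega
  choose e he using fun i => LinearMap.range_eq_top.1 hsurj fun j => if i = j then 1 else 0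
  exact ⟨fun i => (e i : F), fun i => (e i).2, fun i j => congrFun (he i) j⟩

include hG in
/-- Functions with an invertible matrix of values show that the places impose independent
conditions. -/
theorem rrDim_sub_dsum_add_card_le [DecidableEq ι] {e : ι → F}
    (he : ∀ i, e i ∈ riemannRochSpace G)
    (hdet : (Matrix.of fun i j => pval (Q j) (e i)).det ≠ 0) :
    rrDim (G - dsum Q) + Fintype.card ι ≤ rrDim G := by
  have hsurj : Function.Surjective (valMap hG) := fun t => by
    obtain ⟨a, ha⟩ := Matrix.vecMul_surjective_iff_isUnit.2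
      ((Matrix.isUnit_iff_isUnit_det _).2 (isUnit_iff_ne_zero.2 hdet)) t
    refine ⟨∑ i, a i • ⟨e i, he i⟩, ?_⟩
    rw [map_sum, ← ha]
    funext j
    simp only [map_smul, Finset.sum_apply]
    rfl
  have hle : (riemannRochSpace (G - dsum Q)).comap (riemannRochSpace G).subtype ≤
      LinearMap.ker (valMap hG) := fun f hf => funext fun j =>
    (pval_eq_zero_iff (ordGE_zero_of_mem f.2 (hG j))).2
      ((mem_riemannRochSpace.1 hf (Q j)).mono (by
        have := one_le_dsum_apply Q j
        rw [Finsupp.sub_apply, hG]; omega))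
  have h1 := LinearMap.finrank_range_add_finrank_ker (valMap hG)
  rw [LinearMap.range_eq_top.2 hsurj, finrank_top, Module.finrank_fintype_fun_eq_card] at h1
  have h2 := Submodule.finrank_mono hle
  rw [(Submodule.comapSubtypeEquivOfLe (riemannRochSpace_sub_dsum_le G Q)).finrank_eq] at h2
  simp only [rrDim]
  omega

end Values

/-- Distinct places outside a given finite set forming a non-special divisor of degree `g`. -/
theorem exists_nonspecial (A : Finset (Place K F)) : ∃ P : Fin (genusFF K F) → Place K F,
    Function.Injective P ∧ (∀ i, P i ∉ A) ∧ rrDim (dsum P) = 1 := by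
  have hg := genusFF_eq (K := K) (F := F)
  obtain ⟨c, hc⟩ := exists_rrDim_eq (K := K) (F := F)
  suffices H : ∀ (n : ℕ) (s : Finset (Place K F)), s.card = n →
      Disjoint s A → rrDef (setDiv s : Divisor K F) = rGenus K F →
      ∃ P : Fin (genusFF K F) → Place K F,
        Function.Injective P ∧ (∀ i, P i ∉ A) ∧ rrDim (dsum P) = 1 by
    have := infinite_places (K := K) (F := F)
    obtain ⟨t, hA, ht⟩ :=
      Infinite.exists_superset_card_eq A (A.card + c.toNat) (Nat.le_add_right _ _)
    have hs : (t \ A).card = c.toNat := by rw [Finset.card_sdiff_of_subset hA, ht]; omega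
    refine H _ (t \ A) hs Finset.sdiff_disjoint ?_
    simp only [rrDef]
    rw [hc _ (by rw [degree_setDiv]; omega)]
    ring
  intro n
  induction n using Nat.strong_induction_on with
  | _ n ih =>
    intro s hs hdisj hdef
    have hdeg := degree_setDiv s
    have hDapp := setDiv_apply s
    set D : Divisor K F := setDiv s with hD
    simp only [rrDef, hdeg] at hdef
    by_cases h1 : rrDim D = 1
    · have hcard : Fintype.card s = genusFF K F := by rw [Fintype.card_coe]; omega
      let e : Fin (genusFF K F) ≃ s := (Fintype.equivFinOfCardEq hcard).symm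
      refine ⟨fun i => e i, fun i j h => e.injective (Subtype.ext h),
        fun i => Finset.disjoint_left.1 hdisj (e i).2, ?_⟩
      rw [show dsum (fun i => (e i : Place K F)) = D from
        (e.sum_comp fun v : s => Finsupp.single (v : Place K F) 1).trans
          (Finset.sum_coe_sort s fun v => Finsupp.single v 1)]
      exact h1
    have hpos : 1 ≤ rrDim D := by
      rw [← rrDim_zero (K := K) (F := F)]
      exact rrDim_mono (setDiv_nonneg s)
    obtain ⟨v, hv, hvlt⟩ : ∃ v ∈ s,
        ¬ riemannRochSpace D ≤ riemannRochSpace (D - Finsupp.single v 1) := by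
      by_contra hno
      push Not at hno
      refine h1 (le_antisymm ?_ hpos)
      rw [← rrDim_zero (K := K) (F := F)]
      refine Submodule.finrank_mono fun f hf => mem_riemannRochSpace.2 fun w => ?_
      by_cases hw : w ∈ s
      · have := mem_riemannRochSpace.1 (hno w hw hf) w
        simpa [hDapp, hw] using this
      · have := mem_riemannRochSpace.1 hf w
        simpa [hDapp, hw] using this
    have herase : setDiv (s.erase v) = D - Finsupp.single v 1 := by
      rw [hD, setDiv, setDiv, ← Finset.add_sum_erase _ _ hv, add_sub_cancel_left]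
    refine ih _ (by rw [Finset.card_erase_of_mem hv]; have := Finset.card_pos.2 ⟨v, hv⟩; omega)
      (s.erase v) rfl (hdisj.mono_left (Finset.erase_subset _ _)) ?_
    have hstep := rrDef_le_step (D - Finsupp.single v 1) v
    rw [sub_add_cancel, if_neg, add_zero] at hstep
    · rw [herase, ← hstep, rrDef, hdeg]
      exact hdef
    · intro heq
      exact hvlt (Submodule.eq_of_le_of_finrank_eq
        (riemannRochSpace_le_of_le fun w => by
          simp only [Finsupp.sub_apply, Finsupp.single_apply]; split_ifs <;> omega) heq.symm).ge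

/-! ### The steps of `exists_config` -/

section Config

variable {ι : Type*} [Fintype ι] {X : ι → Place K F} {O : Place K F} {N : ℕ}

omit [IsAlgClosed K] [IsFF K F] in
theorem single_sub_dsum_apply_range (hX : Function.Injective X) (hOX : ∀ i, X i ≠ O) (i : ι) :
    (Finsupp.single O (N : ℤ) - dsum X : Divisor K F) (X i) = -1 := by
  rw [Finsupp.sub_apply, dsum_apply hX, Finsupp.single_eq_of_ne (hOX i)]; ring

omit [IsAlgClosed K] [IsFF K F] in
theorem single_sub_dsum_apply_self (hOX : ∀ i, X i ≠ O) :
    (Finsupp.single O (N : ℤ) - dsum X : Divisor K F) O = N := by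
  rw [Finsupp.sub_apply, dsum_apply_of_notMem (fun ⟨i, h⟩ => hOX i h), Finsupp.single_eq_same,
    sub_zero]

omit [IsAlgClosed K] [IsFF K F] in
theorem single_sub_dsum_apply_of_notMem {w : Place K F} (hX : w ∉ Set.range X) (hO : w ≠ O) :
    (Finsupp.single O (N : ℤ) - dsum X : Divisor K F) w = 0 := by
  rw [Finsupp.sub_apply, dsum_apply_of_notMem hX, Finsupp.single_eq_of_ne hO, sub_zero]

/-- A section whose order is exact at finitely many given places. -/
theorem exists_exact {κ : Type*} [Finite κ] [Nonempty κ] {D : Divisor K F} {c : ℤ}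
    (hc : ∀ E : Divisor K F, c ≤ Divisor.degree E →
      (rrDim E : ℤ) = Divisor.degree E + 1 - rGenus K F)
    (hD : c < Divisor.degree D) (P : κ → Place K F) :
    ∃ f ∈ riemannRochSpace D, f ≠ 0 ∧ ∀ i, (P i).ord f = -D (P i) := by
  obtain ⟨f, hf, hfav⟩ := exists_avoid (riemannRochSpace D)
    (fun i : κ => riemannRochSpace (D - Finsupp.single (P i) 1))
    fun i => rrDim_sub_single_lt hc hD
  obtain ⟨i₀⟩ := (inferInstance : Nonempty κ)
  have hf0 : f ≠ 0 := fun h => hfav i₀ (h ▸ Submodule.zero_mem _)
  exact ⟨f, hf, hf0, fun i => not_not.1 fun h => hfav i ((mem_sub_single_iff hf hf0).2 h)⟩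

theorem exists_zero_notMem_range (hX : Function.Injective X) (hOX : ∀ i, X i ≠ O)
    (hN : Fintype.card ι < N) {f : F} (hfX : ∀ i, (X i).ord f = 1) (hfO : O.ord f = -(N : ℤ)) :
    ∃ Q, 0 < Q.ord f ∧ Q ∉ Set.range X ∧ Q ≠ O := by
  by_contra hno
  push Not at hno
  have hle : divisorOf f ≤ dsum X + Finsupp.single O (-(N : ℤ)) := fun w => by
    rw [Finsupp.add_apply, divisorOf_apply]
    by_cases hwO : w = O
    · subst hwO
      rw [Finsupp.single_eq_same, dsum_apply_of_notMem (fun ⟨i, h⟩ => hOX i h), hfO]; omega
    rw [Finsupp.single_eq_of_ne hwO, add_zero]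
    by_cases hwX : w ∈ Set.range X
    · obtain ⟨i, rfl⟩ := hwX
      rw [hfX, dsum_apply hX]
    · rw [dsum_apply_of_notMem hwX]
      by_contra hlt
      exact hwO (hno w (not_le.1 hlt) hwX)
  have := degree_mono hle
  rw [map_add, degree_dsum, degree_divisorOf, Divisor.degree_single, deg_eq_one O] at this
  push_cast at this
  omega

/-- A member of the pencil of `f` and `h` with simple zeros away from the fixed places. -/
theorem exists_pencil_member [CharZero K] {κ : Type*} [Fintype κ] {P : κ → Place K F}
    {D : Divisor K F} {f h : F} (hf : f ∈ riemannRochSpace D) (hh : h ∈ riemannRochSpace D)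
    (hf0 : f ≠ 0) (hh0 : h ≠ 0) (hfP : ∀ i, (P i).ord f = -D (P i))
    (hhP : ∀ i, (P i).ord h = -D (P i)) (hD : ∀ w, w ∉ Set.range P → D w = 0)
    (hhZ : ∀ w, 0 < w.ord f → w.ord h = -D w) (htr : Transcendental K (f / h)) :
    ∃ u ∈ riemannRochSpace D, u ≠ 0 ∧ (∀ i, (P i).ord u = -D (P i)) ∧
      ∀ w, w ∉ Set.range P → 0 < w.ord u → w.ord u = 1 := by
  set r := f / h with hr
  obtain ⟨a, ha⟩ := Infinite.exists_notMem_finset (({0} : Finset K) ∪
    (Finset.univ.image fun i : κ => pval (P i) r) ∪
    ((finite_ramified htr).toFinset.image fun w => pval w r))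
  simp only [Finset.mem_union, Finset.mem_singleton, Finset.mem_image, Finset.mem_univ, true_and,
    Set.Finite.mem_toFinset, Set.mem_ofPred_eq, not_or, not_exists, not_and] at ha
  obtain ⟨⟨-, hab⟩, har⟩ := ha
  have hueq : f - algebraMap K F a * h = (r - algebraMap K F a) * h := by
    rw [hr, sub_mul, div_mul_cancel₀ _ hh0]
  have hra : r - algebraMap K F a ≠ 0 := fun h0 => htr (by
    rw [sub_eq_zero.1 h0]; exact isAlgebraic_algebraMap a)
  refine ⟨f - algebraMap K F a * h, Submodule.sub_mem _ hf (by
    rw [← Algebra.smul_def]; exact Submodule.smul_mem _ _ hh), hueq ▸ mul_ne_zero hra hh0,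
    fun i => ?_, fun w hwP hpos => ?_⟩
  · have hreg : OrdGE (P i) 0 r := Or.inr (by rw [hr, ord_div hf0 hh0, hfP, hhP]; omega)
    have h1 := (ordGE_iff_le hra).1 (hreg.sub (ordGE_algebraMap a))
    have hexact : (P i).ord (r - algebraMap K F a) = 0 := by
      by_contra h2
      exact hab i ((pval_eq_iff hreg).2 (Or.inr (by omega)))
    rw [hueq, (P i).ord_mul hra hh0, hhP, hexact, zero_add]
  · have h0 : OrdGE w 0 h := by simpa [hD w hwP] using mem_riemannRochSpace.1 hh w
    have hhw : w.ord h = 0 := by
      by_contra hne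
      have h1 : OrdGE w 1 h := Or.inr (by have := (ordGE_iff_le hh0).1 h0; omega)
      have h2 : OrdGE w 1 f := by
        have h3 : OrdGE w 1 (f - algebraMap K F a * h) := Or.inr (by omega)
        have h4 := h3.add (((ordGE_algebraMap a).mul h1).mono (m := 1) (by simp))
        rwa [sub_add_cancel] at h4
      exact hne (by simpa [hD w hwP] using hhZ w (by have := (ordGE_iff_le hf0).1 h2; omega))
    rw [hueq, w.ord_mul hra hh0, hhw, add_zero] at hpos ⊢
    have hreg : OrdGE w 0 r := by
      have := OrdGE.add (Or.inr hpos.le : OrdGE w 0 (r - algebraMap K F a)) (ordGE_algebraMap a)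
      rwa [sub_add_cancel] at this
    have hval : pval w r = a := (pval_eq_iff hreg).2 (Or.inr (by omega))
    by_contra hne
    exact har w ⟨hreg, by rw [hval]; exact hne⟩ hval

omit [IsAlgClosed K] in
/-- The simple zeros as a family of places. -/
theorem exists_zero_family (hX : Function.Injective X) (hOX : ∀ i, X i ≠ O) {u : F} (hu : u ≠ 0)
    (humem : u ∈ riemannRochSpace (Finsupp.single O (N : ℤ) - dsum X : Divisor K F))
    (huX : ∀ i, (X i).ord u = 1) (huO : O.ord u = -(N : ℤ))
    (hsimple : ∀ w, w ∉ Set.range X → w ≠ O → 0 < w.ord u → w.ord u = 1) :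
    ∃ (n : ℕ) (R : Fin n → Place K F), Function.Injective (Sum.elim X R) ∧
      (∀ j, Sum.elim X R j ≠ O) ∧
      divisorOf u + Finsupp.single O (N : ℤ) = dsum (Sum.elim X R) := by
  set s := (finite_ord_pos (K := K) u).toFinset.filter fun w => w ∉ Set.range X with hs
  let T : ι ⊕ Fin s.card → Place K F := Sum.elim X fun j => (s.equivFin.symm j : Place K F)
  have hsmem : ∀ j, ((s.equivFin.symm j : s) : Place K F) ∈ s := fun j => (s.equivFin.symm j).2
  have hT : Function.Injective T := by
    refine hX.sumElim (fun j j' h => s.equivFin.symm.injective (Subtype.ext h)) fun i j h => ?_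
    have := hsmem j
    rw [← h, hs, Finset.mem_filter] at this
    exact this.2 ⟨i, rfl⟩
  have hTO : ∀ j, T j ≠ O := by
    rintro (i | j)
    · exact hOX i
    · intro h
      have hj := hsmem j
      rw [show ((s.equivFin.symm j : s) : Place K F) = O from h, hs, Finset.mem_filter,
        Set.Finite.mem_toFinset, Set.mem_ofPred_eq, huO] at hj
      omega
  refine ⟨s.card, _, hT, hTO, Finsupp.ext fun w => ?_⟩
  rw [Finsupp.add_apply, divisorOf_apply]
  by_cases hw : w ∈ Set.range T
  · obtain ⟨j, rfl⟩ := hw
    rw [dsum_apply hT, Finsupp.single_eq_of_ne (hTO j), add_zero]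
    rcases j with i | j
    · exact huX i
    · have hj := hsmem j
      simp only [hs, Finset.mem_filter, Set.Finite.mem_toFinset, Set.mem_ofPred_eq] at hj
      exact hsimple _ hj.2 (hTO (Sum.inr j)) hj.1
  · rw [dsum_apply_of_notMem hw]
    by_cases hwO : w = O
    · subst hwO
      rw [huO, Finsupp.single_eq_same]; ring
    rw [Finsupp.single_eq_of_ne hwO, add_zero]
    have hwX : w ∉ Set.range X := fun ⟨i, hi⟩ => hw ⟨Sum.inl i, hi⟩
    have h1 := (mem_riemannRochSpace_iff_ne_zero hu).1 humem w
    rw [single_sub_dsum_apply_of_notMem hwX hwO, neg_zero] at h1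
    by_contra hne
    have hws : w ∈ s := by
      simp only [hs, Finset.mem_filter, Set.Finite.mem_toFinset, Set.mem_ofPred_eq]
      exact ⟨by omega, hwX⟩
    exact hw ⟨Sum.inr (s.equivFin ⟨w, hws⟩), by simp [T]⟩

end Config

variable [CharZero K]

/-- A function with simple zeros, among them given points, and a pole at one further place only;
the pole order is beyond any bound. -/
theorem exists_config {ι : Type*} [Fintype ι] (X : ι → Place K F) (hX : Function.Injective X)
    (B : ℕ) :
    ∃ (G : Divisor K F) (u₀ : F) (n : ℕ) (R : Fin n → Place K F),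
      Function.Injective (Sum.elim X R) ∧ 0 ≤ G ∧ (∀ j, G (Sum.elim X R j) = 0) ∧ u₀ ≠ 0 ∧
      divisorOf u₀ + G = dsum (Sum.elim X R) ∧ (B : ℤ) ≤ Divisor.degree G := by
  obtain ⟨c, hc⟩ := exists_rrDim_eq (K := K) (F := F)
  have := infinite_places (K := K) (F := F)
  obtain ⟨O, hO⟩ := Infinite.exists_notMem_finset (Finset.univ.image X)
  have hOX : ∀ i, X i ≠ O := fun i h => hO (Finset.mem_image.2 ⟨i, Finset.mem_univ _, h⟩)
  set N : ℕ := B + c.toNat + (rGenus K F).toNat + Fintype.card ι + 2 with hN
  set D : Divisor K F := Finsupp.single O (N : ℤ) - dsum X with hD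
  have hcD : c < Divisor.degree D := by
    rw [hD, map_sub, Divisor.degree_single, deg_eq_one O, degree_dsum, hN]; push_cast; omega
  have hDw : ∀ w, w ∉ Set.range (fun i : Option ι => i.elim O X) → D w = 0 := fun w h =>
    single_sub_dsum_apply_of_notMem (fun ⟨i, e⟩ => h ⟨some i, e⟩) (fun e => h ⟨none, e.symm⟩)
  -- `f` is exact at `X` and at `O`, and `h` also at the other zeros of `f`
  obtain ⟨f, hf, hf0, hfP⟩ := exists_exact hc hcD fun i : Option ι => i.elim O X
  set Z := (finite_ord_pos (K := K) f).toFinset
  obtain ⟨h, hh, hh0, hhP⟩ :=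
    exists_exact hc hcD (Sum.elim (fun i : Option ι => i.elim O X) fun z : Z => (z : Place K F))
  have hhZ : ∀ w, 0 < w.ord f → w.ord h = -D w := fun w hw =>
    hhP (Sum.inr ⟨w, by simpa [Z] using hw⟩)
  -- the quotient is not constant: `f` has a zero outside `X`
  obtain ⟨Q₀, hQ₀, hQ₀X, hQ₀O⟩ := exists_zero_notMem_range hX hOX (by omega : Fintype.card ι < N)
    (f := f) (fun i => (hfP (some i)).trans (by simp [hD, single_sub_dsum_apply_range hX hOX i]))
    ((hfP none).trans (by simp [hD, single_sub_dsum_apply_self hOX]))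
  have htr : Transcendental K (f / h) := transcendental_of_ord_ne_zero (v := Q₀) (by
    rw [ord_div hf0 hh0, hhZ Q₀ hQ₀, single_sub_dsum_apply_of_notMem hQ₀X hQ₀O]; omega)
  obtain ⟨u, humem, hu, huP, husimple⟩ :=
    exists_pencil_member hf hh hf0 hh0 hfP (fun i => hhP (Sum.inl i)) hDw hhZ htr
  obtain ⟨n, R, hT, hTO, hdiv⟩ := exists_zero_family hX hOX hu humem
    (fun i => (huP (some i)).trans (by simp [hD, single_sub_dsum_apply_range hX hOX i]))
    ((huP none).trans (by simp [hD, single_sub_dsum_apply_self hOX]))
    fun w hwX hwO => husimple w (by rintro ⟨_ | i, rfl⟩ <;> simp at hwX hwO)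
  refine ⟨Finsupp.single O (N : ℤ), u, n, R, hT, fun w => ?_,
    fun j => Finsupp.single_eq_of_ne (hTO j), hu, hdiv, by
      rw [Divisor.degree_single, deg_eq_one O, hN]; push_cast; omega⟩
  simp only [Finsupp.single_apply, Finsupp.zero_apply]; split_ifs <;> omega

end FermatAgent.Curve.Jac

end
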