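import Fermat.Agent.Curve.Jac.Chart
import Mathlib.Analysis.Complex.AbsMax

/-!
# The places of a complex function field form a compact connected space

Every ultrafilter of places converges; a set of places which is clopen in the charts is empty or
everything, by the maximum principle.
-/

set_option autoImplicit false

noncomputable section

open AlgebraicCurve Filter
open scoped Classical Topology

namespace FermatAgent.Curve.Jac

variable {F : Type*} [Field F] [Algebra ℂ F] [IsFF ℂ F]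

/-- The functions bounded along an ultrafilter of places. -/
def boundedRing (U : Ultrafilter (Place ℂ F)) : ValuationSubring F where
  carrier := {f | ∃ B : ℝ, ∀ᶠ Q in (U : Filter (Place ℂ F)), OrdGE Q 0 f ∧ ‖pval Q f‖ ≤ B}
  zero_mem' := ⟨0, Eventually.of_forall fun Q => ⟨OrdGE.zero, by simp [pval_zero]⟩⟩
  one_mem' := ⟨1, Eventually.of_forall fun Q => ⟨Or.inr (by simp), by simp [pval_one]⟩⟩
  add_mem' := by
    rintro f g ⟨B, hB⟩ ⟨B', hB'⟩
    refine ⟨B + B', ?_⟩
    filter_upwards [hB, hB'] with Q h h'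
    rw [pval_add h.1 h'.1]
    exact ⟨h.1.add h'.1, (norm_add_le _ _).trans (add_le_add h.2 h'.2)⟩
  mul_mem' := by
    rintro f g ⟨B, hB⟩ ⟨B', hB'⟩
    refine ⟨B * B', ?_⟩
    filter_upwards [hB, hB'] with Q h h'
    rw [pval_mul h.1 h'.1, norm_mul]
    exact ⟨(h.1.mul h'.1).mono (by simp),
      mul_le_mul h.2 h'.2 (norm_nonneg _) ((norm_nonneg _).trans h.2)⟩
  neg_mem' := by
    rintro f ⟨B, hB⟩
    refine ⟨B, ?_⟩
    filter_upwards [hB] with Q h
    rw [pval_neg h.1, norm_neg]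
    exact ⟨h.1.neg, h.2⟩
  mem_or_inv_mem' f := by
    by_cases h : ∀ᶠ Q in (U : Filter (Place ℂ F)), OrdGE Q 0 f ∧ ‖pval Q f‖ ≤ 1
    · exact Or.inl ⟨1, h⟩
    · refine Or.inr ⟨1, ?_⟩
      rw [← Ultrafilter.eventually_not] at h
      filter_upwards [h] with Q hQ
      by_cases hr : OrdGE Q 0 f
      · have h1 : 1 < ‖pval Q f‖ := not_le.1 fun hle => hQ ⟨hr, hle⟩
        have hne : pval Q f ≠ 0 := fun h0 => by rw [h0, norm_zero] at h1; linarith
        obtain ⟨hi, hv⟩ := pval_inv hr hne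
        refine ⟨hi, ?_⟩
        rw [hv, norm_inv]
        exact inv_le_one_of_one_le₀ h1.le
      · have hf0 : f ≠ 0 := fun h0 => hr (h0 ▸ OrdGE.zero)
        rw [ordGE_iff_le hf0, not_le] at hr
        have hi : OrdGE Q 1 f⁻¹ := Or.inr (by rw [Q.ord_inv]; omega)
        refine ⟨hi.mono zero_le_one, ?_⟩
        rw [(pval_eq_zero_iff (hi.mono zero_le_one)).2 hi, norm_zero]
        exact zero_le_one

theorem exists_tendsto_of_bounded {U : Ultrafilter (Place ℂ F)} {f : F} {B : ℝ}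
    (h : ∀ᶠ Q in (U : Filter (Place ℂ F)), OrdGE Q 0 f ∧ ‖pval Q f‖ ≤ B) :
    ∃ a, Tendsto (fun Q => pval Q f) (U : Filter (Place ℂ F)) (𝓝 a) := by
  have hle : ((U.map fun Q => pval Q f : Ultrafilter ℂ) : Filter ℂ) ≤
      𝓟 (Metric.closedBall (0 : ℂ) B) := by
    rw [le_principal_iff, Ultrafilter.coe_map, mem_map]
    filter_upwards [h] with Q hQ
    rw [Set.mem_preimage, mem_closedBall_zero_iff]
    exact hQ.2
  obtain ⟨a, -, ha⟩ := (isCompact_closedBall (0 : ℂ) B).ultrafilter_le_nhds _ hle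
  exact ⟨a, ha⟩

/-- **Every ultrafilter of places converges.** -/
theorem exists_conv (U : Ultrafilter (Place ℂ F)) :
    ∃ v, Conv (U : Filter (Place ℂ F)) v := by
  have hK : ∀ c : ℂ, algebraMap ℂ F c ∈ boundedRing U := fun c =>
    ⟨‖c‖, Eventually.of_forall fun Q => ⟨ordGE_algebraMap c, by rw [pval_algebraMap]⟩⟩
  have htop : boundedRing U ≠ ⊤ := fun htop => by
    obtain ⟨x, hx, -⟩ := IsFF.exists_transcendental (K := ℂ) (F := F)
    obtain ⟨B, hB⟩ : x ∈ boundedRing U := htop ▸ ValuationSubring.mem_top _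
    obtain ⟨a, ha⟩ := exists_tendsto_of_bounded hB
    have hne : x - algebraMap ℂ F a ≠ 0 := fun h0 => hx (by
      rw [sub_eq_zero.1 h0]; exact isAlgebraic_algebraMap a)
    obtain ⟨B', hB'⟩ : (x - algebraMap ℂ F a)⁻¹ ∈ boundedRing U :=
      htop ▸ ValuationSubring.mem_top _
    obtain ⟨b, hb⟩ := exists_tendsto_of_bounded hB'
    exact not_tendsto_pval_inv_sub hne (hB.mono fun Q h => h.1) ha (hB'.mono fun Q h => h.1) hb
  refine ⟨placeOfValuationSubring (boundedRing U) hK htop,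
    conv_of_limits _ _ fun f hf => ?_⟩
  obtain ⟨B, hB⟩ : f ∈ boundedRing U := mem_iff_ordGE.2 hf
  exact ⟨hB.mono fun Q h => h.1, exists_tendsto_of_bounded hB⟩

/-- A nonconstant function with a pole at one place only. -/
theorem exists_single_pole (P : Place ℂ F) :
    ∃ f : F, (∀ c : ℂ, f ≠ algebraMap ℂ F c) ∧ ∀ w, w ≠ P → OrdGE w 0 f := by
  obtain ⟨c, hc⟩ := exists_rrDim_eq (K := ℂ) (F := F)
  set n : ℕ := (max c (rGenus ℂ F + 1)).toNat with hn
  have hdeg : Divisor.degree (Finsupp.single P (n : ℤ)) = (n : ℤ) := by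
    rw [Divisor.degree_single, deg_eq_one P, Nat.cast_one, mul_one]
  have hdim := hc (Finsupp.single P (n : ℤ)) (by rw [hdeg]; omega)
  rw [hdeg] at hdim
  obtain ⟨f, hf, hfn⟩ : ∃ f ∈ riemannRochSpace (Finsupp.single P (n : ℤ)),
      ∀ c : ℂ, f ≠ algebraMap ℂ F c := by
    by_contra hno
    push Not at hno
    have hle : riemannRochSpace (Finsupp.single P (n : ℤ)) ≤ Submodule.span ℂ {(1 : F)} := by
      intro f hf
      obtain ⟨c, rfl⟩ := hno f hf
      rw [Algebra.algebraMap_eq_smul_one]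
      exact Submodule.smul_mem _ _ (Submodule.mem_span_singleton_self _)
    have := Submodule.finrank_mono hle
    rw [finrank_span_singleton one_ne_zero] at this
    simp only [rrDim] at hdim
    omega
  refine ⟨f, hfn, fun w hw => ?_⟩
  simpa [Finsupp.single_eq_of_ne hw] using mem_riemannRochSpace.1 hf w

/-- A function regular on a set of places clopen in the charts attains its maximum modulus. -/
theorem exists_norm_max {S : Set (Place ℂ F)} (hne : S.Nonempty)
    (hS : ∀ (v : Place ℂ F) (C : Chart v), ∀ᶠ t in 𝓝 (0 : ℂ), C.pt t ∈ S ↔ v ∈ S) {f : F}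
    (hreg : ∀ Q ∈ S, OrdGE Q 0 f) : ∃ v ∈ S, ∀ Q ∈ S, ‖pval Q f‖ ≤ ‖pval v f‖ := by
  set N : Place ℂ F → ℝ := fun Q => ‖pval Q f‖ with hN
  -- limits along ultrafilters on `S`
  have hlim : ∀ U : Ultrafilter (Place ℂ F), S ∈ U → ∃ v ∈ S,
      Tendsto N (U : Filter (Place ℂ F)) (𝓝 (N v)) := fun U hU => by
    obtain ⟨v, hv⟩ := exists_conv U
    obtain ⟨C⟩ := exists_chart v
    have hvS : v ∈ S := by
      by_contra hvS
      obtain ⟨Q, ⟨t, ht, rfl⟩, hQ⟩ :=
        Filter.nonempty_of_mem (inter_mem (C.cover _ hv _ (hS v C)) hU)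
      exact hvS (ht.1 hQ)
    exact ⟨v, hvS, (hv f (hreg v hvS)).2.norm⟩
  have hbdd : BddAbove (N '' S) := by
    by_contra hb
    have : NeBot (comap N atTop ⊓ 𝓟 S) := by
      rw [neBot_iff, ne_eq, ← empty_mem_iff_bot, mem_inf_principal]
      intro h
      obtain ⟨s, hs, hsub⟩ := mem_comap.1 h
      obtain ⟨b, hb'⟩ := mem_atTop_sets.1 hs
      refine hb ⟨b, ?_⟩
      rintro _ ⟨Q, hQ, rfl⟩
      by_contra hlt
      exact hsub (hb' _ (not_le.1 hlt).le) hQ
    set U := Ultrafilter.of (comap N atTop ⊓ 𝓟 S)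
    have hle : (U : Filter (Place ℂ F)) ≤ comap N atTop ⊓ 𝓟 S := Ultrafilter.of_le _
    obtain ⟨v, -, hv⟩ := hlim U (le_principal_iff.1 (hle.trans inf_le_right))
    exact not_tendsto_nhds_of_tendsto_atTop
      (tendsto_comap.mono_left (hle.trans inf_le_left)) _ hv
  have : NeBot (comap N (𝓝 (sSup (N '' S))) ⊓ 𝓟 S) := by
    rw [neBot_iff, ne_eq, ← empty_mem_iff_bot, mem_inf_principal]
    intro h
    obtain ⟨s, hs, hsub⟩ := mem_comap.1 h
    obtain ⟨x, hx, ⟨Q, hQ, rfl⟩⟩ :=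
      mem_closure_iff_nhds.1 (csSup_mem_closure (hne.image N) hbdd) s hs
    exact hsub hx hQ
  set U := Ultrafilter.of (comap N (𝓝 (sSup (N '' S))) ⊓ 𝓟 S)
  have hle : (U : Filter (Place ℂ F)) ≤ comap N (𝓝 (sSup (N '' S))) ⊓ 𝓟 S := Ultrafilter.of_le _
  obtain ⟨v, hvS, hv⟩ := hlim U (le_principal_iff.1 (hle.trans inf_le_right))
  have hmax : N v = sSup (N '' S) :=
    tendsto_nhds_unique hv (tendsto_comap.mono_left (hle.trans inf_le_left))
  exact ⟨v, hvS, fun Q hQ => (le_csSup hbdd ⟨Q, hQ, rfl⟩).trans hmax.ge⟩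

/-- **A set of places which is clopen in the charts is everything or empty.** -/
theorem eq_univ_of_clopen {S : Set (Place ℂ F)} (hne : S.Nonempty)
    (hS : ∀ (v : Place ℂ F) (C : Chart v), ∀ᶠ t in 𝓝 (0 : ℂ), C.pt t ∈ S ↔ v ∈ S) :
    S = Set.univ := by
  refine Set.eq_univ_of_forall fun P => ?_
  by_contra hP
  obtain ⟨f, hfc, hfreg⟩ := exists_single_pole P
  have hreg : ∀ Q ∈ S, OrdGE Q 0 f := fun Q hQ => hfreg Q fun h => hP (h ▸ hQ)
  obtain ⟨v, hvS, hmax⟩ := exists_norm_max hne hS hreg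
  obtain ⟨C⟩ := exists_chart v
  have hd : ∀ᶠ t in 𝓝 (0 : ℂ), DifferentiableAt ℂ (fun t => pval (C.pt t) f) t :=
    ((C.smooth f (hreg v hvS)).eventually (by simp)).mono fun t ht =>
      ht.differentiableAt (by norm_num)
  have hloc : IsLocalMax (norm ∘ fun t => pval (C.pt t) f) 0 := by
    filter_upwards [hS v C] with t ht
    simp only [Function.comp_apply, C.pt_zero]
    exact hmax _ (ht.2 hvS)
  have hconst := Complex.eventually_eq_of_isLocalMax_norm hd hloc
  -- infinitely many zeros of `f - f(v)`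
  have hne0 : f - algebraMap ℂ F (pval v f) ≠ 0 := sub_ne_zero.2 (hfc _)
  have hfin := finite_ord_ne_zero (K := ℂ) (f - algebraMap ℂ F (pval v f))
  obtain ⟨s, hs, hsub⟩ := (((hconst.and C.pt_u).and (C.regular f (hreg v hvS))).exists_mem)
  have hinj : Set.InjOn C.pt s := fun a ha b hb hab => by
    rw [← (hsub a ha).1.2.2, ← (hsub b hb).1.2.2, hab]
  refine ((infinite_of_mem_nhds (0 : ℂ) hs).image hinj) (hfin.subset ?_)
  rintro _ ⟨t, ht, rfl⟩
  obtain ⟨⟨htc, -⟩, htr⟩ := hsub t ht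
  rw [C.pt_zero] at htc
  have h1 := pval_spec htr
  rw [htc, ordGE_iff_le hne0] at h1
  show (C.pt t).ord _ ≠ 0
  omega

end FermatAgent.Curve.Jac

end
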