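import Mathlib.Analysis.Calculus.ContDiff.Comp
import Mathlib.Analysis.Calculus.ContDiff.Operations
import Mathlib.Analysis.Calculus.ContDiff.RCLike
import Mathlib.Analysis.Calculus.InverseFunctionTheorem.FDeriv
import Mathlib.Analysis.Calculus.MeanValue
import Mathlib.Analysis.Complex.Basic
import Mathlib.Analysis.Normed.Module.FiniteDimension
import Mathlib.Analysis.SpecificLimits.Normed

/-!
# The exponential of a commutative local group

A chunk `φ` of an abelian group, injective near zero and with a twice differentiable addition, is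
linearised by iterated doubling: `z` goes to the limit of the `2 ^ k`-fold doublings of
`z / 2 ^ k`.
-/

set_option autoImplicit false

noncomputable section

open Filter Metric
open scoped Topology ContDiff

namespace FermatAgent.Curve.Jac

variable {V : Type*} [NormedAddCommGroup V]
variable {A : Type*} [AddCommGroup A]

/-- A remainder which vanishes to second order is Lipschitz with small constant. -/
theorem exists_quadratic [NormedSpace ℂ V] {W : Type*} [NormedAddCommGroup W]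
    [NormedSpace ℂ W] {R : W → V}
    (hR : ContDiffAt ℂ 2 R 0) (hd : fderiv ℂ R 0 = 0) :
    ∃ K r : ℝ, 0 ≤ K ∧ 0 < r ∧ ∀ p ∈ closedBall (0 : W) r, ∀ q ∈ closedBall (0 : W) r,
      ‖R p - R q‖ ≤ K * max ‖p‖ ‖q‖ * ‖p - q‖ := by
  let : NormedSpace ℝ W := NormedSpace.restrictScalars ℝ ℂ W
  let : NormedSpace ℝ V := NormedSpace.restrictScalars ℝ ℂ V
  obtain ⟨K, t, ht, hK⟩ :=
    (hR.fderiv_right (m := 1) (by norm_num)).exists_lipschitzOnWith
  obtain ⟨r, hr, hrt⟩ := nhds_basis_closedBall.eventually_iff.1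
    ((eventually_mem_set.2 ht).and
      ((hR.eventually (by simp)).mono fun p hp => hp.differentiableAt (by norm_num)))
  refine ⟨K, r, K.2, hr, fun p hp q hq => ?_⟩
  set M := max ‖p‖ ‖q‖
  have hsub : closedBall (0 : W) M ⊆ closedBall (0 : W) r := closedBall_subset_closedBall
    (max_le (mem_closedBall_zero_iff.1 hp) (mem_closedBall_zero_iff.1 hq))
  have hball : ∀ x ∈ closedBall (0 : W) M, ‖fderiv ℂ R x‖ ≤ (K : ℝ) * M := fun x hx => by
    have h1 := hK.norm_sub_le (hrt (hsub hx)).1 (mem_of_mem_nhds ht)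
    rw [hd, sub_zero, sub_zero] at h1
    exact h1.trans (mul_le_mul_of_nonneg_left (mem_closedBall_zero_iff.1 hx) K.2)
  exact Convex.norm_image_sub_le_of_norm_fderiv_le (fun x hx => (hrt (hsub hx)).2) hball
    (convex_closedBall (0 : W) M) (mem_closedBall_zero_iff.2 (le_max_right _ _))
    (mem_closedBall_zero_iff.2 (le_max_left _ _))

/-- The data of the chunk on one ball. -/
structure ChunkBall (φ : V → A) (m : V × V → V) (K r : ℝ) : Prop where
  K_nonneg : 0 ≤ K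
  r_pos : 0 < r
  small : K * r ≤ 1 / 16
  quad : ∀ p ∈ closedBall (0 : V × V) r, ∀ q ∈ closedBall (0 : V × V) r,
    ‖(m p - p.1 - p.2) - (m q - q.1 - q.2)‖ ≤ K * max ‖p‖ ‖q‖ * ‖p - q‖
  m_zero : m 0 = 0
  map_zero' : φ 0 = 0
  map_add' : ∀ x ∈ closedBall (0 : V) r, ∀ y ∈ closedBall (0 : V) r, φ x + φ y = φ (m (x, y))
  inj : ∀ x ∈ closedBall (0 : V) r, ∀ y ∈ closedBall (0 : V) r, φ x = φ y → x = y

namespace ChunkBall

variable {φ : V → A} {m : V × V → V} {K r : ℝ} (B : ChunkBall φ m K r)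
include B

theorem norm_m_sub {x y : V} (hx : ‖x‖ ≤ r) (hy : ‖y‖ ≤ r) :
    ‖m (x, y) - x - y‖ ≤ K * max ‖x‖ ‖y‖ ^ 2 := by
  have h := B.quad (x, y) (mem_closedBall_zero_iff.2 (max_le hx hy)) 0
    (mem_closedBall_self B.r_pos.le)
  simp only [B.m_zero, Prod.fst_zero, Prod.snd_zero, sub_zero, norm_zero, sub_self] at h
  rw [max_eq_left (norm_nonneg _)] at h
  calc ‖m (x, y) - x - y‖ ≤ K * ‖(x, y)‖ * ‖(x, y)‖ := h
    _ = K * max ‖x‖ ‖y‖ ^ 2 := by rw [Prod.norm_def]; ring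

theorem K_mul_le {t : ℝ} (ht : t ≤ r) : K * t ≤ 1 / 16 :=
  (mul_le_mul_of_nonneg_left ht B.K_nonneg).trans B.small

theorem norm_dbl_sub {x : V} (hx : ‖x‖ ≤ r) : ‖m (x, x) - x - x‖ ≤ K * ‖x‖ ^ 2 := by
  simpa using B.norm_m_sub hx hx

theorem lipschitz {x y : V} (hx : ‖x‖ ≤ r) (hy : ‖y‖ ≤ r) :
    ‖m (x, x) - m (y, y)‖ ≤ 17 / 8 * ‖x - y‖ := by
  have h := B.quad (x, x) (mem_closedBall_zero_iff.2 (max_le hx hx)) (y, y)
    (mem_closedBall_zero_iff.2 (max_le hy hy))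
  simp only [Prod.norm_def, Prod.fst_sub, Prod.snd_sub, max_self] at h
  have h1 := B.K_mul_le (max_le hx hy)
  have h2 := norm_add_le ((m (x, x) - x - x) - (m (y, y) - y - y)) ((x - y) + (x - y))
  rw [show (m (x, x) - x - x) - (m (y, y) - y - y) + ((x - y) + (x - y)) =
    m (x, x) - m (y, y) by abel] at h2
  have h3 := norm_add_le (x - y) (x - y)
  nlinarith [norm_nonneg (x - y), mul_le_mul_of_nonneg_right h1 (norm_nonneg (x - y))]

/-- Iterated doubling. -/
def iter (_B : ChunkBall φ m K r) (j : ℕ) (x : V) : V := (fun y => m (y, y))^[j] x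

theorem iter_succ (j : ℕ) (x : V) : B.iter (j + 1) x = m (B.iter j x, B.iter j x) :=
  Function.iterate_succ_apply' _ _ _

theorem iter_succ' (j : ℕ) (x : V) : B.iter (j + 1) x = B.iter j (m (x, x)) :=
  Function.iterate_succ_apply _ _ _

theorem iter_bound {j : ℕ} {x : V} (hs : (2 : ℝ) ^ j * ‖x‖ ≤ r / 2) :
    ‖B.iter j x‖ ≤ 2 ^ j * ‖x‖ + 2 * K * (2 ^ j * ‖x‖) ^ 2 ∧ ‖B.iter j x‖ ≤ r := by
  induction j with
  | zero =>
    simp only [pow_zero, one_mul] at hs ⊢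
    have := B.r_pos
    exact ⟨le_add_of_nonneg_right (by have := B.K_nonneg; positivity),
      show ‖x‖ ≤ r by linarith⟩
  | succ j ih =>
    set s := (2 : ℝ) ^ j * ‖x‖ with hs'
    have hs0 : 0 ≤ s := by positivity
    have h2s : (2 : ℝ) ^ (j + 1) * ‖x‖ = 2 * s := by rw [hs', pow_succ]; ring
    rw [h2s] at hs ⊢
    obtain ⟨h1, h2⟩ := ih (by linarith)
    have hd := B.norm_dbl_sub h2
    have htri := norm_add_le (m (B.iter j x, B.iter j x) - B.iter j x - B.iter j x)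
      (B.iter j x + B.iter j x)
    rw [show m (B.iter j x, B.iter j x) - B.iter j x - B.iter j x + (B.iter j x + B.iter j x) =
      m (B.iter j x, B.iter j x) by abel, ← B.iter_succ] at htri
    rw [← B.iter_succ] at hd
    have h3 := norm_add_le (B.iter j x) (B.iter j x)
    have hKs : K * s ≤ 1 / 64 := by
      have := mul_le_mul_of_nonneg_left (show s ≤ r / 4 by linarith) B.K_nonneg
      linarith [B.small]
    have hA : ‖B.iter j x‖ ≤ s * (33 / 32) := by nlinarith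
    have hA2 : ‖B.iter j x‖ ^ 2 ≤ (s * (33 / 32)) ^ 2 := pow_le_pow_left₀ (norm_nonneg _) hA 2
    have hK := B.K_nonneg
    have hmain : ‖B.iter (j + 1) x‖ ≤ 2 * s + 2 * K * (2 * s) ^ 2 := by
      nlinarith [mul_le_mul_of_nonneg_left hA2 hK, mul_nonneg hK (sq_nonneg s)]
    exact ⟨hmain, hmain.trans (by nlinarith [B.r_pos])⟩

theorem iter_dist {k : ℕ} {a b : V} (ha : ∀ j ≤ k, ‖B.iter j a‖ ≤ r * (3 / 4))
    (hab : (17 / 8 : ℝ) ^ k * ‖b - a‖ ≤ r / 4) :
    ∀ j ≤ k, ‖B.iter j b - B.iter j a‖ ≤ (17 / 8) ^ j * ‖b - a‖ ∧ ‖B.iter j b‖ ≤ r := by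
  intro j
  induction j with
  | zero =>
    intro hj
    have h0 : ‖b - a‖ ≤ (17 / 8 : ℝ) ^ k * ‖b - a‖ :=
      le_mul_of_one_le_left (norm_nonneg _) (one_le_pow₀ (by norm_num))
    have := ha 0 hj
    refine ⟨by simp [iter], ?_⟩
    show ‖b‖ ≤ r
    have := norm_add_le (b - a) a
    rw [sub_add_cancel] at this
    simp only [iter, Function.iterate_zero, id_eq] at *
    linarith
  | succ j ih =>
    intro hj
    obtain ⟨h1, h2⟩ := ih (by omega)
    have hra : ∀ i ≤ k, ‖B.iter i a‖ ≤ r := fun i hi => (ha i hi).trans (by nlinarith [B.r_pos])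
    have h3 : ‖B.iter (j + 1) b - B.iter (j + 1) a‖ ≤ (17 / 8) ^ (j + 1) * ‖b - a‖ := by
      rw [B.iter_succ, B.iter_succ, pow_succ]
      refine (B.lipschitz h2 (hra j (by omega))).trans ?_
      linarith
    refine ⟨h3, ?_⟩
    have h4 : (17 / 8 : ℝ) ^ (j + 1) * ‖b - a‖ ≤ (17 / 8) ^ k * ‖b - a‖ :=
      mul_le_mul_of_nonneg_right (pow_le_pow_right₀ (by norm_num) hj) (norm_nonneg _)
    have h5 := norm_add_le (B.iter (j + 1) b - B.iter (j + 1) a) (B.iter (j + 1) a)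
    rw [sub_add_cancel] at h5
    linarith [ha (j + 1) hj]

theorem norm_m_le {x y : V} (hx : ‖x‖ ≤ r / 8) (hy : ‖y‖ ≤ r / 8) : ‖m (x, y)‖ ≤ r := by
  have hr := B.r_pos
  have h1 := B.norm_m_sub (show ‖x‖ ≤ r by linarith) (show ‖y‖ ≤ r by linarith)
  have h2 := norm_add_le (m (x, y) - x - y) (x + y)
  rw [show m (x, y) - x - y + (x + y) = m (x, y) by abel] at h2
  have h3 := norm_add_le x y
  have h4 := B.K_mul_le (show max ‖x‖ ‖y‖ ≤ r from max_le (by linarith) (by linarith))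
  nlinarith [le_max_of_le_left (b := ‖x‖) (c := ‖y‖) (norm_nonneg x),
    max_le hx hy]

/-- Doubling commutes with addition while everything stays small. -/
theorem iter_add {k : ℕ} {a b : V} (ha : ∀ j ≤ k, ‖B.iter j a‖ ≤ r / 8)
    (hb : ∀ j ≤ k, ‖B.iter j b‖ ≤ r / 8) (hab : ∀ j ≤ k, ‖B.iter j (m (a, b))‖ ≤ r) :
    B.iter k (m (a, b)) = m (B.iter k a, B.iter k b) := by
  have hball : ∀ {x : V}, ‖x‖ ≤ r → x ∈ closedBall (0 : V) r := fun hx =>
    mem_closedBall_zero_iff.2 hx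
  have hr := B.r_pos
  suffices H : ∀ j ≤ k, B.iter j (m (a, b)) = m (B.iter j a, B.iter j b) from H k le_rfl
  intro j hj
  induction j with
  | zero => rfl
  | succ j ih =>
    have hj' : j ≤ k := by omega
    have h1' := ha j hj'
    have h2' := hb j hj'
    have h1 := ha (j + 1) hj
    have h2 := hb (j + 1) hj
    refine B.inj _ (hball (hab _ hj)) _ (hball (B.norm_m_le h1 h2)) ?_
    rw [← B.map_add' _ (hball (h1.trans (by linarith))) _ (hball (h2.trans (by linarith))),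
      B.iter_succ, B.iter_succ, B.iter_succ,
      ← B.map_add' _ (hball (hab _ hj')) _ (hball (hab _ hj')),
      ← B.map_add' _ (hball (h1'.trans (by linarith))) _ (hball (h1'.trans (by linarith))),
      ← B.map_add' _ (hball (h2'.trans (by linarith))) _ (hball (h2'.trans (by linarith))),
      ih hj', ← B.map_add' _ (hball (h1'.trans (by linarith))) _
        (hball (h2'.trans (by linarith)))]
    abel

/-- The radius of definition of the exponential. -/
def rad (_B : ChunkBall φ m K r) : ℝ := r / 16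

theorem rad_pos : 0 < B.rad := by have := B.r_pos; rw [rad]; linarith

variable [NormedSpace ℂ V]

omit [AddCommGroup A] B in
theorem norm_inv_two_pow_smul (k : ℕ) (z : V) :
    ‖((2 : ℂ) ^ k)⁻¹ • z‖ = ‖z‖ / 2 ^ k := by
  rw [norm_smul, norm_inv, norm_pow, Complex.norm_ofNat, div_eq_inv_mul]

theorem iter_div_bound {k j : ℕ} (hj : j ≤ k) {z : V} (hz : ‖z‖ ≤ r / 2) :
    ‖B.iter j (((2 : ℂ) ^ k)⁻¹ • z)‖ ≤ ‖z‖ + 2 * K * ‖z‖ ^ 2 := by
  have hle : (2 : ℝ) ^ j * ‖((2 : ℂ) ^ k)⁻¹ • z‖ ≤ ‖z‖ :=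
    (mul_le_mul_of_nonneg_right (pow_le_pow_right₀ (by norm_num) hj) (norm_nonneg _)).trans
      (by rw [norm_inv_two_pow_smul, mul_div_cancel₀ _ (by positivity)])
  refine ((B.iter_bound (hle.trans hz)).1).trans (add_le_add hle ?_)
  exact mul_le_mul_of_nonneg_left (pow_le_pow_left₀ (by positivity) hle 2)
    (by have := B.K_nonneg; positivity)

/-- The approximation of the exponential. -/
def approx (_B : ChunkBall φ m K r) (k : ℕ) (z : V) : V :=
  _B.iter k (((2 : ℂ) ^ k)⁻¹ • z)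

theorem iter_div_le {k j : ℕ} (hj : j ≤ k) {z : V} (hz : ‖z‖ ≤ 4 * B.rad) :
    ‖B.iter j (((2 : ℂ) ^ k)⁻¹ • z)‖ ≤ r * (3 / 4) := by
  have hr := B.r_pos
  rw [rad] at hz
  refine (B.iter_div_bound hj (by linarith)).trans ?_
  have := B.K_mul_le (show ‖z‖ ≤ r by linarith)
  nlinarith [norm_nonneg z]

theorem iter_div_small {k j : ℕ} (hj : j ≤ k) {z : V} (hz : ‖z‖ ≤ B.rad) :
    ‖B.iter j (((2 : ℂ) ^ k)⁻¹ • z)‖ ≤ r / 8 := by
  have hr := B.r_pos
  rw [rad] at hz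
  refine (B.iter_div_bound hj (by linarith)).trans ?_
  have := B.K_mul_le (show ‖z‖ ≤ r by linarith)
  nlinarith [norm_nonneg z]

theorem approx_dist {k : ℕ} {z : V} (hz : ‖z‖ ≤ 4 * B.rad) :
    ‖B.approx (k + 1) z - B.approx k z‖ ≤ (17 / 32) ^ k * (K * ‖z‖ ^ 2 / 4) := by
  have hr := B.r_pos
  have hzr : ‖z‖ ≤ r := by rw [rad] at hz; linarith
  set a := ((2 : ℂ) ^ (k + 1))⁻¹ • z with ha
  have haa : a + a = ((2 : ℂ) ^ k)⁻¹ • z := by
    rw [ha, ← add_smul]
    congr 1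
    rw [pow_succ, mul_inv]
    ring
  have hna : ‖a‖ = ‖z‖ / 2 ^ (k + 1) := norm_inv_two_pow_smul _ z
  have har : ‖a‖ ≤ r :=
    hna ▸ (div_le_self (norm_nonneg _) (one_le_pow₀ (by norm_num))).trans hzr
  have hsub : ‖m (a, a) - ((2 : ℂ) ^ k)⁻¹ • z‖ ≤ K * ‖a‖ ^ 2 := by
    rw [← haa, ← sub_sub]; exact B.norm_dbl_sub har
  have hKa : (17 / 8 : ℝ) ^ k * (K * ‖a‖ ^ 2) = (17 / 32) ^ k * (K * ‖z‖ ^ 2 / 4) := by
    rw [hna, div_pow (‖z‖), ← pow_mul, pow_mul', show (2 : ℝ) ^ 2 = 4 by norm_num,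
      show (17 / 32 : ℝ) ^ k = (17 / 8) ^ k / 4 ^ k by rw [← div_pow]; norm_num, pow_succ]
    field_simp
    ring
  have hsmall : (17 / 8 : ℝ) ^ k * ‖m (a, a) - ((2 : ℂ) ^ k)⁻¹ • z‖ ≤ r / 4 := by
    refine (mul_le_mul_of_nonneg_left hsub (by positivity)).trans (hKa.le.trans ?_)
    have h1 := B.K_mul_le hzr
    have h2 : (17 / 32 : ℝ) ^ k ≤ 1 := pow_le_one₀ (by norm_num) (by norm_num)
    have h3 : 0 ≤ K * ‖z‖ ^ 2 / 4 := by have := B.K_nonneg; positivity
    nlinarith [norm_nonneg z, mul_le_mul_of_nonneg_right h2 h3]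
  obtain ⟨h1, -⟩ := B.iter_dist (fun j hj => B.iter_div_le hj hz) hsmall k le_rfl
  rw [approx, approx, ← ha, B.iter_succ']
  exact h1.trans ((mul_le_mul_of_nonneg_left hsub (by positivity)).trans hKa.le)

variable [CompleteSpace V]

/-- The doublings of the halves converge, to second order near the identity. -/
theorem exists_limit {z : V} (hz : ‖z‖ ≤ 4 * B.rad) :
    ∃ E, Tendsto (fun k => B.approx k z) atTop (𝓝 E) ∧ ‖E - z‖ ≤ K * ‖z‖ ^ 2 := by
  have hd : ∀ k, dist (B.approx k z) (B.approx (k + 1) z) ≤ (K * ‖z‖ ^ 2 / 4) * (17 / 32) ^ k :=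
    fun k => by rw [dist_comm, dist_eq_norm, mul_comm]; exact B.approx_dist hz
  obtain ⟨E, hE⟩ := cauchySeq_tendsto_of_complete
    (cauchySeq_of_le_geometric (17 / 32) _ (by norm_num) hd)
  refine ⟨E, hE, ?_⟩
  have h := dist_le_of_le_geometric_of_tendsto₀ (17 / 32) _ (by norm_num) hd hE
  rw [dist_comm, dist_eq_norm] at h
  have h0 : B.approx 0 z = z := by simp [approx, iter]
  rw [h0] at h
  refine h.trans ?_
  have : 0 ≤ K * ‖z‖ ^ 2 := by have := B.K_nonneg; positivity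
  norm_num
  linarith

/-- The exponential in the chunk. -/
def expV (B : ChunkBall φ m K r) (z : V) : V :=
  letI := Classical.propDecidable
  if h : ‖z‖ ≤ 4 * B.rad then (B.exists_limit h).choose else 0

theorem expV_spec {z : V} (hz : ‖z‖ ≤ 4 * B.rad) :
    Tendsto (fun k => B.approx k z) atTop (𝓝 (B.expV z)) ∧ ‖B.expV z - z‖ ≤ K * ‖z‖ ^ 2 := by
  rw [expV, dif_pos hz]
  exact (B.exists_limit hz).choose_spec

theorem norm_expV_le {z : V} (hz : ‖z‖ ≤ 4 * B.rad) : ‖B.expV z‖ ≤ r / 2 := by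
  obtain ⟨-, h⟩ := B.expV_spec hz
  have hr := B.r_pos
  rw [rad] at hz
  have h1 := B.K_mul_le (show ‖z‖ ≤ r by linarith)
  have h2 := norm_add_le (B.expV z - z) z
  rw [sub_add_cancel] at h2
  nlinarith [norm_nonneg z]

/-- The exponential turns addition into the law of the chunk. -/
theorem m_expV (hm : ∀ x : V × V, ‖x‖ ≤ r / 2 → ContinuousAt m x) {z w : V} (hz : ‖z‖ ≤ B.rad)
    (hw : ‖w‖ ≤ B.rad) : m (B.expV z, B.expV w) = B.expV (z + w) := by
  have hr := B.r_pos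
  have hzw : ‖z + w‖ ≤ 2 * B.rad := (norm_add_le z w).trans (by linarith)
  have hpos := B.rad_pos
  have hlimz := (B.expV_spec (show ‖z‖ ≤ 4 * B.rad by linarith)).1
  have hlimw := (B.expV_spec (show ‖w‖ ≤ 4 * B.rad by linarith)).1
  have hlim := (B.expV_spec (show ‖z + w‖ ≤ 4 * B.rad by linarith)).1
  have h1 : Tendsto (fun k => m (B.approx k z, B.approx k w)) atTop
      (𝓝 (m (B.expV z, B.expV w))) :=
    (hm _ (max_le (B.norm_expV_le (by linarith)) (B.norm_expV_le (by linarith)))).tendsto.comp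
      (hlimz.prodMk_nhds hlimw)
  refine tendsto_nhds_unique h1 (tendsto_of_tendsto_of_dist hlim ?_)
  refine squeeze_zero' (Eventually.of_forall fun k => dist_nonneg)
    (Eventually.of_forall fun k => ?_)
    (show Tendsto (fun k : ℕ => (17 / 32 : ℝ) ^ k * (K * B.rad ^ 2)) atTop (𝓝 0) by
      simpa using (tendsto_pow_atTop_nhds_zero_of_lt_one (by norm_num : (0 : ℝ) ≤ 17 / 32)
        (by norm_num)).mul_const _)
  set a := ((2 : ℂ) ^ k)⁻¹ • z with ha
  set b := ((2 : ℂ) ^ k)⁻¹ • w with hb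
  have hna : ‖a‖ ≤ B.rad / 2 ^ k := (norm_inv_two_pow_smul k z).trans_le (by gcongr)
  have hnb : ‖b‖ ≤ B.rad / 2 ^ k := (norm_inv_two_pow_smul k w).trans_le (by gcongr)
  have hle : B.rad / 2 ^ k ≤ B.rad := div_le_self hpos.le (one_le_pow₀ (by norm_num))
  have hradr : B.rad ≤ r := by rw [rad]; linarith
  have hquad : ‖m (a, b) - ((2 : ℂ) ^ k)⁻¹ • (z + w)‖ ≤ K * (B.rad / 2 ^ k) ^ 2 := by
    rw [smul_add, ← ha, ← hb, ← sub_sub]
    refine (B.norm_m_sub (hna.trans (hle.trans hradr)) (hnb.trans (hle.trans hradr))).trans ?_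
    exact mul_le_mul_of_nonneg_left (pow_le_pow_left₀ (le_max_of_le_left (norm_nonneg _))
      (max_le hna hnb) 2) B.K_nonneg
  have hgeo : (17 / 8 : ℝ) ^ k * (K * (B.rad / 2 ^ k) ^ 2) = (17 / 32) ^ k * (K * B.rad ^ 2) := by
    rw [div_pow B.rad, ← pow_mul, pow_mul', show (2 : ℝ) ^ 2 = 4 by norm_num,
      show (17 / 32 : ℝ) ^ k = (17 / 8) ^ k / 4 ^ k by rw [← div_pow]; norm_num]
    field_simp
  have hiter : ∀ j ≤ k, ‖B.iter j (((2 : ℂ) ^ k)⁻¹ • (z + w))‖ ≤ r * (3 / 4) := fun j hj =>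
    B.iter_div_le hj (by linarith)
  have hsmall : (17 / 8 : ℝ) ^ k * ‖m (a, b) - ((2 : ℂ) ^ k)⁻¹ • (z + w)‖ ≤ r / 4 := by
    refine (mul_le_mul_of_nonneg_left hquad (by positivity)).trans (hgeo.le.trans ?_)
    have h2 : (17 / 32 : ℝ) ^ k ≤ 1 := pow_le_one₀ (by norm_num) (by norm_num)
    have h3 := B.K_mul_le hradr
    have h4 : 0 ≤ K * B.rad ^ 2 := by have := B.K_nonneg; positivity
    nlinarith [mul_le_mul_of_nonneg_right h2 h4]
  obtain ⟨hdist, -⟩ := B.iter_dist hiter hsmall k le_rfl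
  have heq := B.iter_add (fun j hj => B.iter_div_small hj hz) (fun j hj => B.iter_div_small hj hw)
    fun j hj => (B.iter_dist hiter hsmall j hj).2
  rw [dist_eq_norm, norm_sub_rev]
  show ‖m (B.approx k z, B.approx k w) - B.approx k (z + w)‖ ≤ _
  rw [approx, approx, approx, ← ha, ← hb, ← heq]
  exact hdist.trans ((mul_le_mul_of_nonneg_left hquad (by positivity)).trans hgeo.le)

/-- The exponential followed by `φ` is additive near zero. -/
theorem phi_expV_add (hm : ∀ x : V × V, ‖x‖ ≤ r / 2 → ContinuousAt m x) {z w : V}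
    (hz : ‖z‖ ≤ B.rad) (hw : ‖w‖ ≤ B.rad) :
    φ (B.expV z) + φ (B.expV w) = φ (B.expV (z + w)) := by
  have hr := B.r_pos
  have hb : ∀ {x : V}, ‖x‖ ≤ B.rad → B.expV x ∈ closedBall (0 : V) r := fun hx =>
    mem_closedBall_zero_iff.2
      ((B.norm_expV_le (hx.trans (by linarith [B.rad_pos]))).trans (by linarith))
  rw [B.map_add' _ (hb hz) _ (hb hw), B.m_expV hm hz hw]

theorem expV_zero : B.expV 0 = 0 := by
  obtain ⟨-, h⟩ := B.expV_spec (z := 0) (by rw [norm_zero]; linarith [B.rad_pos])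
  simpa using h

theorem phi_expV_nsmul (hm : ∀ x : V × V, ‖x‖ ≤ r / 2 → ContinuousAt m x) :
    ∀ (n : ℕ) {z : V}, (n : ℝ) * ‖z‖ ≤ B.rad → φ (B.expV ((n : ℂ) • z)) = n • φ (B.expV z) := by
  intro n
  induction n with
  | zero => intro z _; simp [B.expV_zero, B.map_zero']
  | succ n ih =>
    intro z hz
    push_cast at hz
    have hn : (n : ℝ) * ‖z‖ ≤ B.rad := by nlinarith [norm_nonneg z]
    have hz1 : ‖z‖ ≤ B.rad := by
      have : (0 : ℝ) ≤ n * ‖z‖ := by positivity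
      linarith
    rw [succ_nsmul, ← ih hn, Nat.cast_succ, add_smul, one_smul]
    refine (B.phi_expV_add hm ?_ hz1).symm
    rwa [norm_smul, Complex.norm_natCast]

omit [NormedSpace ℂ V] [CompleteSpace V] in
/-- A power of two bringing `z` into the chunk. -/
theorem exists_scale (z : V) : ∃ n : ℕ, ‖z‖ ≤ 2 ^ n * B.rad := by
  obtain ⟨n, hn⟩ := pow_unbounded_of_one_lt (‖z‖ / B.rad) (by norm_num : (1 : ℝ) < 2)
  exact ⟨n, ((div_lt_iff₀ B.rad_pos).1 hn).le⟩

/-- The exponential in the group, at one scale. -/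
def expAt (B : ChunkBall φ m K r) (n : ℕ) (z : V) : A :=
  (2 ^ n : ℕ) • φ (B.expV (((2 : ℂ) ^ n)⁻¹ • z))

theorem expAt_succ (hm : ∀ x : V × V, ‖x‖ ≤ r / 2 → ContinuousAt m x) {n : ℕ} {z : V}
    (h : ‖z‖ ≤ 2 ^ n * B.rad) : B.expAt (n + 1) z = B.expAt n z := by
  rw [expAt, expAt, pow_succ, mul_nsmul', ← B.phi_expV_nsmul hm 2]
  · congr 3
    rw [smul_smul, pow_succ, mul_inv, Nat.cast_ofNat]
    congr 1
    ring
  · rw [norm_inv_two_pow_smul, pow_succ, Nat.cast_ofNat]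
    field_simp
    linarith

theorem expAt_stable (hm : ∀ x : V × V, ‖x‖ ≤ r / 2 → ContinuousAt m x) {n n' : ℕ} {z : V}
    (h : ‖z‖ ≤ 2 ^ n * B.rad) (hn : n ≤ n') : B.expAt n' z = B.expAt n z := by
  induction hn with
  | refl => rfl
  | @step j hj ih =>
    rw [B.expAt_succ hm (h.trans
      (mul_le_mul_of_nonneg_right (pow_le_pow_right₀ (by norm_num) hj) B.rad_pos.le)), ih]

omit [CompleteSpace V] in
theorem norm_inv_two_pow_smul_le {n n' : ℕ} {z : V} (h : ‖z‖ ≤ 2 ^ n * B.rad) (hn : n ≤ n') :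
    ‖((2 : ℂ) ^ n')⁻¹ • z‖ ≤ B.rad := by
  rw [norm_inv_two_pow_smul, div_le_iff₀' (by positivity)]
  exact h.trans (mul_le_mul_of_nonneg_right (pow_le_pow_right₀ (by norm_num) hn) B.rad_pos.le)

/-- **The exponential.** -/
def expA (B : ChunkBall φ m K r) (hm : ∀ x : V × V, ‖x‖ ≤ r / 2 → ContinuousAt m x) : V →+ A :=
  AddMonoidHom.mk' (fun z => B.expAt (B.exists_scale z).choose z) fun z w => by
    obtain ⟨hz, hw, hzw⟩ := (B.exists_scale z).choose_spec, (B.exists_scale w).choose_spec,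
      (B.exists_scale (z + w)).choose_spec
    set n := (B.exists_scale z).choose + (B.exists_scale w).choose +
      (B.exists_scale (z + w)).choose
    show B.expAt _ (z + w) = B.expAt _ z + B.expAt _ w
    rw [← B.expAt_stable hm (B.exists_scale z).choose_spec (show _ ≤ n by omega),
      ← B.expAt_stable hm (B.exists_scale w).choose_spec (show _ ≤ n by omega),
      ← B.expAt_stable hm (B.exists_scale (z + w)).choose_spec (show _ ≤ n by omega),
      expAt, expAt, expAt, ← nsmul_add, B.phi_expV_add hm ?_ ?_, smul_add]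
    · exact B.norm_inv_two_pow_smul_le (B.exists_scale z).choose_spec (by omega)
    · exact B.norm_inv_two_pow_smul_le (B.exists_scale w).choose_spec (by omega)

theorem expA_apply (hm : ∀ x : V × V, ‖x‖ ≤ r / 2 → ContinuousAt m x) {z : V}
    (h : ‖z‖ ≤ B.rad) : B.expA hm z = φ (B.expV z) := by
  show B.expAt _ z = _
  rw [B.expAt_stable hm (show ‖z‖ ≤ 2 ^ 0 * B.rad by simpa using h) (Nat.zero_le _)]
  simp [expAt]

/-- The exponential has discrete kernel. -/
theorem expA_eq_zero (hm : ∀ x : V × V, ‖x‖ ≤ r / 2 → ContinuousAt m x) {z : V}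
    (h : ‖z‖ ≤ B.rad) (h0 : B.expA hm z = 0) : z = 0 := by
  have hr := B.r_pos
  have hrad : B.rad = r / 16 := rfl
  rw [B.expA_apply hm h, ← B.map_zero'] at h0
  have h4 : ‖z‖ ≤ 4 * B.rad := by linarith [B.rad_pos]
  have h1 : B.expV z = 0 := B.inj _
    (mem_closedBall_zero_iff.2 ((B.norm_expV_le h4).trans (by linarith))) _
    (mem_closedBall_self hr.le) h0
  have h2 := (B.expV_spec h4).2
  rw [h1, zero_sub, norm_neg] at h2
  have h3 := B.K_mul_le (show ‖z‖ ≤ r by linarith)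
  exact norm_eq_zero.1 (le_antisymm (by nlinarith [norm_nonneg z]) (norm_nonneg z))

omit [AddCommGroup A] [NormedSpace ℂ V] [CompleteSpace V] B in
/-- The iterated halves of a small vector decrease geometrically. -/
theorem norm_iterate_le {h : V → V} (hh2 : ∀ x, ‖x‖ ≤ r / 2 → ‖h x‖ ≤ 8 / 15 * ‖x‖) {x : V}
    (hx : ‖x‖ ≤ r / 2) (k : ℕ) :
    ‖h^[k] x‖ ≤ (8 / 15 : ℝ) ^ k * ‖x‖ ∧ ‖h^[k] x‖ ≤ r / 2 := by
  suffices H : ‖h^[k] x‖ ≤ (8 / 15 : ℝ) ^ k * ‖x‖ from ⟨H, H.trans ((mul_le_of_le_one_left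
    (norm_nonneg _) (pow_le_one₀ (by norm_num) (by norm_num))).trans hx)⟩
  induction k with
  | zero => simp
  | succ k ih =>
    have : ‖h^[k] x‖ ≤ r / 2 := ih.trans ((mul_le_of_le_one_left (norm_nonneg _)
      (pow_le_one₀ (by norm_num) (by norm_num))).trans hx)
    rw [Function.iterate_succ_apply', pow_succ]
    exact (hh2 _ this).trans (by linarith)

omit [NormedSpace ℂ V] [CompleteSpace V] in
/-- Doubling the iterated halves gives back the vector. -/
theorem iter_iterate {h : V → V} (hh : ∀ x, ‖x‖ ≤ r / 2 → m (h x, h x) = x) {x : V}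
    (hx : ∀ k, ‖h^[k] x‖ ≤ r / 2) {j k : ℕ} (hj : j ≤ k) :
    B.iter j (h^[k] x) = h^[k - j] x := by
  induction j with
  | zero => rfl
  | succ j ih =>
    rw [B.iter_succ, ih (by omega),
      show h^[k - j] x = h (h^[k - (j + 1)] x) by
        rw [show k - j = (k - (j + 1)) + 1 by omega]
        exact Function.iterate_succ_apply' _ _ _]
    exact hh _ (hx _)

/-- **Small elements of the chunk are exponentials of small vectors.** -/
theorem exists_expV_eq {h : V → V} (hh : ∀ x, ‖x‖ ≤ r / 2 → m (h x, h x) = x ∧ ‖h x‖ ≤ r)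
    (hh2 : ∀ x, ‖x‖ ≤ r / 2 → ‖h x‖ ≤ 8 / 15 * ‖x‖) {x : V} (hx : ‖x‖ ≤ B.rad / 2) :
    ∃ L, ‖L‖ ≤ B.rad ∧ B.expV L = x := by
  have hr := B.r_pos
  have hrad : B.rad = r / 16 := rfl
  have hpos := B.rad_pos
  set y : ℕ → V := fun k => h^[k] x with hy
  have hyb : ∀ k, ‖y k‖ ≤ (8 / 15 : ℝ) ^ k * ‖x‖ := fun k =>
    (norm_iterate_le hh2 (show ‖x‖ ≤ r / 2 by linarith) k).1
  have hyr : ∀ k, ‖y k‖ ≤ r / 2 := fun k => (norm_iterate_le hh2 (by linarith) k).2
  set L : ℕ → V := fun k => ((2 : ℂ) ^ k) • y k with hL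
  have hd : ∀ k, dist (L k) (L (k + 1)) ≤ (K * ‖x‖ ^ 2) * (128 / 225) ^ k := fun k => by
    have h1 := B.norm_dbl_sub (hh _ (hyr k)).2
    rw [(hh _ (hyr k)).1, sub_sub, ← two_smul ℂ (h (y k))] at h1
    rw [dist_eq_norm]
    show ‖((2 : ℂ) ^ k) • y k - ((2 : ℂ) ^ (k + 1)) • y (k + 1)‖ ≤ _
    rw [show y (k + 1) = h (y k) from Function.iterate_succ_apply' _ _ _, pow_succ, ← smul_smul,
      ← smul_sub, norm_smul, norm_pow, Complex.norm_ofNat]
    refine (mul_le_mul_of_nonneg_left h1 (by positivity)).trans ?_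
    have h2 : ‖h (y k)‖ ≤ 8 / 15 * ((8 / 15) ^ k * ‖x‖) :=
      (hh2 _ (hyr k)).trans (mul_le_mul_of_nonneg_left (hyb k) (by norm_num))
    refine (mul_le_mul_of_nonneg_left (mul_le_mul_of_nonneg_left
      (pow_le_pow_left₀ (norm_nonneg _) h2 2) B.K_nonneg) (by positivity)).trans ?_
    have h3 : (2 : ℝ) ^ k * ((8 / 15 : ℝ) ^ k) ^ 2 = (128 / 225) ^ k := by
      rw [← pow_mul, mul_comm k 2, pow_mul, ← mul_pow]; norm_num
    have h4 : (2 : ℝ) ^ k * (K * (8 / 15 * ((8 / 15) ^ k * ‖x‖)) ^ 2) =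
        (8 / 15) ^ 2 * (K * ‖x‖ ^ 2) * (128 / 225) ^ k := by rw [← h3]; ring
    rw [h4]
    have : 0 ≤ (K * ‖x‖ ^ 2) * (128 / 225 : ℝ) ^ k := by have := B.K_nonneg; positivity
    linarith
  obtain ⟨Linf, hLinf⟩ := cauchySeq_tendsto_of_complete
    (cauchySeq_of_le_geometric (128 / 225) _ (by norm_num) hd)
  have hKx := B.K_mul_le (show ‖x‖ ≤ r by linarith)
  have hLk : ∀ k, ‖L k - Linf‖ ≤ K * ‖x‖ ^ 2 * (128 / 225) ^ k * (225 / 97) := fun k => by
    have := dist_le_of_le_geometric_of_tendsto (128 / 225) _ (by norm_num) hd hLinf k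
    rw [dist_eq_norm] at this
    refine this.trans ?_
    rw [show (1 - 128 / 225 : ℝ) = 97 / 225 by norm_num]
    ring_nf
    rfl
  have hLn : ‖Linf‖ ≤ B.rad := by
    have h0 := hLk 0
    have h1 := norm_sub_norm_le Linf (L 0)
    rw [norm_sub_rev] at h1
    have hL0 : L 0 = x := by simp [hL, hy]
    rw [hL0] at h0 h1
    rw [pow_zero, mul_one] at h0
    nlinarith [norm_nonneg x]
  refine ⟨Linf, hLn, tendsto_nhds_unique (B.expV_spec (by linarith)).1 ?_⟩
  have hback : ∀ k, B.iter k (y k) = y 0 := fun k => by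
    simpa [hy] using B.iter_iterate (fun z hz => (hh z hz).1) hyr (le_refl k)
  refine tendsto_iff_norm_sub_tendsto_zero.2 (squeeze_zero'
    (Eventually.of_forall fun k => norm_nonneg _)
    (Eventually.of_forall fun k => ?_)
    (show Tendsto (fun k : ℕ => (136 / 225 : ℝ) ^ k * (K * ‖x‖ ^ 2 * (225 / 97))) atTop (𝓝 0) by
      simpa using (tendsto_pow_atTop_nhds_zero_of_lt_one (by norm_num : (0 : ℝ) ≤ 136 / 225)
        (by norm_num)).mul_const _))
  set a := ((2 : ℂ) ^ k)⁻¹ • Linf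
  have hya : (17 / 8 : ℝ) ^ k * ‖y k - a‖ ≤ (136 / 225 : ℝ) ^ k * (K * ‖x‖ ^ 2 * (225 / 97)) := by
    have h1 : y k = ((2 : ℂ) ^ k)⁻¹ • L k := by
      rw [hL, smul_smul, inv_mul_cancel₀ (pow_ne_zero _ two_ne_zero), one_smul]
    rw [h1, ← smul_sub, norm_smul, norm_inv, norm_pow, Complex.norm_ofNat]
    refine (mul_le_mul_of_nonneg_left (mul_le_mul_of_nonneg_left (hLk k) (by positivity))
      (by positivity)).trans (le_of_eq ?_)
    rw [show (136 / 225 : ℝ) ^ k = (17 / 8) ^ k * ((2 : ℝ) ^ k)⁻¹ * (128 / 225) ^ k by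
      rw [← inv_pow, ← mul_pow, ← mul_pow]; norm_num]
    ring
  have hsmall : (17 / 8 : ℝ) ^ k * ‖y k - a‖ ≤ r / 4 := by
    refine hya.trans ?_
    have h2 : (136 / 225 : ℝ) ^ k ≤ 1 := pow_le_one₀ (by norm_num) (by norm_num)
    have h3 : 0 ≤ K * ‖x‖ ^ 2 * (225 / 97) := by have := B.K_nonneg; positivity
    nlinarith [norm_nonneg x, mul_le_mul_of_nonneg_right h2 h3]
  obtain ⟨h1, -⟩ := B.iter_dist (fun j hj => B.iter_div_le hj (show ‖Linf‖ ≤ 4 * B.rad by linarith))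
    hsmall k le_rfl
  rw [hback k] at h1
  rw [approx, norm_sub_rev]
  exact le_trans (le_of_eq (by simp [hy])) (h1.trans hya)

end ChunkBall

variable [NormedSpace ℂ V] [CompleteSpace V]

omit [CompleteSpace V] in
/-- The derivative at zero of the addition of a chunk is the sum. -/
theorem hasFDerivAt_add_law {φ : V → A} {m : V × V → V} (hm : ContDiffAt ℂ 2 m 0) (hm0 : m 0 = 0)
    (hφ0 : φ 0 = 0) (hadd : ∀ᶠ p in 𝓝 (0 : V × V), φ p.1 + φ p.2 = φ (m p))
    (hinj : ∀ᶠ p in 𝓝 (0 : V × V), φ p.1 = φ p.2 → p.1 = p.2) :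
    HasFDerivAt m (fderiv ℂ m 0) 0 ∧ ∀ p : V × V, fderiv ℂ m 0 p = p.1 + p.2 := by
  set L := fderiv ℂ m 0
  have hL : HasFDerivAt m L 0 := (hm.differentiableAt (by norm_num)).hasFDerivAt
  have hpair : ∀ (f : V → V × V), Continuous f → f 0 = 0 →
      (∀ x, φ (f x).1 + φ (f x).2 = φ x) → (fun x => m (f x)) =ᶠ[𝓝 (0 : V)] id := by
    intro f hf hf0 hfx
    have h1 : Tendsto f (𝓝 0) (𝓝 0) := hf.tendsto' 0 0 hf0
    have h2 : Tendsto (fun x => (m (f x), x)) (𝓝 0) (𝓝 (0 : V × V)) := by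
      have : Tendsto m (𝓝 0) (𝓝 0) := by simpa [ContinuousAt, hm0] using hm.continuousAt
      exact (this.comp h1).prodMk_nhds tendsto_id
    filter_upwards [h1.eventually hadd, h2.eventually hinj] with x ha hi
    exact hi (ha.symm.trans (hfx x))
  have hL1 : L.comp (ContinuousLinearMap.inl ℂ V V) = ContinuousLinearMap.id ℂ V := by
    have h1 : HasFDerivAt (fun x => m (x, (0 : V))) (L.comp (ContinuousLinearMap.inl ℂ V V)) 0 :=
      hL.comp (f := fun x : V => (x, (0 : V))) (0 : V) (hasFDerivAt_prodMk_left (0 : V) (0 : V))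
    exact h1.unique ((hasFDerivAt_id 0).congr_of_eventuallyEq
      (hpair (fun x => (x, 0)) (continuous_id.prodMk continuous_const) rfl fun x => by simp [hφ0]))
  have hL2 : L.comp (ContinuousLinearMap.inr ℂ V V) = ContinuousLinearMap.id ℂ V := by
    have h1 : HasFDerivAt (fun x => m ((0 : V), x)) (L.comp (ContinuousLinearMap.inr ℂ V V)) 0 :=
      hL.comp (f := fun x : V => ((0 : V), x)) (0 : V) (hasFDerivAt_prodMk_right (0 : V) (0 : V))
    exact h1.unique ((hasFDerivAt_id 0).congr_of_eventuallyEq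
      (hpair (fun x => (0, x)) (continuous_const.prodMk continuous_id) rfl fun x => by simp [hφ0]))
  refine ⟨hL, fun p => ?_⟩
  conv_lhs =>
    rw [show p = ContinuousLinearMap.inl ℂ V V p.1 + ContinuousLinearMap.inr ℂ V V p.2 by
      simp]
  rw [map_add, ← ContinuousLinearMap.comp_apply, ← ContinuousLinearMap.comp_apply, hL1, hL2]
  simp

/-- Halving near zero: a local inverse of doubling, contracting by nearly one half. -/
theorem exists_halving {m : V × V → V} (hm : ContDiffAt ℂ 2 m 0) (hm0 : m 0 = 0)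
    (hLp : ∀ p : V × V, fderiv ℂ m 0 p = p.1 + p.2) {K r₀ : ℝ} (hK : 0 ≤ K) (hr₀ : 0 < r₀)
    (hquad : ∀ p ∈ closedBall (0 : V × V) r₀, ∀ q ∈ closedBall (0 : V × V) r₀,
      ‖(m p - p.1 - p.2) - (m q - q.1 - q.2)‖ ≤ K * max ‖p‖ ‖q‖ * ‖p - q‖) :
    ∃ h : V → V, (∀ᶠ x in 𝓝 (0 : V), m (h x, h x) = x) ∧ Tendsto h (𝓝 0) (𝓝 0) ∧
      ∀ᶠ x in 𝓝 (0 : V), ‖h x‖ ≤ 8 / 15 * ‖x‖ := by
  set d : V → V := fun x => m (x, x) with hd
  have hdd : HasStrictFDerivAt d
      ((ContinuousLinearEquiv.smulLeft (Units.mk0 (2 : ℂ) two_ne_zero) : V ≃L[ℂ] V) : V →L[ℂ] V)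
      0 := by
    have h1 : HasStrictFDerivAt d ((fderiv ℂ m 0).comp ((ContinuousLinearMap.id ℂ V).prod
        (ContinuousLinearMap.id ℂ V))) 0 :=
      HasStrictFDerivAt.comp (g := m) (f := fun x : V => (x, x)) 0
        (hm.hasStrictFDerivAt (by norm_num))
        ((hasStrictFDerivAt_id 0).prodMk (hasStrictFDerivAt_id 0))
    refine h1.congr_fderiv ?_
    ext x
    simp [hLp, two_smul]
  set h := hdd.localInverse with hh
  have hd0 : d 0 = 0 := hm0
  have hright : ∀ᶠ x in 𝓝 (0 : V), d (h x) = x := by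
    have := hdd.eventually_right_inverse
    rwa [hd0] at this
  have hh0 : h 0 = 0 := by
    have := hdd.localInverse_apply_image
    rwa [hd0] at this
  have hht : Tendsto h (𝓝 0) (𝓝 0) := by
    have := hdd.localInverse_continuousAt
    rw [ContinuousAt, hd0, ← hh, hh0] at this
    exact this
  have hhalf : ∀ᶠ x in 𝓝 (0 : V), ‖h x‖ ≤ 8 / 15 * ‖x‖ := by
    obtain ⟨ε, hε, hεK⟩ : ∃ ε : ℝ, 0 < ε ∧ K * ε ≤ 1 / 16 :=
      ⟨1 / (16 * (K + 1)), by positivity, by rw [mul_one_div, div_le_div_iff₀] <;> nlinarith⟩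
    filter_upwards [hright, hht.eventually (closedBall_mem_nhds (0 : V) (lt_min hε hr₀))]
      with x hx hb
    rw [dist_zero_right, le_min_iff] at hb
    have h1 := hquad (h x, h x) (mem_closedBall_zero_iff.2 (max_le hb.2 hb.2)) 0
      (mem_closedBall_self hr₀.le)
    have h2 : m (h x, h x) = x := hx
    simp only [h2, hm0, Prod.fst_zero, Prod.snd_zero, sub_zero, sub_self, norm_zero,
      Prod.norm_def, max_self] at h1
    rw [max_eq_left (norm_nonneg _)] at h1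
    have h3 := norm_sub_norm_le (h x + h x) x
    rw [show h x + h x - x = -(x - h x - h x) by abel, norm_neg] at h3
    have h4 : ‖h x + h x‖ = 2 * ‖h x‖ := by rw [← two_smul ℂ, norm_smul, Complex.norm_ofNat]
    have h5 : ‖x - h x - h x‖ ≤ K * ‖h x‖ * ‖h x‖ := by
      refine le_trans (le_of_eq ?_) h1
      rw [← norm_neg]
    nlinarith [norm_nonneg (h x), mul_le_mul_of_nonneg_left hb.1 hK]
  exact ⟨h, hright, hht, hhalf⟩

/-- **Linearisation of a chunk.** -/
theorem exists_exp {φ : V → A} {m : V × V → V}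
    (hm : ContDiffAt ℂ 2 m 0) (hm0 : m 0 = 0) (hφ0 : φ 0 = 0)
    (hadd : ∀ᶠ p in 𝓝 (0 : V × V), φ p.1 + φ p.2 = φ (m p))
    (hinj : ∀ᶠ p in 𝓝 (0 : V × V), φ p.1 = φ p.2 → p.1 = p.2) :
    ∃ (E : V →+ A) (ρ : ℝ), 0 < ρ ∧ (∀ z, ‖z‖ ≤ ρ → E z = 0 → z = 0) ∧
      ∀ᶠ x in 𝓝 (0 : V), φ x ∈ E '' closedBall 0 ρ := by
  obtain ⟨hL, hLp⟩ := hasFDerivAt_add_law hm hm0 hφ0 hadd hinj
  have hR : ContDiffAt ℂ 2 (fun p : V × V => m p - p.1 - p.2) 0 :=
    (hm.sub contDiffAt_fst).sub contDiffAt_snd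
  have hRd : fderiv ℂ (fun p : V × V => m p - p.1 - p.2) 0 = 0 := by
    refine (((hL.sub hasFDerivAt_fst).sub hasFDerivAt_snd).congr_fderiv ?_).fderiv
    ext p <;> simp [hLp]
  obtain ⟨K, r₀, hK, hr₀, hquad⟩ := exists_quadratic hR hRd
  obtain ⟨h, hright, hht, hhalf⟩ := exists_halving hm hm0 hLp hK hr₀ hquad
  -- one radius for everything
  have hcont : ∀ᶠ p in 𝓝 (0 : V × V), ContinuousAt m p :=
    (hm.eventually (by simp)).mono fun p hp => hp.continuousAt
  obtain ⟨r₁, hr₁, hr₁p⟩ := nhds_basis_closedBall.eventually_iff.1 (hadd.and (hinj.and hcont))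
  obtain ⟨r₂, hr₂, hr₂x⟩ := nhds_basis_closedBall.eventually_iff.1 (hright.and (hhalf.and
    (hht.eventually (closedBall_mem_nhds (0 : V) (lt_min hr₀ hr₁)))))
  set r := min (min r₀ r₁) (min r₂ (1 / (16 * (K + 1)))) with hrdef
  have hrpos : 0 < r := lt_min (lt_min hr₀ hr₁) (lt_min hr₂ (by positivity))
  have hB : ChunkBall φ m K r := by
    refine ⟨hK, hrpos, ?_, fun p hp q hq => ?_, hm0, hφ0, fun x hx y hy => ?_, fun x hx y hy => ?_⟩
    · refine (mul_le_mul_of_nonneg_left ((min_le_right _ _).trans (min_le_right _ _)) hK).trans ?_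
      rw [mul_one_div, div_le_div_iff₀ (by positivity) (by norm_num)]
      linarith
    · exact hquad p (closedBall_subset_closedBall ((min_le_left _ _).trans (min_le_left _ _)) hp) q
        (closedBall_subset_closedBall ((min_le_left _ _).trans (min_le_left _ _)) hq)
    · exact (hr₁p (x := (x, y)) (mem_closedBall_zero_iff.2 ((max_le (mem_closedBall_zero_iff.1 hx)
        (mem_closedBall_zero_iff.1 hy)).trans ((min_le_left _ _).trans (min_le_right _ _))))).1
    · exact (hr₁p (x := (x, y)) (mem_closedBall_zero_iff.2 ((max_le (mem_closedBall_zero_iff.1 hx)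
        (mem_closedBall_zero_iff.1 hy)).trans ((min_le_left _ _).trans (min_le_right _ _))))).2.1
  have hmc : ∀ p : V × V, ‖p‖ ≤ r / 2 → ContinuousAt m p := fun p hp =>
    (hr₁p (x := p) (mem_closedBall_zero_iff.2
      (hp.trans ((half_le_self hrpos.le).trans ((min_le_left _ _).trans (min_le_right _ _)))))).2.2
  refine ⟨hB.expA hmc, hB.rad, hB.rad_pos, fun z hz => hB.expA_eq_zero hmc hz, ?_⟩
  filter_upwards [closedBall_mem_nhds (0 : V) (half_pos hB.rad_pos)] with x hx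
  have hsm : ∀ y, ‖y‖ ≤ r / 2 → y ∈ closedBall (0 : V) r₂ := fun y hy =>
    mem_closedBall_zero_iff.2
      (hy.trans ((half_le_self hrpos.le).trans ((min_le_right _ _).trans (min_le_left _ _))))
  obtain ⟨Lx, hLx, hE⟩ := hB.exists_expV_eq (h := h)
    (fun y hy => ⟨(hr₂x (hsm y hy)).1, ((hr₂x (hsm y hy)).2.1.trans
      (by linarith [norm_nonneg y]))⟩)
    (fun y hy => (hr₂x (hsm y hy)).2.1) (mem_closedBall_zero_iff.1 hx)
  exact ⟨Lx, mem_closedBall_zero_iff.2 hLx, by rw [hB.expA_apply hmc hLx, hE]⟩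

end FermatAgent.Curve.Jac

end
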