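import Fermat.Agent.Curve.Jac.Chunk
import Fermat.Agent.Curve.Jac.Compact
import Fermat.Agent.Curve.Jac.Exp
import Mathlib.Algebra.Module.ZLattice.Basic
import Mathlib.GroupTheory.IndexNSmul
import Mathlib.LinearAlgebra.Complex.FiniteDimensional

/-!
# Torsion of the divisor class group of a complex curve

The degree zero classes form `ℂ ^ g` modulo a lattice: the exponential of the chunk has discrete
kernel, and the classes `Q - P₀` are exponentials of bounded vectors since the places form a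
compact connected space.
-/

set_option autoImplicit false

noncomputable section

open AlgebraicCurve Filter Metric Module
open scoped Topology

namespace FermatAgent.Curve.Jac

section Effective

variable {K F : Type*} [Field K] [Field F] [Algebra K F] [IsAlgClosed K] [IsFF K F]

/-- An effective divisor of degree `n` is a sum of `n` places. -/
theorem exists_tuple : ∀ (n : ℕ) (D : Divisor K F), 0 ≤ D → Divisor.degree D = n →
    ∃ Q : Fin n → Place K F, ∑ i, Finsupp.single (Q i) (1 : ℤ) = D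
  | 0, D, hD, h => by
    refine ⟨Fin.elim0, ?_⟩
    rw [Finset.univ_eq_empty, Finset.sum_empty]
    exact eq_of_le_of_degree_eq hD (by rw [map_zero, h, Nat.cast_zero])
  | n + 1, D, hD, h => by
    classical
    obtain ⟨v, hv⟩ : ∃ v, 0 < D v := by
      by_contra hno
      push Not at hno
      rw [show D = 0 from Finsupp.ext fun w => le_antisymm (hno w) (hD w), map_zero] at h
      omega
    obtain ⟨Q, hQ⟩ := exists_tuple n (D - Finsupp.single v 1) (fun w => by
      have := hD w
      simp only [Finsupp.sub_apply, Finsupp.single_apply, Finsupp.coe_zero, Pi.zero_apply] at this ⊢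
      split_ifs with hw
      · subst hw; omega
      · omega) (by rw [map_sub, degree_single_eq, h]; push_cast; ring)
    refine ⟨Fin.cons v Q, ?_⟩
    rw [Fin.sum_univ_succ]
    simp [hQ]

/-- Every class is a difference of `g` places from `g` given ones. -/
theorem exists_dclass_eq (P : Fin (genusFF K F) → Place K F) (a : Pic0 K F) :
    ∃ Q : Fin (genusFF K F) → Place K F, dclass Q P = a := by
  obtain ⟨D, rfl⟩ := Pic0.mk_surjective a
  have hdeg : Divisor.degree ((D : Divisor K F) + dsum P) = genusFF K F := by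
    rw [map_add, Divisor.mem_degZero.1 D.2, degree_dsum, zero_add]
    simp
  have hpos : 0 < rrDim ((D : Divisor K F) + dsum P - 0) := by
    have h1 := rrDef_le_rGenus ((D : Divisor K F) + dsum P)
    rw [rrDef, hdeg, ← genusFF_eq] at h1
    rw [sub_zero]
    omega
  obtain ⟨u, hu, hle⟩ := exists_le_sub_divisorOf hpos
  obtain ⟨Q, hQ⟩ := exists_tuple (genusFF K F) ((D : Divisor K F) + dsum P + divisorOf u)
    (fun v => by
      have h1 := hle v
      simp only [Finsupp.sub_apply, Finsupp.add_apply, Finsupp.coe_zero, Pi.zero_apply] at h1 ⊢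
      omega)
    (by rw [map_add, hdeg, degree_divisorOf, add_zero])
  refine ⟨Q, ?_⟩
  rw [dclass, pic0_mk_eq_iff]
  refine ⟨u, hu, fun v => ?_⟩
  have h1 := congrArg (fun G : Divisor K F => G v) hQ
  simp only [Finset.sum_sub_distrib, Finsupp.sub_apply, Finsupp.add_apply, dsum,
    divisorOf_apply] at h1 ⊢
  omega

end Effective

/-- A subgroup modulo which every vector is bounded spans the space. -/
theorem span_eq_top_of_bounded {V : Type*} [NormedAddCommGroup V] [NormedSpace ℝ V]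
    [FiniteDimensional ℝ V] (Λ : Submodule ℤ V) (R : ℝ)
    (h : ∀ v : V, ∃ z, ‖z‖ ≤ R ∧ v - z ∈ Λ) : Submodule.span ℝ (Λ : Set V) = ⊤ := by
  by_contra hne
  obtain ⟨f, hf0, hf⟩ := Submodule.exists_le_ker_of_lt_top _ (lt_top_iff_ne_top.2 hne)
  obtain ⟨v, hv⟩ : ∃ v, f v ≠ 0 := by
    by_contra hall
    push Not at hall
    exact hf0 (LinearMap.ext hall)
  set C := ‖LinearMap.toContinuousLinearMap f‖ * R
  obtain ⟨z, hz, hmem⟩ := h (((C + 1) / f v) • v)
  have h1 : f (((C + 1) / f v) • v) = f z := by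
    have := LinearMap.mem_ker.1 (hf (Submodule.subset_span hmem))
    rwa [map_sub, sub_eq_zero] at this
  rw [map_smul, smul_eq_mul, div_mul_cancel₀ _ hv] at h1
  have h2 : |f z| ≤ C := by
    rw [← Real.norm_eq_abs]
    exact ((LinearMap.toContinuousLinearMap f).le_opNorm z).trans
      (mul_le_mul_of_nonneg_left hz (norm_nonneg _))
  rw [← h1] at h2
  linarith [le_abs_self (C + 1)]

/-- A period group: a discrete subgroup of full rank, as kernel of a map onto the classes. -/
theorem natCard_torsion_of_exp {V : Type*} [NormedAddCommGroup V] [NormedSpace ℂ V]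
    [FiniteDimensional ℂ V] {K F : Type*} [Field K] [Field F] [Algebra K F]
    (X : V →+ Pic0 K F) {ρ : ℝ} (hρ : 0 < ρ) (hker : ∀ z, ‖z‖ ≤ ρ → X z = 0 → z = 0)
    {R : ℝ} (hR : ∀ a : Pic0 K F, ∃ z, ‖z‖ ≤ R ∧ X z = a) (n : ℕ) (hn : 0 < n) :
    Nat.card (Pic0.torsion K F n) = n ^ (2 * finrank ℂ V) := by
  let : NormedSpace ℝ V := NormedSpace.restrictScalars ℝ ℂ V
  have : IsScalarTower ℝ ℂ V := IsScalarTower.restrictScalars ℝ ℂ V
  have : FiniteDimensional ℝ V := FiniteDimensional.trans ℝ ℂ V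
  have : ProperSpace V := FiniteDimensional.proper ℝ V
  let Λ : Submodule ℤ V := AddSubgroup.toIntSubmodule X.ker
  have : DiscreteTopology Λ := by
    refine discreteTopology_of_isOpen_singleton_zero ?_
    convert (isOpen_ball (x := (0 : V)) (ε := ρ)).preimage (continuous_subtype_val (p := (· ∈ Λ)))
      using 1
    ext ⟨z, hz⟩
    simp only [Set.mem_singleton_iff, Set.mem_preimage, mem_ball_zero_iff]
    refine ⟨fun h => by rw [show z = 0 from congrArg Subtype.val h, norm_zero]; exact hρ,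
      fun h => Subtype.ext (hker z h.le hz)⟩
  have : IsZLattice ℝ Λ := ⟨span_eq_top_of_bounded Λ R fun v => by
    obtain ⟨z, hz, hXz⟩ := hR (X v)
    exact ⟨z, hz, show X (v - z) = 0 by rw [map_sub, hXz, sub_self]⟩⟩
  have : Module.Free ℤ Λ := ZLattice.module_free ℝ Λ
  have : Module.Finite ℤ Λ := ZLattice.module_finite ℝ Λ
  have hrank : finrank ℤ Λ = 2 * finrank ℂ V := by
    rw [ZLattice.rank ℝ Λ, ← finrank_mul_finrank ℝ ℂ V, Complex.finrank_real_complex]
  have hnC : (n : ℂ) ≠ 0 := Nat.cast_ne_zero.2 hn.ne'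
  have hcancel : ∀ z : V, n • ((n : ℂ)⁻¹ • z) = z := fun z => by
    rw [← Nat.cast_smul_eq_nsmul ℂ, smul_smul, mul_inv_cancel₀ hnC, one_smul]
  let δ : Λ →+ Pic0.torsion K F n :=
    { toFun := fun l => ⟨X ((n : ℂ)⁻¹ • (l : V)), Pic0.mem_torsion.2 (by
        rw [natCast_zsmul, ← map_nsmul, hcancel]; exact l.2)⟩
      map_zero' := Subtype.ext (by simp)
      map_add' := fun a b => Subtype.ext (by simp [smul_add]) }
  have hsurj : Function.Surjective δ := fun a => by
    obtain ⟨z, -, hz⟩ := hR (a : Pic0 K F)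
    refine ⟨⟨n • z, ?_⟩, Subtype.ext ?_⟩
    · show X (n • z) = 0
      rw [map_nsmul, hz, ← natCast_zsmul]
      exact Pic0.mem_torsion.1 a.2
    · show X ((n : ℂ)⁻¹ • (n • z)) = _
      rw [← Nat.cast_smul_eq_nsmul ℂ, smul_smul, inv_mul_cancel₀ hnC, one_smul, hz]
  have hkereq : δ.ker = (nsmulAddMonoidHom (α := Λ) n).range := by
    ext l
    rw [AddMonoidHom.mem_ker, AddMonoidHom.mem_range]
    constructor
    · intro h
      exact ⟨⟨(n : ℂ)⁻¹ • (l : V), congrArg Subtype.val h⟩, Subtype.ext (hcancel _)⟩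
    · rintro ⟨m, rfl⟩
      refine Subtype.ext ?_
      show X ((n : ℂ)⁻¹ • ((n • m : Λ) : V)) = 0
      rw [Submodule.coe_smul_of_tower, ← Nat.cast_smul_eq_nsmul ℂ, smul_smul,
        inv_mul_cancel₀ hnC, one_smul]
      exact m.2
  rw [← Nat.card_congr (QuotientAddGroup.quotientKerEquivOfSurjective δ hsurj).toEquiv,
    ← AddSubgroup.index_eq_card, hkereq, AddSubgroup.index_range_nsmul, hrank]

variable {F : Type*} [Field F] [Algebra ℂ F] [IsFF ℂ F]

/-- The classes `Q - P₀` are bounded exponentials. -/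
theorem exists_bound {V : Type*} [NormedAddCommGroup V]
    (X : V →+ Pic0 ℂ F) {ρ : ℝ} (P₀ : Place ℂ F)
    (hloc : ∀ (v : Place ℂ F) (C : Chart v), ∀ᶠ t in 𝓝 (0 : ℂ),
      dclass (fun _ : Fin 1 => C.pt t) (fun _ => v) ∈ X '' closedBall 0 ρ) :
    ∃ R : ℝ, ∀ Q, dclass (fun _ : Fin 1 => Q) (fun _ => P₀) ∈ X '' closedBall 0 R := by
  set S : ℝ → Set (Place ℂ F) := fun R =>
    {Q | dclass (fun _ : Fin 1 => Q) (fun _ => P₀) ∈ X '' closedBall 0 R} with hS
  have hmono : ∀ R R', R ≤ R' → S R ⊆ S R' := fun R R' h Q hQ =>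
    Set.image_mono (closedBall_subset_closedBall h) hQ
  have hstep : ∀ R (v w : Place ℂ F), v ∈ S R →
      (dclass (fun _ : Fin 1 => w) (fun _ => v) ∈ X '' closedBall 0 ρ ∨
        dclass (fun _ : Fin 1 => v) (fun _ => w) ∈ X '' closedBall 0 ρ) → w ∈ S (R + ρ) := by
    rintro R v w ⟨z, hz, hXz⟩ hd
    rw [mem_closedBall_zero_iff] at hz
    obtain ⟨z', hz', hXz'⟩ : ∃ z', ‖z'‖ ≤ ρ ∧ X z' = dclass (fun _ : Fin 1 => w) (fun _ => v) := by
      rcases hd with ⟨z', hz', h⟩ | ⟨z', hz', h⟩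
      · exact ⟨z', mem_closedBall_zero_iff.1 hz', h⟩
      · refine ⟨-z', by rw [norm_neg]; exact mem_closedBall_zero_iff.1 hz', ?_⟩
        rw [map_neg, h]
        refine neg_eq_of_add_eq_zero_left ?_
        rw [dclass_add_dclass, dclass_self]
    refine ⟨z' + z, mem_closedBall_zero_iff.2 ((norm_add_le _ _).trans (by linarith)), ?_⟩
    rw [map_add, hXz', hXz, dclass_add_dclass]
  -- everything is reached
  have huniv : (⋃ R, S R) = Set.univ := by
    refine eq_univ_of_clopen ⟨P₀, Set.mem_iUnion.2 ⟨0, 0, mem_closedBall_self le_rfl, ?_⟩⟩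
      fun v C => ?_
    · rw [map_zero, dclass_self]
    · filter_upwards [hloc v C] with t ht
      simp only [Set.mem_iUnion]
      exact ⟨fun ⟨R, h⟩ => ⟨R + ρ, hstep R _ _ h (Or.inr ht)⟩,
        fun ⟨R, h⟩ => ⟨R + ρ, hstep R _ _ h (Or.inl ht)⟩⟩
  by_contra hno
  push Not at hno
  choose Q hQ using fun k : ℕ => hno k
  set U : Ultrafilter (Place ℂ F) := (Ultrafilter.of (atTop : Filter ℕ)).map Q
  obtain ⟨v, hv⟩ := exists_conv U
  obtain ⟨C⟩ := exists_chart v
  obtain ⟨R, hR⟩ := Set.mem_iUnion.1 (huniv.symm ▸ Set.mem_univ v : v ∈ ⋃ R, S R)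
  have hev : ∀ᶠ k in (Ultrafilter.of (atTop : Filter ℕ) : Filter ℕ), Q k ∈ S (R + ρ) := by
    have := C.cover _ hv _ (hloc v C)
    rw [Ultrafilter.coe_map, mem_map] at this
    filter_upwards [this] with k hk
    obtain ⟨t, ht, htk⟩ := hk
    rw [← htk]
    exact hstep R v _ hR (Or.inl ht)
  have hbig : ∀ᶠ k : ℕ in (Ultrafilter.of (atTop : Filter ℕ) : Filter ℕ), R + ρ ≤ (k : ℝ) :=
    Ultrafilter.of_le _ (tendsto_natCast_atTop_atTop.eventually (eventually_ge_atTop (R + ρ)))
  obtain ⟨k, hk, hk'⟩ := (hev.and hbig).exists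
  exact hQ k (hmono _ _ hk' hk)

/-- **The count over the complex numbers.** -/
theorem complexCount (E : Type) [Field E] [Algebra ℂ E] [IsFF ℂ E] (n : ℕ) (hn : 0 < n) :
    Nat.card (Pic0.torsion ℂ E n) = n ^ (2 * genusFF ℂ E) := by
  obtain ⟨b, -⟩ := Base.exists_base_avoiding (F := E) ∅
  obtain ⟨m, hm, hm0, hadd⟩ := b.exists_add
  obtain ⟨X, ρ, hρ, hker, himg⟩ := exists_exp hm hm0 b.phi_zero hadd b.eventually_injective
  obtain ⟨P₀⟩ : Nonempty (Place ℂ E) := by
    have := infinite_places (K := ℂ) (F := E)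
    infer_instance
  obtain ⟨R, hR⟩ := exists_bound X (ρ := ρ) P₀ fun v C => by
    obtain ⟨σ, hσ, hσ0, hev⟩ := b.exists_point v C
    have ht : Tendsto σ (𝓝 0) (𝓝 0) := by simpa [ContinuousAt, hσ0] using hσ.continuousAt
    filter_upwards [hev, ht.eventually himg] with t h1 h2
    rw [h1]
    exact h2
  have hbound : ∀ a : Pic0 ℂ E, ∃ z, ‖z‖ ≤ genusFF ℂ E * (R + R) ∧ X z = a := fun a => by
    obtain ⟨Q, rfl⟩ := exists_dclass_eq b.P a
    choose zQ hzQ hXQ using fun i => hR (Q i)
    choose zP hzP hXP using fun i => hR (b.P i)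
    refine ⟨∑ i, (zQ i - zP i), ?_, ?_⟩
    · refine (norm_sum_le_of_le _ fun i _ => (norm_sub_le _ _).trans
        (add_le_add (mem_closedBall_zero_iff.1 (hzQ i))
          (mem_closedBall_zero_iff.1 (hzP i)))).trans ?_
      simp [mul_add]
    · rw [map_sum, dclass_eq_sum]
      refine Finset.sum_congr rfl fun i _ => ?_
      rw [map_sub, hXQ, hXP, sub_eq_iff_eq_add, dclass_add_dclass]
  rw [natCard_torsion_of_exp X hρ hker hbound n hn, Module.finrank_pi, Fintype.card_fin]

end FermatAgent.Curve.Jac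

end
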