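import Fermat.Agent.Curve.Jac.Points
import Mathlib.Analysis.Calculus.ImplicitContDiff
import Mathlib.Analysis.Calculus.ContDiff.Operations
import Mathlib.Analysis.Complex.Basic
import Mathlib.Analysis.Complex.Polynomial.Basic
import Mathlib.Analysis.Calculus.Deriv.Polynomial

/-!
# Analytic charts at the places of a complex function field

The implicit function theorem at the simple point of a plane model parametrises the nearby places.
-/

set_option autoImplicit false

noncomputable section

open AlgebraicCurve Polynomial Filter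
open scoped Polynomial Classical Topology ContDiff

namespace FermatAgent.Curve.Jac

variable {F : Type*} [Field F] [Algebra ℂ F] [IsFF ℂ F]

theorem contDiff_eval_fst (p : ℂ[X]) : ContDiff ℂ 2 fun x : ℂ × ℂ => p.eval x.1 := by
  induction p using Polynomial.induction_on' with
  | add p q hp hq => simpa [eval_add] using hp.add hq
  | monomial n a => simpa [eval_monomial] using contDiff_const.mul (contDiff_fst.pow n)

theorem contDiff_bev (G : ℂ[X][X]) : ContDiff ℂ 2 fun x : ℂ × ℂ => bev x.1 x.2 G := by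
  induction G using Polynomial.induction_on' with
  | add p q hp hq => simpa [map_add] using hp.add hq
  | monomial n a =>
    simp only [← C_mul_X_pow_eq_monomial, map_mul, map_pow, bev_C, bev_X]
    exact (contDiff_eval_fst a).mul (contDiff_snd.pow n)

theorem hasDerivAt_bev (G : ℂ[X][X]) (t η : ℂ) :
    HasDerivAt (fun y => bev t y G) (bev t η (derivative G)) η := by
  have h : ∀ (H : ℂ[X][X]) (y : ℂ), bev t y H = (H.map (evalRingHom t)).eval y := fun H y =>
    (eval_map (evalRingHom t) y).symm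
  simp only [h, ← derivative_map]
  exact Polynomial.hasDerivAt _ _

/-- A chart at a place: nearby places parametrised by the value of a uniformiser, with values of
regular functions twice differentiable, containing all places close to it. -/
structure Chart (v : Place ℂ F) where
  /-- the places -/
  pt : ℂ → Place ℂ F
  /-- the uniformiser -/
  u : F
  ord_u : v.ord u = 1
  pt_zero : pt 0 = v
  pt_u : ∀ᶠ t in 𝓝 (0 : ℂ), OrdGE (pt t) 0 u ∧ pval (pt t) u = t
  regular : ∀ f : F, OrdGE v 0 f → ∀ᶠ t in 𝓝 (0 : ℂ), OrdGE (pt t) 0 f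
  smooth : ∀ f : F, OrdGE v 0 f → ContDiffAt ℂ 2 (fun t => pval (pt t) f) 0
  cover : ∀ U : Filter (Place ℂ F), Conv U v → ∀ s ∈ 𝓝 (0 : ℂ), pt '' s ∈ U

/-- **Implicit function theorem**: every place has a chart. -/
theorem exists_chart (v : Place ℂ F) : Nonempty (Chart v) := by
  obtain ⟨M⟩ := exists_model v
  set z₀ := pval v M.z
  set g : ℂ × ℂ → ℂ := fun x => bev x.1 x.2 M.R with hg
  have cdf : ContDiffAt ℂ 2 g (0, z₀) := (contDiff_bev M.R).contDiffAt
  set L := fderiv ℂ g (0, z₀) ∘L ContinuousLinearMap.inr ℂ ℂ ℂ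
  have hL1 : L 1 = bev 0 z₀ (derivative M.R) := by
    have h1 : HasFDerivAt (fun y : ℂ => g (0, y)) L z₀ :=
      (cdf.differentiableAt (by norm_num)).hasFDerivAt.comp z₀ (hasFDerivAt_prodMk_right 0 z₀)
    exact h1.hasDerivAt.unique (hasDerivAt_bev M.R 0 z₀)
  have hinv : L.IsInvertible := by
    refine ⟨ContinuousLinearEquiv.unitsEquivAut ℂ (Units.mk0 _ M.simple), ?_⟩
    ext
    simp [hL1, z₀]
  set η := cdf.implicitFunction (by norm_num) hinv
  have hη0 : η 0 = z₀ := cdf.implicitFunction_apply_self _ hinv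
  have hg0 : g (0, z₀) = 0 := (Model.isPt_self (M := M)).1
  have hηc : ContDiffAt ℂ 2 η 0 := cdf.contDiffAt_implicitFunction _ hinv
  have hbev : ∀ G : ℂ[X][X], ContDiffAt ℂ 2 (fun t => bev t (η t) G) 0 := fun G =>
    ((contDiff_bev G).contDiffAt).comp (0 : ℂ) (contDiffAt_id.prodMk hηc)
  have hpt : ∀ᶠ t in 𝓝 (0 : ℂ), M.IsPt t (η t) := by
    have h1 := cdf.eventually_apply_implicitFunction (by norm_num) hinv
    have h2 : ∀ᶠ t in 𝓝 (0 : ℂ), bev t (η t) (derivative M.R) ≠ 0 :=
      (hbev _).continuousAt.eventually_ne (by rw [hη0]; exact M.simple)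
    filter_upwards [h1, h2] with t ht1 ht2
    exact ⟨ht1.trans hg0, ht2⟩
  let pt : ℂ → Place ℂ F := fun t => if h : M.IsPt t (η t) then h.exists_over.choose else v
  have hover : ∀ t, M.IsPt t (η t) → IsOverPt M.u M.z (pt t) t (η t) := fun t h => by
    simp only [pt, dif_pos h]
    exact h.exists_over.choose_spec
  refine ⟨⟨pt, M.u, M.ord_u, ?_, ?_, fun f hf => ?_, fun f hf => ?_, fun U hU s hs => ?_⟩⟩
  · have h : M.IsPt 0 (η 0) := hη0 ▸ Model.isPt_self
    refine h.isSimplePt.over_unique (hover 0 h) ?_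
    rw [hη0]
    exact Model.isOver_self
  · filter_upwards [hpt] with t ht
    exact ⟨(hover t ht).reg_u, (hover t ht).val_u⟩
  · obtain ⟨A, E, hE, hfE⟩ := Model.exists_regular (M := M) hf
    filter_upwards [hpt, (hbev E).continuousAt.eventually_ne (by rwa [hη0])] with t ht hEt
    exact ((hover t ht).pval_of_regular hEt hfE).1
  · obtain ⟨A, E, hE, hfE⟩ := Model.exists_regular (M := M) hf
    refine ((hbev A).div (hbev E) (by rwa [hη0])).congr_of_eventuallyEq ?_
    filter_upwards [hpt, (hbev E).continuousAt.eventually_ne (by rwa [hη0])] with t ht hEt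
    exact ((hover t ht).pval_of_regular hEt hfE).2
  · obtain ⟨hur, hut⟩ := hU M.u M.reg_u
    obtain ⟨hzr, hzt⟩ := hU M.z M.reg_z
    rw [(Model.isOver_self (M := M)).val_u] at hut
    have hpair : Tendsto (fun Q => (pval Q M.u, pval Q M.z)) U (𝓝 ((0 : ℂ), z₀)) :=
      hut.prodMk_nhds hzt
    have huniq := cdf.eventually_apply_eq_iff_implicitFunction (by norm_num) hinv
    filter_upwards [hur, hzr, hpair.eventually huniq, hut.eventually hpt, hut.eventually hs]
      with Q hQu hQz hQ hQp hQs
    refine ⟨pval Q M.u, hQs, hQp.isSimplePt.over_unique (hover _ hQp) ⟨hQu, hQz, rfl, ?_⟩⟩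
    refine (hQ.1 ?_).symm
    show bev (pval Q M.u) (pval Q M.z) M.R = g (0, z₀)
    rw [hg0, ← pval_fev hQu hQz, M.eq_zero, pval_zero]

/-- Values of a regular function are continuous in the chart. -/
theorem Chart.tendsto_pval {v : Place ℂ F} (C : Chart v) {f : F} (hf : OrdGE v 0 f) :
    Tendsto (fun t => pval (C.pt t) f) (𝓝 0) (𝓝 (pval v f)) := by
  have h := (C.smooth f hf).continuousAt
  rwa [ContinuousAt, C.pt_zero] at h

/-- A chart is injective near its centre. -/
theorem Chart.eventually_injective {v : Place ℂ F} (C : Chart v) :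
    ∀ᶠ p in 𝓝 ((0 : ℂ), (0 : ℂ)), C.pt p.1 = C.pt p.2 → p.1 = p.2 := by
  rw [nhds_prod_eq]
  filter_upwards [prod_mem_prod C.pt_u C.pt_u] with p hp heq
  rw [← hp.1.2, ← hp.2.2, heq]

/-- A function vanishing to first order at the centre has nonzero derivative. -/
theorem Chart.deriv_ne_zero {v : Place ℂ F} (C : Chart v) {f : F} (hf : v.ord f = 1) :
    deriv (fun t => pval (C.pt t) f) 0 ≠ 0 := by
  have hf0 : f ≠ 0 := fun h => by simp [h] at hf
  have hu0 : C.u ≠ 0 := fun h => by simpa [h] using C.ord_u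
  have hreg : OrdGE v 0 (f / C.u) := Or.inr (by rw [ord_div hf0 hu0, hf, C.ord_u]; rfl)
  have hne : pval v (f / C.u) ≠ 0 := fun h0 => by
    have := (ordGE_iff_le (div_ne_zero hf0 hu0)).1 ((pval_eq_zero_iff hreg).1 h0)
    rw [ord_div hf0 hu0, hf, C.ord_u] at this
    omega
  have hd : HasDerivAt (fun t => t * pval (C.pt t) (f / C.u))
      (1 * pval (C.pt 0) (f / C.u) + 0 * deriv (fun t => pval (C.pt t) (f / C.u)) 0) 0 :=
    (hasDerivAt_id (0 : ℂ)).mul ((C.smooth _ hreg).differentiableAt (by norm_num)).hasDerivAt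
  have heq : (fun t => pval (C.pt t) f) =ᶠ[𝓝 0] fun t => t * pval (C.pt t) (f / C.u) := by
    filter_upwards [C.pt_u, C.regular _ hreg] with t ht hr
    conv_lhs => rw [← mul_div_cancel₀ f hu0]
    rw [pval_mul ht.1 hr, ht.2]
  rw [heq.deriv_eq, hd.deriv, C.pt_zero, one_mul, zero_mul, add_zero]
  exact hne

end FermatAgent.Curve.Jac

end
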