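import Fermat.Agent.Curve.Jac.Move
import Mathlib.Topology.Instances.Matrix

/-!
# The group law on a neighbourhood of a non-special divisor

Sums of `g` places near a non-special divisor map injectively to the classes, and their image
absorbs nearby tuples of places, hence the group law and the classes of nearby points.
-/

set_option autoImplicit false

noncomputable section

open AlgebraicCurve Filter
open scoped Classical Topology ContDiff

namespace FermatAgent.Curve.Jac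

section Class

variable {K F : Type*} [Field K] [Field F] [Algebra K F] [IsAlgClosed K] [IsFF K F]
variable {ι κ : Type*} [Fintype ι] [Fintype κ]

/-- The class of `Σ Q - Σ P`. -/
def dclass (Q P : ι → Place K F) : Pic0 K F :=
  Pic0.mk ⟨∑ i, (Finsupp.single (Q i) (1 : ℤ) - Finsupp.single (P i) 1), Divisor.mem_degZero.2 (by
    simp only [map_sum, map_sub, degree_single_eq, sub_self, Finset.sum_const_zero])⟩

/-- The class of `Σ P - Σ P` is zero. -/
theorem dclass_self (P : ι → Place K F) : dclass P P = 0 := by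
  rw [dclass, ← Pic0.mk_zero]
  congr 1
  exact Subtype.ext (by simp)

/-- Classes of differences compose. -/
theorem dclass_add_dclass (Q R P : ι → Place K F) : dclass Q R + dclass R P = dclass Q P := by
  rw [dclass, dclass, dclass, ← Pic0.mk_add]
  congr 1
  refine Subtype.ext ?_
  simp only [AddSubgroup.coe_add, Finset.sum_sub_distrib]
  abel

/-- The class of a family is the sum of the classes of its members. -/
theorem dclass_eq_sum (Q P : ι → Place K F) :
    dclass Q P = ∑ i, dclass (fun _ : Fin 1 => Q i) (fun _ : Fin 1 => P i) := by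
  let φ : Divisor.degZero (K := K) (F := F) →+ Pic0 K F :=
    { toFun := Pic0.mk, map_zero' := Pic0.mk_zero, map_add' := Pic0.mk_add }
  show φ _ = ∑ i, φ _
  rw [← map_sum]
  congr 1
  exact Subtype.ext (by simp)

theorem dclass_eq_iff {Q P : ι → Place K F} {Q' P' : κ → Place K F} :
    dclass Q P = dclass Q' P' ↔
      Divisor.IsPrincipal ((dsum Q - dsum P) - (dsum Q' - dsum P') : Divisor K F) := by
  rw [dclass, dclass, pic0_mk_eq_iff]
  simp only [dsum, Finset.sum_sub_distrib]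

theorem dclass_add_eq_iff {Q P S : ι → Place K F} {R W : κ → Place K F} :
    dclass Q P + dclass R W = dclass S P ↔
      Divisor.IsPrincipal ((dsum Q + dsum R) - (dsum S + dsum W) : Divisor K F) := by
  rw [dclass, dclass, dclass, ← Pic0.mk_add, pic0_mk_eq_iff]
  simp only [dsum, AddSubgroup.coe_add, Finset.sum_sub_distrib]
  rw [show ∀ a b c d e : Divisor K F, a - b + (c - d) - (e - b) = a + c - (e + d) from
    fun a b c d e => by abel]

end Class

variable {F : Type*} [Field F] [Algebra ℂ F] [IsFF ℂ F]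

/-- A non-special divisor of `g` distinct places with charts. -/
structure Base (F : Type*) [Field F] [Algebra ℂ F] [IsFF ℂ F] where
  /-- the places -/
  P : Fin (genusFF ℂ F) → Place ℂ F
  inj : Function.Injective P
  nonspecial : rrDim (dsum P) = 1
  /-- the charts -/
  C : ∀ i, Chart (P i)

namespace Base

variable (b : Base F)

/-- The nearby tuples. -/
def pts (x : Fin (genusFF ℂ F) → ℂ) : Fin (genusFF ℂ F) → Place ℂ F := fun i => (b.C i).pt (x i)

/-- The class map. -/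
def phi (x : Fin (genusFF ℂ F) → ℂ) : Pic0 ℂ F := dclass (b.pts x) b.P

theorem pts_zero : b.pts 0 = b.P := funext fun i => (b.C i).pt_zero

/-- The class map sends the base to zero. -/
theorem phi_zero : b.phi 0 = 0 := by rw [phi, pts_zero, dclass_self]

/-- When `G` is linearly equivalent to the base plus `Q`, the places `Q` impose independent
conditions on `L(G)`. -/
theorem rrDim_sub_dsum_add_card_base {ι : Type*} [Fintype ι] {G : Divisor ℂ F} {u₀ : F}
    (hu0 : u₀ ≠ 0) {Q : ι → Place ℂ F} (hdiv : divisorOf u₀ + G = dsum b.P + dsum Q) {c : ℤ}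
    (hc : ∀ E : Divisor ℂ F, c ≤ Divisor.degree E →
      (rrDim E : ℤ) = Divisor.degree E + 1 - rGenus ℂ F)
    (hG : c ≤ Divisor.degree G) : rrDim (G - dsum Q) + Fintype.card ι = rrDim G := by
  have h1 := hc G hG
  have h2 : G - dsum Q = dsum b.P - divisorOf u₀ := by
    rw [sub_eq_sub_iff_add_eq_add, add_comm, hdiv]
  have h3 := congrArg Divisor.degree hdiv
  rw [map_add, map_add, degree_divisorOf, zero_add, degree_dsum, degree_dsum, Fintype.card_fin]
    at h3
  have hg := genusFF_eq (K := ℂ) (F := F)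
  rw [h2, rrDim_sub_divisorOf _ hu0, b.nonspecial]
  omega

variable {κ : Type} [Fintype κ]

/-- **Translation.** -/
theorem exists_translate (W : κ → Place ℂ F) (hW : Function.Injective W) (CW : ∀ k, Chart (W k))
    (hdisj : ∀ i k, b.P i ≠ W k) :
    ∃ S : (Fin (genusFF ℂ F) → ℂ) × (κ → ℂ) → (Fin (genusFF ℂ F) → ℂ),
      ContDiffAt ℂ 2 S 0 ∧ S 0 = 0 ∧ ∀ᶠ p in 𝓝 0,
        b.phi p.1 + dclass (fun k => (CW k).pt (p.2 k)) W = b.phi (S p) := by
  set X : Fin (genusFF ℂ F) ⊕ κ → Place ℂ F := Sum.elim b.P W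
  have hX : Function.Injective X := b.inj.sumElim hW hdisj
  obtain ⟨c, hc⟩ := exists_rrDim_eq (K := ℂ) (F := F)
  obtain ⟨G, u₀, n, R, hT, hG0, hGT, hu0, hdiv, hdeg⟩ :=
    exists_config X hX (c.toNat + genusFF ℂ F + Fintype.card κ)
  let C : ∀ j, Chart (Sum.elim X R j) := fun j => match j with
    | Sum.inl (Sum.inl i) => b.C i
    | Sum.inl (Sum.inr k) => CW k
    | Sum.inr m => (exists_chart (R m)).some
  have hGd := degree_eq_card hdiv
  rw [Fintype.card_sum, Fintype.card_sum, Fintype.card_fin, Fintype.card_fin] at hGd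
  -- the first move: the points near `P` and `W` are given
  have hdim₁ : rrDim (G - dsum (Sum.elim X R ∘ Sum.inl)) +
      Fintype.card (Fin (genusFF ℂ F) ⊕ κ) = rrDim G :=
    rrDim_sub_dsum_add_card hc _ (by rw [Fintype.card_sum, Fintype.card_fin]; push_cast; omega)
  obtain ⟨Φ₁, hΦ₁c, hΦ₁0, hΦ₁⟩ :=
    exists_move hT hG0 hGT hu0 hdiv C Sum.inl Sum.inl_injective hdim₁
  -- the second move: all points but those near `P` are given
  let e₂ : κ ⊕ Fin n → (Fin (genusFF ℂ F) ⊕ κ) ⊕ Fin n := Sum.map Sum.inr id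
  have he₂ : Function.Injective e₂ := Sum.map_injective.2 ⟨Sum.inr_injective, Function.injective_id⟩
  have hdim₂ : rrDim (G - dsum (Sum.elim X R ∘ e₂)) + Fintype.card (κ ⊕ Fin n) = rrDim G :=
    b.rrDim_sub_dsum_add_card_base hu0
      (hdiv.trans (by simp [dsum, Fintype.sum_sum_type, e₂, X, add_assoc])) hc (by omega)
  obtain ⟨Φ₂, hΦ₂c, hΦ₂0, hΦ₂⟩ := exists_move hT hG0 hGT hu0 hdiv C e₂ he₂ hdim₂
  let w₁ : (Fin (genusFF ℂ F) → ℂ) × (κ → ℂ) → (Fin (genusFF ℂ F) ⊕ κ → ℂ) :=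
    fun p => Sum.elim p.1 p.2
  let w₂ : (Fin (genusFF ℂ F) → ℂ) × (κ → ℂ) → (κ ⊕ Fin n → ℂ) :=
    fun p => Sum.elim (fun _ => 0) fun m => Φ₁ (w₁ p) (Sum.inr m)
  have hw₁0 : w₁ 0 = 0 := funext fun j => by rcases j with i | k <;> rfl
  have hw₁c : ContDiffAt ℂ 2 w₁ 0 := contDiffAt_pi.2 fun j => by
    rcases j with i | k
    · exact (contDiff_apply ℂ ℂ i).contDiffAt.comp _ contDiffAt_fst
    · exact (contDiff_apply ℂ ℂ k).contDiffAt.comp _ contDiffAt_snd
  have hΦw : ContDiffAt ℂ 2 (fun p => Φ₁ (w₁ p)) 0 := by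
    have : ContDiffAt ℂ 2 Φ₁ (w₁ 0) := hw₁0.symm ▸ hΦ₁c
    exact this.comp 0 hw₁c
  have hw₂0 : w₂ 0 = 0 := funext fun j => by
    rcases j with k | m
    · rfl
    · simp [w₂, hw₁0, hΦ₁0]
  have hw₂c : ContDiffAt ℂ 2 w₂ 0 := contDiffAt_pi.2 fun j => by
    rcases j with k | m
    · exact contDiffAt_const
    · exact (contDiff_apply ℂ ℂ (Sum.inr m)).contDiffAt.comp _ hΦw
  let S : (Fin (genusFF ℂ F) → ℂ) × (κ → ℂ) → (Fin (genusFF ℂ F) → ℂ) :=
    fun p i => Φ₂ (w₂ p) (Sum.inl (Sum.inl i))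
  have hΦ₂w : ContDiffAt ℂ 2 (fun p => Φ₂ (w₂ p)) 0 := by
    have : ContDiffAt ℂ 2 Φ₂ (w₂ 0) := hw₂0.symm ▸ hΦ₂c
    exact this.comp 0 hw₂c
  refine ⟨S, contDiffAt_pi.2 fun i =>
      (contDiff_apply ℂ ℂ (Sum.inl (Sum.inl i))).contDiffAt.comp _ hΦ₂w,
    funext fun i => by simp [S, hw₂0, hΦ₂0], ?_⟩
  have ht₁ : Tendsto w₁ (𝓝 0) (𝓝 0) := by simpa [ContinuousAt, hw₁0] using hw₁c.continuousAt
  have ht₂ : Tendsto w₂ (𝓝 0) (𝓝 0) := by simpa [ContinuousAt, hw₂0] using hw₂c.continuousAt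
  filter_upwards [ht₁.eventually hΦ₁, ht₂.eventually hΦ₂] with p hp₁ hp₂
  obtain ⟨hfix₁, f₁, hf₁, hD₁⟩ := hp₁
  obtain ⟨hfix₂, f₂, hf₂, hD₂⟩ := hp₂
  rw [phi, phi, dclass_add_eq_iff]
  have e₁ : dsum (fun j => (C j).pt (Φ₁ (w₁ p) j)) = dsum (b.pts p.1) +
      dsum (fun k => (CW k).pt (p.2 k)) +
      dsum (fun m => (C (Sum.inr m)).pt (Φ₁ (w₁ p) (Sum.inr m))) := by
    simp only [dsum, Fintype.sum_sum_type]
    simp [hfix₁, w₁, pts, C]
  have e₂' : dsum (fun j => (C j).pt (Φ₂ (w₂ p) j)) = dsum (b.pts (S p)) + dsum W +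
      dsum (fun m => (C (Sum.inr m)).pt (Φ₁ (w₁ p) (Sum.inr m))) := by
    have h1 : ∀ k, Φ₂ (w₂ p) (Sum.inl (Sum.inr k)) = 0 := fun k => hfix₂ (Sum.inl k)
    have h2 : ∀ m, Φ₂ (w₂ p) (Sum.inr m) = Φ₁ (w₁ p) (Sum.inr m) := fun m => hfix₂ (Sum.inr m)
    simp only [dsum, Fintype.sum_sum_type, h1, h2]
    simp [pts, C, S, X, Chart.pt_zero]
  have hp : (dsum (fun j => (C j).pt (Φ₁ (w₁ p) j)) - G : Divisor ℂ F) -
      (dsum (fun j => (C j).pt (Φ₂ (w₂ p) j)) - G) ∈ Divisor.principal (K := ℂ) (F := F) :=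
    AddSubgroup.sub_mem _ ⟨f₁, hf₁, hD₁⟩ ⟨f₂, hf₂, hD₂⟩
  rw [sub_sub_sub_cancel_right, e₁, e₂', add_sub_add_right_eq_sub] at hp
  exact hp

/-- Near the base the divisor stays non-special. -/
theorem eventually_nonspecial :
    ∀ᶠ x in 𝓝 (0 : Fin (genusFF ℂ F) → ℂ), rrDim (dsum (b.pts x)) ≤ 1 := by
  have hg := genusFF_eq (K := ℂ) (F := F)
  obtain ⟨c, hc⟩ := exists_rrDim_eq (K := ℂ) (F := F)
  obtain ⟨G, u₀, n, R, hT, hG0, hGT, hu0, hdiv, hdeg⟩ :=
    exists_config b.P b.inj (c.toNat + 2 * genusFF ℂ F)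
  let C : ∀ j, Chart (Sum.elim b.P R j) := fun j => match j with
    | Sum.inl i => b.C i
    | Sum.inr m => (exists_chart (R m)).some
  have hGd := degree_eq_card hdiv
  rw [Fintype.card_sum, Fintype.card_fin, Fintype.card_fin] at hGd
  have hdim₁ : rrDim (G - dsum (Sum.elim b.P R ∘ Sum.inl)) +
      Fintype.card (Fin (genusFF ℂ F)) = rrDim G :=
    rrDim_sub_dsum_add_card hc _ (by rw [Fintype.card_fin]; omega)
  obtain ⟨Φ, hΦc, hΦ0, hΦ⟩ := exists_move hT hG0 hGT hu0 hdiv C Sum.inl Sum.inl_injective hdim₁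
  have hdimR : rrDim (G - dsum R) + Fintype.card (Fin n) = rrDim G :=
    b.rrDim_sub_dsum_add_card_base hu0 (hdiv.trans (dsum_sum _)) hc (by omega)
  obtain ⟨e, hemem, heval⟩ := exists_values (Q := R) (fun m => hGT (Sum.inr m))
    (hT.comp Sum.inr_injective) hdimR
  let M : (Fin (genusFF ℂ F) → ℂ) → Matrix (Fin n) (Fin n) ℂ :=
    fun x i j => pval ((C (Sum.inr j)).pt (Φ x (Sum.inr j))) (e i)
  have hΦt : ∀ j, Tendsto (fun x => Φ x j) (𝓝 0) (𝓝 0) := fun j => by
    have := (contDiffAt_pi.1 hΦc j).continuousAt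
    simpa [ContinuousAt, hΦ0] using this
  have hereg : ∀ i j, OrdGE (R j) 0 (e i) := fun i j =>
    ordGE_zero_of_mem (hemem i) (hGT (Sum.inr j))
  have hM : Tendsto M (𝓝 0) (𝓝 1) :=
    tendsto_pi_nhds.2 fun i => tendsto_pi_nhds.2 fun j => by
      have h1 : Tendsto (fun x => M x i j) (𝓝 0) (𝓝 (pval (R j) (e i))) :=
        ((C (Sum.inr j)).tendsto_pval (hereg i j)).comp (hΦt (Sum.inr j))
      rw [heval] at h1
      by_cases hij : i = j
      · subst hij
        rw [Matrix.one_apply_eq]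
        simpa using h1
      · rw [Matrix.one_apply_ne hij]
        simpa [hij] using h1
  have hdet : ∀ᶠ x in 𝓝 (0 : Fin (genusFF ℂ F) → ℂ), (M x).det ≠ 0 :=
    ((continuous_id.matrix_det.tendsto 1).comp hM).eventually_ne (by simp)
  have hsupp : ∀ᶠ x in 𝓝 (0 : Fin (genusFF ℂ F) → ℂ), ∀ j, ∀ v ∈ G.support,
      (C (Sum.inr j)).pt (Φ x (Sum.inr j)) ≠ v := by
    refine eventually_all.2 fun j => (Finset.eventually_all _).2 fun v hv => ?_
    have hne : R j ≠ v := fun h => Finsupp.mem_support_iff.1 hv (h ▸ hGT (Sum.inr j))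
    obtain ⟨Cv⟩ := exists_chart v
    have ht : Tendsto (fun x => (Φ x (Sum.inr j), (0 : ℂ))) (𝓝 0) (𝓝 (0, 0)) :=
      (hΦt (Sum.inr j)).prodMk_nhds tendsto_const_nhds
    filter_upwards [ht.eventually ((C (Sum.inr j)).eventually_ne Cv hne)] with x hx
    rwa [Cv.pt_zero] at hx
  filter_upwards [hΦ, hdet, hsupp] with x hx hdet hsupp
  obtain ⟨hfix, f, hf, hD⟩ := hx
  set R' : Fin n → Place ℂ F := fun m => (C (Sum.inr m)).pt (Φ x (Sum.inr m))
  have hsum : dsum (fun j => (C j).pt (Φ x j)) = dsum (b.pts x) + dsum R' := by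
    simp only [dsum, Fintype.sum_sum_type]
    simp [hfix, pts, C, R']
  have hf' : dsum (b.pts x) = (G - dsum R') + divisorOf f := Finsupp.ext fun v => by
    have := hD v
    rw [hsum] at this
    simp only [Finsupp.sub_apply, Finsupp.add_apply, divisorOf_apply] at this ⊢
    omega
  have hx' : dsum (b.pts x) - divisorOf f = G - dsum R' := by rw [hf', add_sub_cancel_right]
  rw [← rrDim_sub_divisorOf _ hf, hx']
  -- the values at the moved points are still independent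
  have hle := rrDim_sub_dsum_add_card_le (G := G) (Q := R') (fun j => not_not.1 fun h =>
    hsupp j (R' j) (Finsupp.mem_support_iff.2 h) rfl) hemem hdet
  have h3 := hc G (by omega)
  rw [Fintype.card_fin] at hle
  omega

/-- The class map is injective near zero. -/
theorem eventually_injective :
    ∀ᶠ p in 𝓝 ((0 : Fin (genusFF ℂ F) → ℂ), (0 : Fin (genusFF ℂ F) → ℂ)),
      b.phi p.1 = b.phi p.2 → p.1 = p.2 := by
  have hcoord : ∀ i k, Tendsto (fun p : (Fin (genusFF ℂ F) → ℂ) × (Fin (genusFF ℂ F) → ℂ) =>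
      (p.1 i, p.2 k)) (𝓝 (0, 0)) (𝓝 (0, 0)) := fun i k =>
    (((continuous_apply i).comp continuous_fst).tendsto' _ _ (by simp)).prodMk_nhds
      (((continuous_apply k).comp continuous_snd).tendsto' _ _ (by simp))
  have hsep : ∀ᶠ p in 𝓝 ((0 : Fin (genusFF ℂ F) → ℂ), (0 : Fin (genusFF ℂ F) → ℂ)),
      ∀ i k, i ≠ k → b.pts p.1 i ≠ b.pts p.2 k :=
    eventually_all.2 fun i => eventually_all.2 fun k => by
      by_cases hik : i = k
      · exact Eventually.of_forall fun p h => absurd hik h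
      · exact ((hcoord i k).eventually ((b.C i).eventually_ne (b.C k) (b.inj.ne hik))).mono
          fun p hp _ => hp
  have hinj : ∀ᶠ p in 𝓝 ((0 : Fin (genusFF ℂ F) → ℂ), (0 : Fin (genusFF ℂ F) → ℂ)),
      ∀ i, b.pts p.1 i = b.pts p.2 i → p.1 i = p.2 i :=
    eventually_all.2 fun i => (hcoord i i).eventually (b.C i).eventually_injective
  have hns : ∀ᶠ p in 𝓝 ((0 : Fin (genusFF ℂ F) → ℂ), (0 : Fin (genusFF ℂ F) → ℂ)),
      rrDim (dsum (b.pts p.2)) ≤ 1 :=
    (continuous_snd.tendsto'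
      ((0 : Fin (genusFF ℂ F) → ℂ), (0 : Fin (genusFF ℂ F) → ℂ)) 0 rfl).eventually
      b.eventually_nonspecial
  filter_upwards [hsep, hinj, hns] with p hsep hinj hns heq
  rw [phi, phi, dclass_eq_iff, sub_sub_sub_cancel_right] at heq
  obtain ⟨f, hf, hD⟩ := heq
  set Q' := b.pts p.2
  have hfQ : f ∈ riemannRochSpace (dsum Q') :=
    (mem_riemannRochSpace_iff_ne_zero hf).2 fun v => by
      have h1 := hD v
      have h2 : 0 ≤ dsum (b.pts p.1) v := dsum_nonneg _ v
      rw [Finsupp.sub_apply] at h1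
      omega
  have h1Q : (1 : F) ∈ riemannRochSpace (dsum Q') := mem_riemannRochSpace.2 fun v => Or.inr (by
    have : 0 ≤ dsum Q' v := dsum_nonneg _ v
    simp only [Place.ord_one]
    omega)
  have hspan : Submodule.span ℂ {(1 : F)} = riemannRochSpace (dsum Q') :=
    Submodule.eq_of_le_of_finrank_le
      (by rw [Submodule.span_le, Set.singleton_subset_iff]; exact h1Q)
      (by rw [finrank_span_singleton one_ne_zero]; exact hns)
  rw [← hspan, Submodule.mem_span_singleton] at hfQ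
  obtain ⟨a, rfl⟩ := hfQ
  have hDQ : ∀ v, dsum (b.pts p.1) v = dsum Q' v := fun v => by
    have h1 := hD v
    have ha : a ≠ 0 := fun h0 => hf (by rw [h0, zero_smul])
    rw [Algebra.smul_def, mul_one, ord_algebraMap ha, Finsupp.sub_apply] at h1
    omega
  funext i
  refine hinj i ?_
  by_contra hne
  have h1 := one_le_dsum_apply (b.pts p.1) i
  rw [hDQ, dsum_apply_of_notMem] at h1
  · exact absurd h1 (by norm_num)
  · rintro ⟨k, hk⟩
    by_cases hik : i = k
    · exact hne (hik ▸ hk.symm)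
    · exact hsep i k hik hk.symm

/-- A second base avoiding given places. -/
theorem exists_base_avoiding (A : Finset (Place ℂ F)) : ∃ b' : Base F, ∀ i, b'.P i ∉ A := by
  obtain ⟨P, hP, hA, h1⟩ := exists_nonspecial (K := ℂ) (F := F) A
  exact ⟨⟨P, hP, h1, fun i => (exists_chart (P i)).some⟩, hA⟩

/-- The classes of tuples near given places disjoint from the base lie in the chunk. -/
theorem exists_absorb (W : κ → Place ℂ F) (hW : Function.Injective W) (CW : ∀ k, Chart (W k))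
    (hdisj : ∀ i k, b.P i ≠ W k) :
    ∃ j : (κ → ℂ) → (Fin (genusFF ℂ F) → ℂ), ContDiffAt ℂ 2 j 0 ∧ j 0 = 0 ∧
      ∀ᶠ y in 𝓝 0, dclass (fun k => (CW k).pt (y k)) W = b.phi (j y) := by
  obtain ⟨S, hSc, hS0, hS⟩ := b.exists_translate W hW CW hdisj
  refine ⟨fun y => S (0, y), hSc.comp (f := fun y : κ → ℂ => ((0 : Fin (genusFF ℂ F) → ℂ), y))
    (0 : κ → ℂ) (contDiffAt_const.prodMk contDiffAt_id), hS0, ?_⟩
  filter_upwards [((continuous_const.prodMk continuous_id).tendsto'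
    (0 : κ → ℂ) ((0 : Fin (genusFF ℂ F) → ℂ), (0 : κ → ℂ)) rfl).eventually hS] with y hy
  simpa [phi_zero] using hy

/-- **The group law on the chunk.** -/
theorem exists_add :
    ∃ m : (Fin (genusFF ℂ F) → ℂ) × (Fin (genusFF ℂ F) → ℂ) → (Fin (genusFF ℂ F) → ℂ),
      ContDiffAt ℂ 2 m 0 ∧ m 0 = 0 ∧ ∀ᶠ p in 𝓝 0, b.phi p.1 + b.phi p.2 = b.phi (m p) := by
  obtain ⟨b', hb'⟩ := exists_base_avoiding (F := F) (Finset.univ.image b.P)
  have hdis : ∀ i k, b.P i ≠ b'.P k := fun i k h =>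
    hb' k (Finset.mem_image.2 ⟨i, Finset.mem_univ _, h⟩)
  obtain ⟨S, hSc, hS0, hS⟩ := b.exists_translate b'.P b'.inj b'.C hdis
  obtain ⟨j, hjc, hj0, hj⟩ := b'.exists_absorb b.P b.inj b.C fun i k => (hdis k i).symm
  let r : (Fin (genusFF ℂ F) → ℂ) × (Fin (genusFF ℂ F) → ℂ) →
      (Fin (genusFF ℂ F) → ℂ) × (Fin (genusFF ℂ F) → ℂ) := fun p => (p.1, j p.2)
  have hr0 : r 0 = 0 := Prod.ext rfl hj0
  have hjs : ContDiffAt ℂ 2 j
      ((0 : (Fin (genusFF ℂ F) → ℂ) × (Fin (genusFF ℂ F) → ℂ)).2) := hjc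
  have hrc : ContDiffAt ℂ 2 r 0 :=
    ContDiffAt.prodMk contDiffAt_fst (ContDiffAt.comp (g := j) (f := Prod.snd) 0 hjs contDiffAt_snd)
  refine ⟨S ∘ r, (hr0.symm ▸ hSc : ContDiffAt ℂ 2 S (r 0)).comp 0 hrc, by simp [hr0, hS0], ?_⟩
  have hrt : Tendsto r (𝓝 0) (𝓝 0) := by simpa [ContinuousAt, hr0] using hrc.continuousAt
  filter_upwards [hrt.eventually hS, (continuous_snd.tendsto' _ _ rfl).eventually hj] with p hp hp'
  rw [Function.comp_apply, ← hp, show b.phi p.2 = b'.phi (j p.2) from hp']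
  rfl

/-- **Classes of nearby points lie in the image of the chunk.** -/
theorem exists_point (v : Place ℂ F) (Cv : Chart v) :
    ∃ σ : ℂ → (Fin (genusFF ℂ F) → ℂ), ContDiffAt ℂ 2 σ 0 ∧ σ 0 = 0 ∧ ∀ᶠ t in 𝓝 (0 : ℂ),
      dclass (fun _ : Fin 1 => Cv.pt t) (fun _ => v) = b.phi (σ t) := by
  obtain ⟨b', hb'⟩ := exists_base_avoiding (F := F) (Finset.univ.image b.P ∪ {v})
  simp only [Finset.mem_union, Finset.mem_image, Finset.mem_univ, true_and, Finset.mem_singleton,
    not_or, not_exists] at hb'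
  obtain ⟨k, hkc, hk0, hk⟩ := b.exists_absorb b'.P b'.inj b'.C fun i k => (hb' k).1 i
  obtain ⟨j, hjc, hj0, hj⟩ := b'.exists_absorb (fun _ : Fin 1 => v)
    (Function.injective_of_subsingleton _) (fun _ => Cv) fun i _ => (hb' i).2
  have hsc : ContDiffAt ℂ 2 (fun t : ℂ => j fun _ => t) 0 :=
    hjc.comp (f := fun t : ℂ => fun _ : Fin 1 => t) (0 : ℂ) (contDiffAt_pi.2 fun _ => contDiffAt_id)
  have hs0 : (j fun _ => (0 : ℂ)) = 0 := hj0
  refine ⟨fun t => k (j fun _ => t), (show ContDiffAt ℂ 2 k (j fun _ => (0 : ℂ)) from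
    hs0.symm ▸ hkc).comp (f := fun t : ℂ => j fun _ => t) (0 : ℂ) hsc,
    (congrArg k hs0).trans hk0, ?_⟩
  have hst : Tendsto (fun t : ℂ => j fun _ => t) (𝓝 0) (𝓝 0) := by
    simpa [ContinuousAt, hs0] using hsc.continuousAt
  filter_upwards [hst.eventually hk,
    ((continuous_pi fun _ : Fin 1 => continuous_id).tendsto' (0 : ℂ) 0 rfl).eventually hj]
    with t ht ht'
  exact ht'.trans ht

end Base

end FermatAgent.Curve.Jac

end
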