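import Fermat.Agent.Curve.Riemann
import Fermat.Agent.Curve.Expansion

/-!
# Repartitions: the dimension of `H¹(0)` is the genus of Riemann's theorem

Adding a place to a divisor changes `H¹` by at most a line; hence `dim H¹(D)` is the genus minus
the defect of `D`.
-/

set_option autoImplicit false

noncomputable section

open AlgebraicCurve Module

namespace FermatAgent.Curve.Jac

variable {K F : Type*} [Field K] [Field F] [Algebra K F] [IsAlgClosed K] [IsFF K F]

/-- The repartitions congruent to a constant one modulo `A(D)`. -/
def repSum (D : Divisor K F) : Submodule K ↥(repartitions K F) :=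
  repartitionsOf D ⊔ principalRepartitions K F

omit [IsAlgClosed K] [IsFF K F] in
theorem repSum_mono {D E : Divisor K F} (h : D ≤ E) : repSum D ≤ repSum E :=
  sup_le_sup_right (repartitionsOf_mono h) _

omit [IsAlgClosed K] [IsFF K F] in
theorem le_add_single (D : Divisor K F) (v : Place K F) : D ≤ D + Finsupp.single v 1 :=
  le_add_of_nonneg_right (Finsupp.single_nonneg.2 zero_le_one)

omit [IsAlgClosed K] in
theorem exists_le_repartitionsOf (α : ↥(repartitions K F)) :
    ∃ E : Divisor K F, α ∈ repartitionsOf E := by
  classical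
  obtain ⟨α, hα⟩ := α
  suffices h : {v : Place K F | ¬ OrdGE v 0 (α v)}.Finite by
    refine ⟨∑ w ∈ h.toFinset, Finsupp.single w |w.ord (α w)|,
      mem_repartitionsOf_iff.2 fun v => ?_⟩
    show OrdGE v _ (α v)
    simp only [Finsupp.finsetSum_apply, Finsupp.single_apply, Finset.sum_ite_eq']
    split_ifs with hv
    · exact Or.inr (neg_abs_le _)
    · rw [Set.Finite.mem_toFinset, Set.mem_ofPred_eq, not_not] at hv
      simpa using hv
  refine Algebra.adjoin_induction (p := fun β _ => {v : Place K F | ¬ OrdGE v 0 (β v)}.Finite)
    ?_ ?_ ?_ ?_ hα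
  · intro β hβ
    refine Set.Finite.subset hβ fun v hv => ?_
    rw [Set.mem_ofPred_eq, ordGE_iff_adicValuation, neg_zero, WithZero.exp_zero] at hv
    exact hv
  · intro f
    refine Set.Finite.subset (finite_ord_ne_zero (K := K) f) fun v hv => ?_
    intro h0
    exact hv (Or.inr h0.ge)
  · intro β γ _ _ hβ hγ
    refine Set.Finite.subset (hβ.union hγ) fun v hv => ?_
    by_contra h
    simp only [Set.mem_union, Set.mem_ofPred_eq, not_or, not_not] at h
    exact hv (h.1.add h.2)
  · intro β γ _ _ hβ hγ
    refine Set.Finite.subset (hβ.union hγ) fun v hv => ?_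
    by_contra h
    simp only [Set.mem_union, Set.mem_ofPred_eq, not_or, not_not] at h
    exact hv ((h.1.mul h.2).mono (by simp))

/-- The element of `A(D + v)` with one pole of order `D v + 1`. -/
theorem exists_step (D : Divisor K F) (v : Place K F) :
    ∃ e : ↥(repartitions K F), e ∈ repartitionsOf (D + Finsupp.single v 1) ∧
      repartitionsOf (D + Finsupp.single v 1) ≤ repartitionsOf D ⊔ Submodule.span K {e} ∧
      ((e : Place K F → F) v ≠ 0 ∧ v.ord ((e : Place K F → F) v) = -(D v + 1)) ∧
      ∀ w, w ≠ v → (e : Place K F → F) w = 0 := by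
  classical
  obtain ⟨t, ht0, ht⟩ := exists_ord_eq v (-(D v + 1))
  set e₀ : Place K F → F := fun w => if w = v then t else 0 with he₀
  have hmem : e₀ ∈ repartitions K F := mem_repartitions_of_finite_ord <|
    Set.Finite.subset (Set.finite_singleton v) fun w hw => by
      by_contra h
      simp [he₀, show w ≠ v from h] at hw
  refine ⟨⟨e₀, hmem⟩, mem_repartitionsOf_iff.2 fun w => ?_, fun α hα => ?_,
    ⟨by simp [he₀, ht0], by simp [he₀, ht]⟩, fun w hw => by simp [he₀, hw]⟩
  · show OrdGE w _ (e₀ w)
    by_cases hw : w = v
    · subst hw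
      exact Or.inr (by simp [he₀, ht])
    · exact Or.inl (by simp [he₀, hw])
  · have hα' : ∀ w, OrdGE w (-(D w + (Finsupp.single v 1 : Divisor K F) w))
        ((α : Place K F → F) w) := fun w => by
      simpa [OrdGE] using mem_repartitionsOf_iff.1 hα w
    set a := (α : Place K F → F) v with ha
    have hq : OrdGE v 0 (a / t) := by
      rw [div_eq_mul_inv]
      refine ((hα' v).mul (ordGE_self t⁻¹)).mono ?_
      rw [Place.ord_inv, ht, Finsupp.single_eq_same]
      omega
    obtain ⟨c, hc⟩ := exists_sub_algebraMap v hq
    rw [Submodule.mem_sup]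
    refine ⟨α - c • ⟨e₀, hmem⟩, mem_repartitionsOf_iff.2 fun w => ?_, c • ⟨e₀, hmem⟩,
      Submodule.smul_mem _ _ (Submodule.mem_span_singleton_self _), sub_add_cancel _ _⟩
    show OrdGE w _ ((α : Place K F → F) w - c • e₀ w)
    by_cases hw : w = v
    · subst hw
      have h1 := hc.mul (ordGE_self t)
      rw [show (a / t - algebraMap K F c) * t = a - c • e₀ w by
        simp only [he₀, if_pos, Algebra.smul_def]; field_simp] at h1
      exact h1.mono (by rw [ht]; omega)
    · have h1 := hα' w
      rw [Finsupp.single_eq_of_ne hw, add_zero] at h1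
      simpa [he₀, hw] using h1

/-- One step of `Q`. -/
theorem repSum_step (D : Divisor K F) (v : Place K F) :
    ∃ e, repSum (D + Finsupp.single v 1) = repSum D ⊔ Submodule.span K {e} ∧
      (e ∈ repSum D ↔ rrDim (D + Finsupp.single v 1) ≠ rrDim D) := by
  classical
  obtain ⟨e, he, hspan, ⟨he0, hev⟩, hew⟩ := exists_step D v
  have hle := le_add_single D v
  refine ⟨e, le_antisymm (sup_le (hspan.trans (sup_le_sup_right le_sup_left _))
    (le_sup_right.trans le_sup_left)) (sup_le (repSum_mono hle) (by
      rw [Submodule.span_le, Set.singleton_subset_iff]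
      exact Submodule.mem_sup_left he)), ⟨fun h => ?_, fun h => ?_⟩⟩
  · obtain ⟨a, ha, b, hb, hab⟩ := Submodule.mem_sup.1 h
    obtain ⟨f, hf⟩ := mem_principalRepartitions_iff.1 hb
    have hfw : ∀ w, f = (e : Place K F → F) w - (a : Place K F → F) w := fun w => by
      have := congrFun hf w
      rw [← hab]
      simp [this]
    have hfmem : f ∈ riemannRochSpace (D + Finsupp.single v 1) := mem_riemannRochSpace.2 fun w => by
      rw [hfw w]
      have h1 := mem_repartitionsOf_iff.1 he w
      have h2 := mem_repartitionsOf_iff.1 (repartitionsOf_mono hle ha) w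
      exact OrdGE.sub h1 h2
    have hfnot : f ∉ riemannRochSpace D := fun hfD => by
      have h1 : OrdGE v (-D v) f := mem_riemannRochSpace.1 hfD v
      have h2 : OrdGE v (-D v) ((a : Place K F → F) v) := mem_repartitionsOf_iff.1 ha v
      have h3 := h1.add h2
      rw [hfw v, sub_add_cancel] at h3
      have := (ordGE_iff_le he0).1 h3
      omega
    intro hdim
    exact hfnot
      ((Submodule.eq_of_le_of_finrank_eq (riemannRochSpace_le_of_le hle) hdim.symm) ▸ hfmem)
  · obtain ⟨f, hf, hfD⟩ : ∃ f ∈ riemannRochSpace (D + Finsupp.single v 1),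
        f ∉ riemannRochSpace D := by
      by_contra hno
      push Not at hno
      exact h (by
        rw [rrDim, rrDim, le_antisymm (hno : riemannRochSpace _ ≤ riemannRochSpace D)
          (riemannRochSpace_le_of_le hle)])
    have hf0 : f ≠ 0 := fun h0 => hfD (h0 ▸ Submodule.zero_mem _)
    have hfv : v.ord f = -(D v + 1) := by
      have h1 := (mem_riemannRochSpace_iff_ne_zero hf0).1 hf
      by_contra hne
      refine hfD ((mem_riemannRochSpace_iff_ne_zero hf0).2 fun w => ?_)
      have h2 := h1 w
      by_cases hw : w = v
      · subst hw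
        rw [Finsupp.add_apply, Finsupp.single_eq_same] at h2
        omega
      · rwa [Finsupp.add_apply, Finsupp.single_eq_of_ne hw, add_zero] at h2
    -- the constant repartition
    set P : ↥(repartitions K F) := algebraMap F _ f with hP
    have hPp : P ∈ principalRepartitions K F := mem_principalRepartitions_iff.2 ⟨f, rfl⟩
    have hPA : P ∈ repartitionsOf (D + Finsupp.single v 1) :=
      mem_repartitionsOf_iff.2 fun w => mem_riemannRochSpace.1 hf w
    obtain ⟨a, ha, b, hb, hab⟩ := Submodule.mem_sup.1 (hspan hPA)
    obtain ⟨c, rfl⟩ := Submodule.mem_span_singleton.1 hb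
    have hc : c ≠ 0 := fun hc0 => by
      rw [hc0, zero_smul, add_zero] at hab
      have h2 : OrdGE v (-D v) f := by
        have := mem_repartitionsOf_iff.1 ha v
        rwa [hab] at this
      have := (ordGE_iff_le hf0).1 h2
      omega
    have : e = c⁻¹ • (P - a) := by rw [← hab, add_sub_cancel_left, inv_smul_smul₀ hc]
    rw [this]
    exact Submodule.smul_mem _ _
      (Submodule.sub_mem _ (Submodule.mem_sup_right hPp) (Submodule.mem_sup_left ha))

/-- Adding a place raises the defect by one exactly when it brings no new section. -/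
theorem rrDef_le_step (D : Divisor K F) (v : Place K F) :
    rrDef (D + Finsupp.single v 1) =
      rrDef D + (if rrDim (D + Finsupp.single v 1) = rrDim D then 1 else 0) := by
  have hd : v.deg = 1 := deg_eq_one v
  obtain ⟨-, h2⟩ := riemannRochSpace_step D v
  have h1 : rrDim D ≤ rrDim (D + Finsupp.single v 1) := rrDim_mono (le_add_single D v)
  rw [hd] at h2
  simp only [rrDef, map_add, Divisor.degree_single, hd]
  change rrDim (D + Finsupp.single v 1) ≤ rrDim D + 1 at h2
  split_ifs <;> push_cast <;> omega

omit [IsAlgClosed K] [IsFF K F] in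
theorem exists_add_single {D E : Divisor K F} (h : D ≤ E) (hne : D ≠ E) :
    ∃ v, D + Finsupp.single v 1 ≤ E := by
  classical
  obtain ⟨v, hv⟩ : ∃ v, D v ≠ E v := by
    by_contra hall
    push Not at hall
    exact hne (Finsupp.ext hall)
  have hv' : D v ≤ E v := h v
  refine ⟨v, fun w => ?_⟩
  have hw : D w ≤ E w := h w
  simp only [Finsupp.add_apply, Finsupp.single_apply]
  split_ifs with hvw
  · subst hvw; omega
  · omega

/-- Where the defect is maximal, every repartition is congruent to a constant one. -/
theorem repSum_eq_top {E : Divisor K F} (hE : rrDef E = rGenus K F) : repSum E = ⊤ := by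
  classical
  suffices H : ∀ (n : ℕ) (D D' : Divisor K F), D ≤ D' →
      Divisor.degree (D' - D) = n → rrDef D = rGenus K F → repSum D' ≤ repSum D by
    refine eq_top_iff.2 fun α _ => ?_
    obtain ⟨G, hG⟩ := exists_le_repartitionsOf α
    have hle : E ≤ E ⊔ G := le_sup_left
    have h0 := degree_nonneg_of_nonneg (D := (E ⊔ G) - E) fun w => by
      simp
    exact H _ E (E ⊔ G) hle (Int.toNat_of_nonneg h0).symm hE
      (Submodule.mem_sup_left (repartitionsOf_mono le_sup_right hG))
  intro n
  induction n with
  | zero =>
    intro D D' h hdeg _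
    rw [eq_of_le_of_degree_eq h (by rw [map_sub] at hdeg; omega)]
  | succ n ih =>
    intro D D' h hdeg hD
    by_cases hne : D = D'
    · rw [hne]
    obtain ⟨v, hv⟩ := exists_add_single h hne
    obtain ⟨e, he, hiff⟩ := repSum_step D v
    have hs := rrDef_le_step D v
    have hmax := rrDef_le_rGenus (D + Finsupp.single v 1)
    have hd : rrDim (D + Finsupp.single v 1) ≠ rrDim D := fun h0 => by
      rw [if_pos h0] at hs; omega
    have h1 : repSum (D + Finsupp.single v 1) ≤ repSum D := by
      rw [he]
      exact sup_le le_rfl (by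
        rw [Submodule.span_le, Set.singleton_subset_iff]; exact hiff.2 hd)
    refine (ih _ D' hv ?_ (by rw [hs, if_neg hd, hD, add_zero])).trans h1
    rw [map_sub, map_add, Divisor.degree_single, deg_eq_one v]
    rw [map_sub] at hdeg
    push_cast at hdeg ⊢
    omega

/-- The dimension of `H¹(D)`. -/
theorem finrank_H1 (D : Divisor K F) :
    Module.Finite K (H1 D) ∧ (finrank K (H1 D) : ℤ) = rGenus K F - rrDef D := by
  classical
  obtain ⟨c, hc⟩ := exists_rrDim_eq (K := K) (F := F)
  suffices H : ∀ (n : ℕ) (D E : Divisor K F), D ≤ E → Divisor.degree (E - D) = n →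
      rrDef E = rGenus K F →
      Module.Finite K (↥(repartitions K F) ⧸ repSum D) ∧
        (finrank K (↥(repartitions K F) ⧸ repSum D) : ℤ) = rGenus K F - rrDef D by
    obtain ⟨v⟩ := exists_place (K := K) (F := F)
    set E := D + Finsupp.single v ((c - Divisor.degree D).toNat : ℤ) with hE
    have hle : D ≤ E := fun w => by
      simp only [hE, Finsupp.add_apply, Finsupp.single_apply]
      split_ifs <;> omega
    have hEd : rrDef E = rGenus K F := by
      have hdeg : c ≤ Divisor.degree E := by
        rw [hE, map_add, Divisor.degree_single, deg_eq_one v]; push_cast; omega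
      have := hc E hdeg
      simp only [rrDef]; omega
    have h0 := degree_nonneg_of_nonneg (D := E - D) fun w => by simpa using hle w
    exact H _ D E hle (Int.toNat_of_nonneg h0).symm hEd
  intro n
  induction n with
  | zero =>
    intro D E h hdeg hE
    obtain rfl : D = E := eq_of_le_of_degree_eq h (by rw [map_sub] at hdeg; omega)
    have : Subsingleton (↥(repartitions K F) ⧸ repSum D) := by
      rw [Submodule.Quotient.subsingleton_iff]; exact repSum_eq_top hE
    exact ⟨inferInstance, by rw [finrank_zero_of_subsingleton, hE]; simp⟩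
  | succ n ih =>
    intro D E h hdeg hE
    have hne : D ≠ E := fun hDE => by
      rw [hDE, sub_self, map_zero] at hdeg; omega
    obtain ⟨v, hv⟩ := exists_add_single h hne
    obtain ⟨hfin, hdim⟩ := ih (D + Finsupp.single v 1) E hv (by
      rw [map_sub, map_add, Divisor.degree_single, deg_eq_one v]
      rw [map_sub] at hdeg
      push_cast at hdeg ⊢
      omega) hE
    obtain ⟨e, he, hiff⟩ := repSum_step D v
    have hle : repSum D ≤ repSum (D + Finsupp.single v 1) := by rw [he]; exact le_sup_left
    let π := Submodule.factor hle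
    have hπ : Function.Surjective π := Submodule.factor_surjective hle
    have hker : LinearMap.ker π = Submodule.span K {Submodule.Quotient.mk e} := by
      refine le_antisymm (fun x hx => ?_) ?_
      · obtain ⟨α, rfl⟩ := Submodule.Quotient.mk_surjective _ x
        change (Submodule.Quotient.mk α : _ ⧸ repSum (D + Finsupp.single v 1)) = 0 at hx
        rw [Submodule.Quotient.mk_eq_zero, he, Submodule.mem_sup] at hx
        obtain ⟨a, ha, b, hb, rfl⟩ := hx
        obtain ⟨k, rfl⟩ := Submodule.mem_span_singleton.1 hb
        rw [Submodule.Quotient.mk_add, (Submodule.Quotient.mk_eq_zero _).2 ha, zero_add,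
          Submodule.Quotient.mk_smul]
        exact Submodule.smul_mem _ _ (Submodule.mem_span_singleton_self _)
      · rw [Submodule.span_le, Set.singleton_subset_iff]
        show (Submodule.Quotient.mk e : _ ⧸ repSum (D + Finsupp.single v 1)) = 0
        rw [Submodule.Quotient.mk_eq_zero, he]
        exact Submodule.mem_sup_right (Submodule.mem_span_singleton_self _)
    have : Module.Finite K (LinearMap.ker π) := by rw [hker]; infer_instance
    have : Module.Finite K ((↥(repartitions K F) ⧸ repSum D) ⧸ LinearMap.ker π) :=
      Module.Finite.equiv (π.quotKerEquivOfSurjective hπ).symm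
    have : Module.Finite K (↥(repartitions K F) ⧸ repSum D) :=
      Module.Finite.of_submodule_quotient (LinearMap.ker π)
    refine ⟨inferInstance, ?_⟩
    rw [← LinearMap.finrank_range_add_finrank_ker π, LinearMap.range_eq_top.2 hπ, finrank_top,
      hker, rrDef_le_step] at *
    by_cases hd : rrDim (D + Finsupp.single v 1) = rrDim D
    · rw [if_pos hd] at hdim
      have h0 : (Submodule.Quotient.mk e : ↥(repartitions K F) ⧸ repSum D) ≠ 0 := fun h0 =>
        (hiff.1 ((Submodule.Quotient.mk_eq_zero _).1 h0)) hd
      rw [finrank_span_singleton h0]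
      push_cast
      omega
    · rw [if_neg hd] at hdim
      rw [(Submodule.Quotient.mk_eq_zero _).2 (hiff.2 hd), Submodule.span_zero_singleton,
        finrank_bot]
      push_cast
      omega

/-- `ℓ(0) = 1`. -/
theorem rrDim_zero : rrDim (0 : Divisor K F) = 1 := by
  have h : riemannRochSpace (0 : Divisor K F) = Submodule.span K {(1 : F)} := by
    refine le_antisymm (fun f hf => ?_) ?_
    · rcases eq_or_ne f 0 with rfl | hf0
      · exact Submodule.zero_mem _
      have h1 := divisorOf_eq_neg_of_mem (map_zero _) hf0 hf
      obtain ⟨c, rfl⟩ := exists_eq_algebraMap (K := K) (f := f) fun v => by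
        simpa using DFunLike.congr_fun h1 v
      rw [Algebra.algebraMap_eq_smul_one]
      exact Submodule.smul_mem _ _ (Submodule.mem_span_singleton_self _)
    · rw [Submodule.span_le, Set.singleton_subset_iff]
      exact mem_riemannRochSpace.2 fun v => Or.inr (by simp)
  rw [rrDim, h, finrank_span_singleton one_ne_zero]

/-- **The two genera agree.** -/
theorem genusFF_eq : (genusFF K F : ℤ) = rGenus K F := by
  rw [genusFF, (finrank_H1 (0 : Divisor K F)).2, rrDef, map_zero, rrDim_zero]
  ring

end FermatAgent.Curve.Jac

end
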