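import Fermat.Agent.Curve.Jac.Chart
import Fermat.Agent.Curve.Jac.Generic
import Fermat.Agent.Curve.Approximation
import Mathlib.Analysis.Calculus.ContDiff.Basic
import Mathlib.Analysis.Normed.Module.FiniteDimension

/-!
# Moving the zeros of a function

Some of the simple zeros of a function can be moved arbitrarily within a linear system; the other
zeros follow twice differentiably and the divisor class stays.
-/

set_option autoImplicit false

noncomputable section

open AlgebraicCurve Filter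
open scoped Classical Topology ContDiff

namespace FermatAgent.Curve.Jac

variable {F : Type*} [Field F] [Algebra ℂ F] [IsFF ℂ F]

/-- Nearby points of two charts at different places are different. -/
theorem Chart.eventually_ne {v w : Place ℂ F} (C : Chart v) (D : Chart w) (h : v ≠ w) :
    ∀ᶠ p in 𝓝 ((0 : ℂ), (0 : ℂ)), C.pt p.1 ≠ D.pt p.2 := by
  obtain ⟨f, hf⟩ := exists_approx {v, w} (fun u => if u = v then (0 : F) else 1) 1
  have hv : OrdGE v 1 f := by simpa using hf v (by simp)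
  have hw : OrdGE w 1 (f - 1) := by simpa [h.symm] using hf w (by simp)
  have hwreg : OrdGE w 0 f := by
    simpa using (hw.mono zero_le_one).add (Or.inr (by simp) : OrdGE w 0 (1 : F))
  have h0 : pval v f = 0 := (pval_eq_zero_iff (hv.mono zero_le_one)).2 hv
  have h1 : pval w f = 1 := (pval_eq_iff hwreg).2 (by rwa [map_one])
  have hC : Tendsto (fun p : ℂ × ℂ => pval (C.pt p.1) f) (𝓝 (0, 0)) (𝓝 (pval v f)) :=
    (C.tendsto_pval (hv.mono zero_le_one)).comp continuous_fst.continuousAt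
  have hD : Tendsto (fun p : ℂ × ℂ => pval (D.pt p.2) f) (𝓝 (0, 0)) (𝓝 (pval w f)) :=
    (D.tendsto_pval hwreg).comp continuous_snd.continuousAt
  have hne := (hC.sub hD).eventually_ne (show pval v f - pval w f ≠ 0 by rw [h0, h1]; norm_num)
  filter_upwards [hne] with p hp heq
  exact hp (by rw [heq, sub_self])

variable {J κ : Type*} [Fintype J] [Fintype κ]

/-- The value at a nearby point of `C` of the member with coefficients `c` of a linear system. -/
def memberVal {v : Place ℂ F} (C : Chart v) (u₀ : F) (b : κ → F) (x : (κ → ℂ) × ℂ) : ℂ :=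
  pval (C.pt x.2) u₀ + ∑ k, x.1 k * pval (C.pt x.2) (b k)

omit [IsFF ℂ F] in
theorem ordGE_add_sum_smul {P : Place ℂ F} {u₀ : F} {b : κ → F} (c : κ → ℂ) (h1 : OrdGE P 0 u₀)
    (h2 : ∀ k, OrdGE P 0 (b k)) : OrdGE P 0 (u₀ + ∑ k, c k • b k) :=
  h1.add (OrdGE.sum fun k _ => (h2 k).smul _)

theorem pval_add_sum_smul {P : Place ℂ F} {u₀ : F} {b : κ → F} (c : κ → ℂ) (h1 : OrdGE P 0 u₀)
    (h2 : ∀ k, OrdGE P 0 (b k)) :
    pval P (u₀ + ∑ k, c k • b k) = pval P u₀ + ∑ k, c k * pval P (b k) := by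
  rw [pval_add h1 (OrdGE.sum fun k _ => (h2 k).smul _), pval_sum fun k _ => (h2 k).smul _]
  exact congrArg _ (Finset.sum_congr rfl fun k _ => pval_smul _ (h2 k))

theorem contDiffAt_memberVal {v : Place ℂ F} (C : Chart v) {u₀ : F} {b : κ → F}
    (hu : OrdGE v 0 u₀) (hb : ∀ k, OrdGE v 0 (b k)) :
    ContDiffAt ℂ 2 (memberVal C u₀ b) (0, 0) :=
  ((C.smooth u₀ hu).comp ((0 : κ → ℂ), (0 : ℂ)) contDiffAt_snd).add
    (ContDiffAt.sum fun k _ =>
      ((contDiff_apply ℂ ℂ k).contDiffAt.comp _ contDiffAt_fst).mul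
        ((C.smooth (b k) (hb k)).comp ((0 : κ → ℂ), (0 : ℂ)) contDiffAt_snd))

/-- A simple zero follows the coefficients twice differentiably. -/
theorem exists_following_zero {v : Place ℂ F} (C : Chart v) {u₀ : F} {b : κ → F}
    (hu : v.ord u₀ = 1) (hb : ∀ k, OrdGE v 0 (b k)) :
    ∃ ζ : (κ → ℂ) → ℂ, ζ 0 = 0 ∧ ContDiffAt ℂ 2 ζ 0 ∧
      (∀ᶠ c in 𝓝 0, memberVal C u₀ b (c, ζ c) = 0) ∧
      ∀ᶠ x in 𝓝 (0, 0), memberVal C u₀ b x = 0 → ζ x.1 = x.2 := by
  have hreg : OrdGE v 0 u₀ := Or.inr (by rw [hu]; exact zero_le_one)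
  have hval : pval v u₀ = 0 := (pval_eq_zero_iff hreg).2 (Or.inr hu.ge)
  have hgc := contDiffAt_memberVal C hreg hb
  have hg0 : memberVal C u₀ b (0, 0) = 0 := by simp [memberVal, C.pt_zero, hval]
  set L := fderiv ℂ (memberVal C u₀ b) (0, 0) ∘L ContinuousLinearMap.inr ℂ (κ → ℂ) ℂ with hL
  have h1 : HasFDerivAt (fun t : ℂ => memberVal C u₀ b (0, t)) L 0 :=
    (hgc.differentiableAt (by norm_num)).hasFDerivAt.comp 0 (hasFDerivAt_prodMk_right 0 0)
  have h2 : L 1 = deriv (fun t => pval (C.pt t) u₀) 0 := by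
    rw [← h1.hasDerivAt.deriv]
    congr 1
    funext t
    simp [memberVal]
  have hinv : L.IsInvertible := by
    refine ⟨ContinuousLinearEquiv.unitsEquivAut ℂ (Units.mk0 _ (C.deriv_ne_zero hu)), ?_⟩
    ext
    simp [h2]
  refine ⟨hgc.implicitFunction (by norm_num) hinv, hgc.implicitFunction_apply_self _ hinv,
    hgc.contDiffAt_implicitFunction _ hinv, ?_, ?_⟩
  · exact (hgc.eventually_apply_implicitFunction (by norm_num) hinv).mono
      fun c hc => hc.trans hg0
  · exact (hgc.eventually_apply_eq_iff_implicitFunction (by norm_num) hinv).mono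
      fun x hx h => hx.1 (h.trans hg0.symm)

/-- The coefficients prescribing the zeros at points where `b` is dual. -/
theorem exists_coeff_of_points {v : κ → Place ℂ F} (C : ∀ i, Chart (v i)) {u₀ : F} {b : κ → F}
    (hu : ∀ i, (v i).ord u₀ = 1) (hb : ∀ i k, OrdGE (v i) 0 (b k))
    (hval : ∀ k i, pval (v i) (b k) = if k = i then 1 else 0) :
    ∃ cf : (κ → ℂ) → κ → ℂ, cf 0 = 0 ∧ ContDiffAt ℂ 2 cf 0 ∧
      ∀ᶠ w in 𝓝 0, ∀ i, memberVal (C i) u₀ b (cf w, w i) = 0 := by
  have hreg : ∀ i, OrdGE (v i) 0 u₀ := fun i => Or.inr (by rw [hu]; exact zero_le_one)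
  let h : (κ → ℂ) × (κ → ℂ) → (κ → ℂ) := fun x i => memberVal (C i) u₀ b (x.2, x.1 i)
  have hhc : ContDiffAt ℂ 2 h (0, 0) := contDiffAt_pi.2 fun i =>
    (contDiffAt_memberVal (C i) (hreg i) (hb i)).comp ((0 : κ → ℂ), (0 : κ → ℂ))
      (contDiffAt_snd.prodMk ((contDiff_apply ℂ ℂ i).contDiffAt.comp _ contDiffAt_fst))
  have hlin : ∀ c : κ → ℂ, h (0, c) = c := fun c => funext fun i => by
    have hv : ∀ k, pval (v i) (b k) = if k = i then 1 else 0 := fun k => hval k i
    have h0 : pval (v i) u₀ = 0 := (pval_eq_zero_iff (hreg i)).2 (Or.inr (hu i).ge)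
    simp [h, memberVal, (C i).pt_zero, h0, hv]
  have hhinv : (fderiv ℂ h (0, 0) ∘L ContinuousLinearMap.inr ℂ (κ → ℂ) (κ → ℂ)).IsInvertible := by
    have h1 : HasFDerivAt (fun c : κ → ℂ => h (0, c))
        (fderiv ℂ h (0, 0) ∘L ContinuousLinearMap.inr ℂ (κ → ℂ) (κ → ℂ)) 0 :=
      (hhc.differentiableAt (by norm_num)).hasFDerivAt.comp 0 (hasFDerivAt_prodMk_right 0 0)
    rw [show (fun c : κ → ℂ => h (0, c)) = id from funext hlin] at h1
    rw [h1.unique (hasFDerivAt_id 0)]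
    exact ⟨ContinuousLinearEquiv.refl ℂ _, rfl⟩
  refine ⟨hhc.implicitFunction (by norm_num) hhinv, hhc.implicitFunction_apply_self _ hhinv,
    hhc.contDiffAt_implicitFunction _ hhinv, ?_⟩
  exact (hhc.eventually_apply_implicitFunction (by norm_num) hhinv).mono
    fun w hw i => congrFun (hw.trans (hlin 0)) i

/-- A member near a nonzero one is nonzero. -/
theorem eventually_member_ne_zero {G : Divisor ℂ F} {u₀ : F} {b : κ → F} (hu0 : u₀ ≠ 0)
    (hb : ∀ k, b k ∈ riemannRochSpace G) :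
    ∀ᶠ c in 𝓝 (0 : κ → ℂ), u₀ + ∑ k, c k • b k ≠ 0 := by
  have := infinite_places (K := ℂ) (F := F)
  obtain ⟨P₀, hP₀⟩ :=
    Infinite.exists_notMem_finset ((finite_ord_ne_zero (K := ℂ) u₀).toFinset ∪ G.support)
  simp only [Finset.mem_union, Set.Finite.mem_toFinset, Set.mem_ofPred_eq,
    Finsupp.mem_support_iff, not_or, not_not] at hP₀
  have hP₀b : ∀ k, OrdGE P₀ 0 (b k) := fun k => ordGE_zero_of_mem (hb k) hP₀.2
  have hP₀r : OrdGE P₀ 0 u₀ := Or.inr hP₀.1.ge
  have hP₀v : pval P₀ u₀ ≠ 0 := fun h0 => by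
    have := (ordGE_iff_le hu0).1 ((pval_eq_zero_iff hP₀r).1 h0); omega
  have ht : Tendsto (fun c => pval P₀ u₀ + ∑ k, c k * pval P₀ (b k)) (𝓝 (0 : κ → ℂ))
      (𝓝 (pval P₀ u₀ + ∑ k, (0 : κ → ℂ) k * pval P₀ (b k))) :=
    tendsto_const_nhds.add (tendsto_finsetSum _ fun k _ =>
      ((continuous_apply k).tendsto _).mul tendsto_const_nhds)
  filter_upwards [ht.eventually_ne (by simpa using hP₀v)] with c hc h0
  exact hc (by rw [← pval_add_sum_smul c hP₀r hP₀b, h0, pval_zero])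

/-- A member vanishing at as many distinct places as its degree has no further zeros. -/
theorem isPrincipal_of_zeros {G : Divisor ℂ F} {u : F} (hu : u ≠ 0)
    (huG : u ∈ riemannRochSpace G) (hG0 : 0 ≤ G) {Q : J → Place ℂ F} (hQ : Function.Injective Q)
    (hcard : Divisor.degree G = Fintype.card J) (hzero : ∀ j, 1 ≤ (Q j).ord u) :
    Divisor.IsPrincipal (dsum Q - G) := by
  have hle : dsum Q ≤ divisorOf u + G := fun v => by
    rw [Finsupp.add_apply, divisorOf_apply]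
    by_cases hv : v ∈ Set.range Q
    · obtain ⟨j, rfl⟩ := hv
      rw [dsum_apply hQ]
      have h1 := hzero j
      have h2 : 0 ≤ G (Q j) := hG0 (Q j)
      omega
    · rw [dsum_apply_of_notMem hv]
      have := (mem_riemannRochSpace_iff_ne_zero hu).1 huG v
      omega
  have heqD : dsum Q = divisorOf u + G := eq_of_le_of_degree_eq hle (by
    rw [map_add, degree_divisorOf, zero_add, hcard, degree_dsum])
  exact ⟨u, hu, fun v => by rw [heqD, add_sub_cancel_right, divisorOf_apply]⟩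

/-- **Moving zeros.** -/
theorem exists_move {G : Divisor ℂ F} {u₀ : F} {T : J → Place ℂ F} (hT : Function.Injective T)
    (hG0 : 0 ≤ G) (hGT : ∀ j, G (T j) = 0) (hu0 : u₀ ≠ 0) (hdiv : divisorOf u₀ + G = dsum T)
    (C : ∀ j, Chart (T j)) (e : κ → J) (he : Function.Injective e)
    (hdim : rrDim (G - dsum (T ∘ e)) + Fintype.card κ = rrDim G) :
    ∃ Φ : (κ → ℂ) → (J → ℂ), ContDiffAt ℂ 2 Φ 0 ∧ Φ 0 = 0 ∧
      ∀ᶠ w in 𝓝 (0 : κ → ℂ), (∀ k, Φ w (e k) = w k) ∧
        Divisor.IsPrincipal (dsum (fun j => (C j).pt (Φ w j)) - G) := by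
  obtain ⟨b, hbmem, hbval⟩ :=
    exists_values (Q := T ∘ e) (fun i => hGT (e i)) (hT.comp he) hdim
  have hregb : ∀ j k, OrdGE (T j) 0 (b k) := fun j k => ordGE_zero_of_mem (hbmem k) (hGT j)
  have hordu : ∀ j, (T j).ord u₀ = 1 := fun j => by
    have := DFunLike.congr_fun hdiv (T j)
    rw [Finsupp.add_apply, divisorOf_apply, hGT, dsum_apply hT, add_zero] at this
    exact this
  choose ζ hζ0 hζc hζeq hζiff using fun j => exists_following_zero (C j) (hordu j) (hregb j)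
  obtain ⟨cf, hc0, hcc, hceq⟩ := exists_coeff_of_points (fun i => C (e i)) (fun i => hordu (e i))
    (fun i => hregb (e i)) hbval
  let Φ : (κ → ℂ) → (J → ℂ) := fun w j => ζ j (cf w)
  have hΦc : ContDiffAt ℂ 2 Φ 0 := contDiffAt_pi.2 fun j => by
    have hj : ContDiffAt ℂ 2 (ζ j) (cf 0) := by rw [hc0]; exact hζc j
    exact hj.comp 0 hcc
  have hΦ0 : Φ 0 = 0 := funext fun j => by simp [Φ, hc0, hζ0]
  have hct : Tendsto cf (𝓝 0) (𝓝 0) := by simpa [ContinuousAt, hc0] using hcc.continuousAt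
  have hΦt : ∀ j, Tendsto (fun w => Φ w j) (𝓝 0) (𝓝 0) := fun j => by
    simpa [ContinuousAt, hΦ0] using (contDiffAt_pi.1 hΦc j).continuousAt
  have hEq : ∀ᶠ w in 𝓝 (0 : κ → ℂ), ∀ j, memberVal (C j) u₀ b (cf w, Φ w j) = 0 :=
    eventually_all.2 fun j => hct.eventually (hζeq j)
  have hFix : ∀ᶠ w in 𝓝 (0 : κ → ℂ), ∀ k, Φ w (e k) = w k := by
    refine eventually_all.2 fun k => ?_
    have hwk : Tendsto (fun w : κ → ℂ => (cf w, w k)) (𝓝 0) (𝓝 (0, 0)) :=
      hct.prodMk_nhds ((continuous_apply k).tendsto' 0 0 rfl)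
    filter_upwards [hwk.eventually (hζiff (e k)), hceq] with w hw hw' using hw (hw' k)
  have hreg : ∀ᶠ w in 𝓝 (0 : κ → ℂ), ∀ j,
      OrdGE ((C j).pt (Φ w j)) 0 u₀ ∧ ∀ k, OrdGE ((C j).pt (Φ w j)) 0 (b k) :=
    eventually_all.2 fun j => (hΦt j).eventually
      (((C j).regular u₀ (Or.inr (by rw [hordu j]; exact zero_le_one))).and
        (eventually_all.2 fun k => (C j).regular _ (hregb j k)))
  have hdist : ∀ᶠ w in 𝓝 (0 : κ → ℂ), ∀ i j, i ≠ j → (C i).pt (Φ w i) ≠ (C j).pt (Φ w j) :=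
    eventually_all.2 fun i => eventually_all.2 fun j => by
      by_cases hij : i = j
      · exact Eventually.of_forall fun w hne => absurd hij hne
      · exact (((hΦt i).prodMk_nhds (hΦt j)).eventually
          ((C i).eventually_ne (C j) (hT.ne hij))).mono fun w hw _ => hw
  have hu₀G : u₀ ∈ riemannRochSpace G := (mem_riemannRochSpace_iff_ne_zero hu0).2 fun v => by
    have h1 := DFunLike.congr_fun hdiv v
    have h2 : 0 ≤ dsum T v := dsum_nonneg T v
    rw [Finsupp.add_apply, divisorOf_apply] at h1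
    omega
  have hcard := degree_eq_card hdiv
  refine ⟨Φ, hΦc, hΦ0, ?_⟩
  filter_upwards [hFix, hEq, hreg, hdist,
    hct.eventually (eventually_member_ne_zero hu0 hbmem)] with w hfix heq hr hd hu
  refine ⟨hfix, isPrincipal_of_zeros hu
    (Submodule.add_mem _ hu₀G (Submodule.sum_mem _ fun k _ => Submodule.smul_mem _ _ (hbmem k)))
    hG0 (fun i j hij => not_not.1 fun hne => hd i j hne hij) hcard fun j => ?_⟩
  obtain ⟨hrj, hrb⟩ := hr j
  exact (ordGE_iff_le hu).1 ((pval_eq_zero_iff (ordGE_add_sum_smul (cf w) hrj hrb)).1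
    ((pval_add_sum_smul (cf w) hrj hrb).trans (heq j)))

end FermatAgent.Curve.Jac

end
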