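import Fermat.Agent.Curve.Jac.Value
import Mathlib.RingTheory.Polynomial.Basic
import Mathlib.FieldTheory.PrimitiveElement
import Mathlib.Algebra.Polynomial.Identities
import Mathlib.FieldTheory.Minpoly.Field

/-!
# A plane model in which a given place is unramified with a simple root

For a uniformiser `u` a primitive element over `K(u)` regular at the place is corrected by Newton's
step, so that its equation keeps a simple root over `u = 0`.
-/

set_option autoImplicit false

noncomputable section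

open AlgebraicCurve Polynomial IntermediateField Module
open scoped Polynomial Classical

namespace FermatAgent.Curve.Jac

variable {K F : Type*} [Field K] [Field F] [Algebra K F]

/-- Substitute two functions into a polynomial in two variables. -/
def fev (u z : F) : K[X][X] →+* F := eval₂RingHom (aeval u).toRingHom z

/-- Evaluate a polynomial in two variables. -/
def bev (t η : K) : K[X][X] →+* K := eval₂RingHom (evalRingHom t) η

/-- Substitution on a coefficient. -/
theorem fev_C (u z : F) (p : K[X]) : fev u z (C p) = aeval u p := eval₂_C _ _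
/-- Substitution on the outer variable. -/
theorem fev_X (u z : F) : fev u z (X : K[X][X]) = z := eval₂_X _ _
/-- Evaluation on a coefficient. -/
theorem bev_C (t η : K) (p : K[X]) : bev t η (C p) = p.eval t := eval₂_C _ _
/-- Evaluation on the outer variable. -/
theorem bev_X (t η : K) : bev t η (X : K[X][X]) = η := eval₂_X _ _

/-- Polynomials in regular functions are regular. -/
theorem ordGE_fev {v : Place K F} {u z : F} (hu : OrdGE v 0 u) (hz : OrdGE v 0 z)
    (G : K[X][X]) : OrdGE v 0 (fev u z G) := by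
  induction G using Polynomial.induction_on' with
  | add p q hp hq => rw [map_add]; exact hp.add hq
  | monomial n a =>
    rw [← C_mul_X_pow_eq_monomial, map_mul, map_pow, fev_C, fev_X]
    exact ((ordGE_aeval hu a).mul (hz.pow n)).mono (by simp)

variable [IsAlgClosed K] [IsFF K F]

/-- The value of `G(u, z)` is `G` of the values. -/
theorem pval_fev {v : Place K F} {u z : F} (hu : OrdGE v 0 u) (hz : OrdGE v 0 z) (G : K[X][X]) :
    pval v (fev u z G) = bev (pval v u) (pval v z) G := by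
  induction G using Polynomial.induction_on' with
  | add p q hp hq => rw [map_add, map_add, pval_add (ordGE_fev hu hz p) (ordGE_fev hu hz q), hp, hq]
  | monomial n a =>
    rw [← C_mul_X_pow_eq_monomial, map_mul, map_pow, fev_C, fev_X, map_mul, map_pow, bev_C, bev_X,
      pval_mul (ordGE_aeval hu a) ((hz.pow n).mono (by simp)), pval_aeval hu, pval_pow hz]

theorem X_pow_dvd_iff_ordGE {v : Place K F} {u : F} (hu : v.ord u = 1) (p : K[X]) (n : ℕ) :
    X ^ n ∣ p ↔ OrdGE v n (aeval u p) := by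
  have hu0 : u ≠ 0 := fun h => by simp [h] at hu
  have hu' : OrdGE v 0 u := Or.inr (by omega)
  constructor
  · rintro ⟨q, rfl⟩
    rw [map_mul, map_pow, aeval_X]
    exact (((ordGE_self u).pow n).mul (ordGE_aeval hu' q)).mono (by rw [hu]; simp)
  · intro h
    rcases eq_or_ne p 0 with rfl | hp
    · exact dvd_zero _
    obtain ⟨q, hq, hnd⟩ := p.exists_eq_pow_rootMultiplicity_mul_and_not_dvd hp 0
    rw [map_zero, sub_zero] at hq hnd
    set m := p.rootMultiplicity 0
    have hq0 : q.eval 0 ≠ 0 := fun h0 => hnd (X_dvd_iff.2 (by rwa [coeff_zero_eq_eval_zero]))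
    have hval : pval v (aeval u q) = q.eval 0 := by
      rw [pval_aeval hu', (pval_eq_zero_iff hu').2 (Or.inr (by omega))]
    have hne : aeval u q ≠ 0 := fun h0 => hq0 (by rw [← hval, h0, pval_zero])
    have hordq : v.ord (aeval u q) = 0 := by
      have h1 := (ordGE_iff_le hne).1 (ordGE_aeval hu' q)
      by_contra h2
      exact hq0 (hval ▸ (pval_eq_zero_iff (ordGE_aeval hu' q)).2 (Or.inr (by omega)))
    rw [hq, map_mul, map_pow, aeval_X, ordGE_iff_le (mul_ne_zero (pow_ne_zero _ hu0) hne),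
      v.ord_mul (pow_ne_zero _ hu0) hne, ord_pow, hu, hordq] at h
    rw [hq]
    exact (pow_dvd_pow X (show n ≤ m by omega)).mul_right q

variable [CharZero K]

omit [IsAlgClosed K] [IsFF K F] [CharZero K] in
/-- Common denominators for finitely many rational functions. -/
theorem exists_den {u : F} (hu : Transcendental K u) (s : Finset K⟮u⟯) :
    ∃ D : K[X], D ≠ 0 ∧ ∀ l ∈ s, ∃ r : K[X], aeval u D * (l : F) = aeval u r := by
  have h : ∀ l : K⟮u⟯, ∃ r t : K[X], t ≠ 0 ∧ aeval u t * (l : F) = aeval u r := fun l => by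
    obtain ⟨r, t, hrt⟩ := (mem_adjoin_simple_iff K _).1 l.2
    by_cases ht : t = 0
    · exact ⟨0, 1, one_ne_zero, by simp [hrt, ht]⟩
    · refine ⟨r, t, ht, ?_⟩
      rw [hrt, mul_div_cancel₀]
      exact fun h0 => ht (transcendental_iff.1 hu t h0)
  choose r t ht hrt using h
  refine ⟨∏ l ∈ s, t l, Finset.prod_ne_zero_iff.2 fun l _ => ht l, fun l hl =>
    ⟨r l * ∏ m ∈ s.erase l, t m, ?_⟩⟩
  rw [← Finset.mul_prod_erase _ _ hl, map_mul, map_mul, ← hrt l]
  ring

omit [IsAlgClosed K] [IsFF K F] [CharZero K] in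
/-- Polynomials over `K(u)` with denominators cleared. -/
theorem exists_clear {u : F} (hu : Transcendental K u) (ι : K[X] →+* K⟮u⟯)
    (hι : ∀ p : K[X], ((ι p : K⟮u⟯) : F) = aeval u p) (Q : (K⟮u⟯)[X]) :
    ∃ (D : K[X]) (G : K[X][X]), D ≠ 0 ∧ G.map ι = C (ι D) * Q := by
  obtain ⟨D, hD, hr⟩ := exists_den hu (Q.support.image Q.coeff)
  have h : ∀ i, ∃ r : K[X], ι r = ι D * Q.coeff i := fun i => by
    by_cases hi : i ∈ Q.support
    · obtain ⟨r, hr⟩ := hr _ (Finset.mem_image_of_mem _ hi)
      refine ⟨r, Subtype.ext ?_⟩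
      show ((ι r : K⟮u⟯) : F) = ((ι D : K⟮u⟯) : F) * (Q.coeff i : F)
      rw [hι, hι, hr]
    · exact ⟨0, by rw [map_zero, notMem_support_iff.1 hi, mul_zero]⟩
  choose r hr using h
  refine ⟨D, ∑ i ∈ Q.support, C (r i) * X ^ i, hD, ?_⟩
  conv_rhs => rw [Q.as_sum_support_C_mul_X_pow]
  rw [Polynomial.map_sum, Finset.mul_sum]
  refine Finset.sum_congr rfl fun i _ => ?_
  rw [Polynomial.map_mul, Polynomial.map_pow, map_C, map_X, hr, map_mul, mul_assoc]

/-- A model at a place: `R(u, z) = 0` with a simple root in `z` over `u = 0`. -/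
structure Model (v : Place K F) where
  /-- the uniformiser -/
  u : F
  /-- the second coordinate -/
  z : F
  /-- the equation -/
  R : K[X][X]
  ord_u : v.ord u = 1
  reg_z : OrdGE v 0 z
  eq_zero : fev u z R = 0
  simple : bev 0 (pval v z) (derivative R) ≠ 0
  generate : ∀ f : F, ∃ (A : K[X][X]) (D : K[X]), D ≠ 0 ∧ f * aeval u D = fev u z A
  divides : ∀ G : K[X][X], fev u z G = 0 → ∃ (D : K[X]) (H : K[X][X]), D ≠ 0 ∧ C D * G = R * H

omit [IsAlgClosed K] [IsFF K F] [CharZero K] in
/-- Polynomials in `u` as elements of `K(u)`. -/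
def toAdjoin (u : F) : K[X] →+* K⟮u⟯ :=
  (aeval (⟨u, mem_adjoin_simple_self K u⟩ : K⟮u⟯)).toRingHom

omit [IsAlgClosed K] [IsFF K F] [CharZero K] in
/-- The function of a polynomial in `u`. -/
theorem coe_toAdjoin (u : F) (p : K[X]) : ((toAdjoin u p : K⟮u⟯) : F) = aeval u p :=
  (aeval_algHom_apply (K⟮u⟯.val) _ p).symm

omit [IsAlgClosed K] [IsFF K F] [CharZero K] in
/-- `K[u] → K(u)` is injective for transcendental `u`. -/
theorem toAdjoin_injective {u : F} (hu : Transcendental K u) :
    Function.Injective (toAdjoin (K := K) u) := fun p q h => by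
  have h1 : aeval u p = aeval u q := by rw [← coe_toAdjoin, ← coe_toAdjoin, h]
  exact transcendental_iff_injective.1 hu h1

omit [IsAlgClosed K] [IsFF K F] [CharZero K] in
/-- Evaluating at `w` over `K(u)` is substitution of `(u, w)`. -/
theorem aeval_map_toAdjoin (u w : F) (G : K[X][X]) :
    aeval w (G.map (toAdjoin u)) = fev u w G := by
  rw [aeval_def, eval₂_map]
  exact eval₂_congr (RingHom.ext fun p => coe_toAdjoin u p) rfl rfl

omit [IsAlgClosed K] [IsFF K F] [CharZero K] in
/-- An element separable over `K(u)` is a simple root of a polynomial with coefficients in `K[u]`,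
of the degree of its minimal polynomial. -/
theorem exists_sep_equation {u : F} (hu : Transcendental K u) [Algebra.IsSeparable K⟮u⟯ F]
    (y : F) :
    ∃ P : K[X][X], fev u y P = 0 ∧ fev u y (derivative P) ≠ 0 ∧
      P.natDegree = (minpoly K⟮u⟯ y).natDegree := by
  obtain ⟨d, P, hd, hP⟩ := exists_clear hu _ (coe_toAdjoin u) (minpoly K⟮u⟯ y)
  have hdι : toAdjoin u d ≠ 0 := fun h => hd (toAdjoin_injective hu (by rw [h, map_zero]))
  refine ⟨P, by rw [← aeval_map_toAdjoin, hP, map_mul, minpoly.aeval, mul_zero], ?_, ?_⟩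
  · rw [← aeval_map_toAdjoin, ← derivative_map, hP, derivative_C_mul, map_mul, aeval_C]
    exact mul_ne_zero ((_root_.map_ne_zero _).2 hdι)
      ((Algebra.IsSeparable.isSeparable K⟮u⟯ y).aeval_derivative_ne_zero (minpoly.aeval _ _))
  · rw [← natDegree_map_eq_of_injective (toAdjoin_injective hu), hP, natDegree_C_mul hdι]

omit [IsAlgClosed K] [IsFF K F] [CharZero K] in
/-- A generator over `K(u)` generates with polynomial denominators in `u`. -/
theorem exists_gen {u z : F} (hu : Transcendental K u) [FiniteDimensional K⟮u⟯ F]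
    (hz : K⟮u⟯⟮z⟯ = ⊤) (f : F) :
    ∃ (A : K[X][X]) (D : K[X]), D ≠ 0 ∧ f * aeval u D = fev u z A := by
  have hf : f ∈ K⟮u⟯⟮z⟯ := hz ▸ IntermediateField.mem_top
  rw [← IntermediateField.mem_toSubalgebra,
    adjoin_simple_toSubalgebra_of_isAlgebraic (IsIntegral.of_finite K⟮u⟯ z).isAlgebraic,
    Algebra.adjoin_singleton_eq_range_aeval] at hf
  obtain ⟨Q, rfl⟩ := hf
  obtain ⟨D, A, hD, hA⟩ := exists_clear hu _ (coe_toAdjoin u) Q
  refine ⟨A, D, hD, ?_⟩
  rw [← aeval_map_toAdjoin, hA, map_mul, aeval_C, mul_comm]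
  congr 1
  exact (coe_toAdjoin u D).symm

omit [IsAlgClosed K] [IsFF K F] [CharZero K] in
/-- A primitive element regular at the place. -/
private theorem exists_primitive_regular {v : Place K F} {u : F} (hu0 : u ≠ 0) (hu : v.ord u = 1)
    [FiniteDimensional K⟮u⟯ F] [Algebra.IsSeparable K⟮u⟯ F] :
    ∃ y, OrdGE v 0 y ∧ K⟮u⟯⟮y⟯ = ⊤ := by
  obtain ⟨y₀, hy₀⟩ := Field.exists_primitive_element K⟮u⟯ F
  set m := (v.ord y₀).natAbs
  refine ⟨u ^ m * y₀,
    (((ordGE_self u).pow m).mul (ordGE_self y₀)).mono (by rw [hu, mul_one]; omega), ?_⟩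
  rw [eq_top_iff, ← hy₀, adjoin_simple_le_iff]
  have h1 : (u ^ m : F) ∈ K⟮u⟯⟮u ^ m * y₀⟯ :=
    pow_mem ((K⟮u⟯⟮u ^ m * y₀⟯).algebraMap_mem ⟨u, mem_adjoin_simple_self K u⟩) m
  have h2 := mul_mem (inv_mem h1) (mem_adjoin_simple_self K⟮u⟯ (u ^ m * y₀))
  rwa [inv_mul_cancel_left₀ (pow_ne_zero _ hu0)] at h2

omit [IsAlgClosed K] [IsFF K F] [CharZero K] in
/-- Evaluation of `G(u, S + u ^ n Z)`. -/
private theorem fev_eval_add {u y z : F} {S : K[X]} {n : ℕ} (hyz : y = aeval u S + u ^ n * z)
    (G : K[X][X]) : fev u z ((G.map C).eval (C S + C (X ^ n) * X)) = fev u y G := by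
  rw [eval_map, hom_eval₂, map_add, fev_C, map_mul, fev_C, fev_X, map_pow, aeval_X, ← hyz]
  exact eval₂_congr (RingHom.ext fun p => fev_C u z p) rfl rfl

omit [CharZero K] in
/-- The orders at `u = 0` of the first two coefficients of `P(u, S + u ^ (k + 1) Z)`, where `k` is
the order of the derivative of `P` at the root. -/
private theorem exists_coeff_factors {v : Place K F} {u y z : F} (hu : v.ord u = 1)
    (hzreg : OrdGE v 0 z) {k : ℕ} {S : K[X]} (hyz : y = aeval u S + u ^ (k + 1) * z)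
    {P : K[X][X]} (hP0 : fev u y P = 0) (hP1 : fev u y (derivative P) ≠ 0)
    (hk : v.ord (fev u y (derivative P)) = k) :
    ∃ a b : K[X], a.eval 0 ≠ 0 ∧ (derivative P).eval S = X ^ k * a ∧
      P.eval S = X ^ (2 * k + 1) * b := by
  have hu' : OrdGE v 0 u := Or.inr (by omega)
  set w : K[X][X] := C (X ^ (k + 1)) * X with hw
  have hfw : fev u z w = u ^ (k + 1) * z := by rw [hw, map_mul, fev_C, fev_X, map_pow, aeval_X]
  have hconst : ∀ G : K[X][X], (G.map C).eval (C S) = C (G.eval S) := fun G => eval_map_apply _ _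
  obtain ⟨q, hq⟩ := binomExpansion (P.map C) (C S) w
  obtain ⟨q', hq'⟩ := binomExpansion ((derivative P).map C) (C S) w
  rw [derivative_map, hconst, hconst] at hq
  have hsmall : ∀ G : K[X][X], OrdGE v ((k + 1 : ℕ) : ℤ) (fev u z (G * w)) := fun G => by
    rw [map_mul, hfw]
    refine ((ordGE_fev hu' hzreg G).mul (((ordGE_self u).pow (k + 1)).mul hzreg)).mono ?_
    rw [hu]; simp
  have h1 := congrArg (fev u z) hq'
  rw [fev_eval_add hyz, hconst, add_assoc, map_add, fev_C,
    show (derivative ((derivative P).map C)).eval (C S) * w + q' * w ^ 2 =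
      ((derivative ((derivative P).map C)).eval (C S) + q' * w) * w by ring] at h1
  have h3 := hsmall ((derivative ((derivative P).map C)).eval (C S) + q' * w)
  have ha₁ : OrdGE v (k : ℤ) (aeval u ((derivative P).eval S)) := by
    have h2 := (hk ▸ ordGE_self (fev u y (derivative P))).sub (h3.mono (by push_cast; omega))
    rw [h1, add_sub_cancel_right] at h2
    exact h2
  have ha₁' : ¬ OrdGE v ((k + 1 : ℕ) : ℤ) (aeval u ((derivative P).eval S)) := fun hbad => by
    have h2 := hbad.add h3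
    rw [← h1, ordGE_iff_le hP1, hk] at h2
    push_cast at h2
    omega
  obtain ⟨a, ha⟩ := (X_pow_dvd_iff_ordGE hu _ _).2 ha₁
  obtain ⟨b, hb⟩ : X ^ (2 * k + 1) ∣ P.eval S := by
    refine (X_pow_dvd_iff_ordGE hu _ _).2 ?_
    have h1 := congrArg (fev u z) hq
    rw [fev_eval_add hyz, hP0, map_add, map_add, fev_C, map_mul, fev_C, hfw] at h1
    have h2 : aeval u (P.eval S) =
        -(aeval u ((derivative P).eval S) * (u ^ (k + 1) * z) + fev u z (q * w ^ 2)) := by
      linear_combination -h1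
    rw [h2]
    refine (OrdGE.add ?_ ?_).neg
    · exact (ha₁.mul (((ordGE_self u).pow (k + 1)).mul hzreg)).mono (by rw [hu]; push_cast; omega)
    · rw [map_mul, map_pow, hfw]
      refine ((ordGE_fev hu' hzreg q).mul
        ((((ordGE_self u).pow (k + 1)).mul hzreg).pow 2)).mono ?_
      rw [hu]; push_cast; omega
  refine ⟨a, b, fun h0 => ha₁' ((X_pow_dvd_iff_ordGE hu _ _).1 ?_), ha, hb⟩
  rw [ha, pow_succ]
  exact mul_dvd_mul_left _ (X_dvd_iff.2 (by rwa [coeff_zero_eq_eval_zero]))

omit [CharZero K] in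
/-- Newton's step: after a substitution `y = S + u ^ n z` a root becomes simple over `u = 0`. -/
private theorem exists_simple_root {v : Place K F} {u y : F} (hu0 : u ≠ 0) (hu : v.ord u = 1)
    (hyreg : OrdGE v 0 y) {P : K[X][X]} (hP0 : fev u y P = 0)
    (hP1 : fev u y (derivative P) ≠ 0) :
    ∃ (S : K[X]) (n : ℕ) (z : F) (R : K[X][X]), y = aeval u S + u ^ n * z ∧ OrdGE v 0 z ∧
      fev u z R = 0 ∧ bev 0 (pval v z) (derivative R) ≠ 0 ∧ R.natDegree ≤ P.natDegree := by
  have hu' : OrdGE v 0 u := Or.inr (by omega)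
  set k := (v.ord (fev u y (derivative P))).toNat with hk
  have hkord : v.ord (fev u y (derivative P)) = k :=
    (Int.toNat_of_nonneg ((ordGE_iff_le hP1).1 (ordGE_fev hu' hyreg _))).symm
  set S := PowerSeries.trunc (k + 1) (expandPS hu ⟨y, mem_iff_ordGE.2 hyreg⟩)
  have hyS : OrdGE v ((k + 1 : ℕ) : ℤ) (y - aeval u S) :=
    ordGE_sub_trunc hu ⟨y, mem_iff_ordGE.2 hyreg⟩ (k + 1)
  set z := (y - aeval u S) / u ^ (k + 1) with hzdef
  have hyz : y = aeval u S + u ^ (k + 1) * z := by
    rw [hzdef, mul_div_cancel₀ _ (pow_ne_zero _ hu0)]; ring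
  have hzreg : OrdGE v 0 z := by
    rw [hzdef, div_eq_mul_inv]
    refine (hyS.mul (ordGE_self _)).mono ?_
    rw [v.ord_inv, ord_pow, hu]
    push_cast
    omega
  obtain ⟨a, b, ha0, ha, hb⟩ := exists_coeff_factors hu hzreg hyz hP0 hP1 hkord
  obtain ⟨q, hq⟩ := binomExpansion (P.map C) (C S) (C (X ^ (k + 1)) * X)
  rw [derivative_map, eval_map_apply, eval_map_apply, ha, hb] at hq
  set R : K[X][X] := C b + C a * X + C X * (q * X ^ 2) with hR
  have hPR : (P.map C).eval (C S + C (X ^ (k + 1)) * X) = C (X ^ (2 * k + 1)) * R := by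
    rw [hq, hR]
    simp only [map_mul, map_pow]
    ring
  refine ⟨S, k + 1, z, R, hyz, hzreg, ?_, ?_, ?_⟩
  · have h1 := congrArg (fev u z) hPR
    rw [fev_eval_add hyz, hP0, map_mul, fev_C, map_pow, aeval_X] at h1
    exact (mul_eq_zero.1 h1.symm).resolve_left (pow_ne_zero _ hu0)
  · rw [hR, derivative_add, derivative_add, derivative_C, derivative_C_mul, derivative_C_mul,
      derivative_X, map_add, map_add, map_zero, zero_add, map_mul, map_mul, bev_C, bev_C, map_one,
      mul_one, eval_X, zero_mul, add_zero]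
    exact ha0
  · have h1 : (C (X ^ (2 * k + 1)) * R).natDegree = R.natDegree :=
      natDegree_C_mul (pow_ne_zero _ X_ne_zero)
    rw [← h1, ← hPR, eval_map]
    refine (natDegree_comp_le (p := P) (q := C S + C (X ^ (k + 1)) * X)).trans ?_
    have hwd : (C S + C (X ^ (k + 1)) * X : K[X][X]).natDegree ≤ 1 :=
      (natDegree_add_le _ _).trans
        (max_le (by simp) ((natDegree_C_mul_le _ _).trans (by simp)))
    exact (Nat.mul_le_mul_left _ hwd).trans (mul_one _).le

omit [CharZero K] in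
/-- A generator with a simple root of an equation of least degree gives a model. -/
private theorem nonempty_model {v : Place K F} {u z : F} {R : K[X][X]} (hu : v.ord u = 1)
    (htr : Transcendental K u) [FiniteDimensional K⟮u⟯ F] (hzreg : OrdGE v 0 z)
    (hR0 : fev u z R = 0) (hR1 : bev 0 (pval v z) (derivative R) ≠ 0) (hzprim : K⟮u⟯⟮z⟯ = ⊤)
    (hRdeg : R.natDegree ≤ (minpoly K⟮u⟯ z).natDegree) : Nonempty (Model v) := by
  have hιi := toAdjoin_injective htr
  refine ⟨⟨u, z, R, hu, hzreg, hR0, hR1, exists_gen htr hzprim, fun G hG => ?_⟩⟩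
  have hdvd : ∀ Q : (K⟮u⟯)[X], aeval z Q = 0 → R.map (toAdjoin u) ∣ Q := fun Q hQ => by
    have hm := minpoly.dvd K⟮u⟯ z (p := R.map (toAdjoin u)) (by rw [aeval_map_toAdjoin, hR0])
    have hne : R.map (toAdjoin u) ≠ 0 := (Polynomial.map_ne_zero_iff hιi).2
      fun h => hR1 (by rw [h, derivative_zero, map_zero])
    have hass : Associated (minpoly K⟮u⟯ z) (R.map (toAdjoin u)) :=
      associated_of_dvd_of_natDegree_le hm hne
        (by rw [natDegree_map_eq_of_injective hιi]; exact hRdeg)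
    exact hass.symm.dvd.trans (minpoly.dvd _ _ hQ)
  obtain ⟨H₀, hH₀⟩ := hdvd _ (by rw [aeval_map_toAdjoin, hG] : aeval z (G.map (toAdjoin u)) = 0)
  obtain ⟨D, H, hD, hH⟩ := exists_clear htr _ (coe_toAdjoin u) H₀
  refine ⟨D, H, hD, Polynomial.map_injective _ hιi ?_⟩
  rw [Polynomial.map_mul, Polynomial.map_mul, map_C, hH, hH₀]
  ring

/-- Every place has a plane model with a simple root over `u = 0`. -/
theorem exists_model (v : Place K F) : Nonempty (Model v) := by
  obtain ⟨u, hu0, hu⟩ := exists_ord_eq_one v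
  have htr : Transcendental K u := transcendental_of_ord_ne_zero (v := v) (by omega)
  have := IsFF.finite_adjoin (F := F) htr
  have : CharZero K⟮u⟯ := charZero_of_injective_algebraMap (algebraMap K K⟮u⟯).injective
  have : Algebra.IsSeparable K⟮u⟯ F := inferInstance
  obtain ⟨y, hyreg, hyprim⟩ := exists_primitive_regular hu0 hu
  obtain ⟨P, hP0, hP1, hPdeg⟩ := exists_sep_equation htr y
  obtain ⟨S, n, z, R, hyz, hzreg, hR0, hR1, hdeg⟩ := exists_simple_root hu0 hu hyreg hP0 hP1
  have hzprim : K⟮u⟯⟮z⟯ = ⊤ := by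
    rw [eq_top_iff, ← hyprim, adjoin_simple_le_iff, hyz]
    have hmem : ∀ p : K[X], aeval u p ∈ K⟮u⟯⟮z⟯ := fun p =>
      coe_toAdjoin u p ▸ (K⟮u⟯⟮z⟯).algebraMap_mem (toAdjoin u p)
    have h2 := hmem (X ^ n)
    rw [map_pow, aeval_X] at h2
    exact add_mem (hmem S) (mul_mem h2 (mem_adjoin_simple_self _ z))
  refine nonempty_model hu htr hzreg hR0 hR1 hzprim (hdeg.trans_eq ?_)
  rw [hPdeg, ← adjoin.finrank (IsIntegral.of_finite _ y),
    ← adjoin.finrank (IsIntegral.of_finite K⟮u⟯ z), hyprim, hzprim]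

end FermatAgent.Curve.Jac

end
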