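import Fermat.Agent.Curve.FunctionField
import Fermat.Prelude.Def_AlgebraicCurve_IsCurveOver
import Mathlib.RingTheory.Unramified.Field
import Mathlib.RingTheory.EssentialFiniteness

/-!
# A curve in the sense of differentials is a function field of one variable

An element with nonzero differential is transcendental, and the field is finite over the rational
function field it generates, being unramified over it.
-/

set_option autoImplicit false

noncomputable section

open AlgebraicCurve IntermediateField

namespace FermatAgent.Curve.Jac

/-- A curve in the sense of differentials has transcendence degree one and is finite over a rational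
function field. -/
theorem isFF_of_isCurveOver (K F : Type*) [Field K] [Field F] [Algebra K F] [IsAlgClosed K]
    [IsCurveOver K F] [Algebra.EssFiniteType K F] : IsFF K F := by
  obtain ⟨x, hx⟩ : ∃ x : F, KaehlerDifferential.D K F x ≠ 0 := by
    by_contra hno
    push Not at hno
    have h : (⊤ : Submodule F Ω[F⁄K]) ≤ ⊥ := by
      rw [← KaehlerDifferential.span_range_derivation, Submodule.span_le]
      rintro _ ⟨f, rfl⟩
      exact hno f
    have : Subsingleton Ω[F⁄K] :=
      ⟨fun a b => ((Submodule.mem_bot F).1 (h trivial)).trans
        ((Submodule.mem_bot F).1 (h trivial)).symm⟩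
    exact absurd (inferInstance : Nontrivial Ω[F⁄K]) (not_nontrivial _)
  have htr : Transcendental K x := fun halg => by
    have : Algebra.IsAlgebraic K K⟮x⟯ := IntermediateField.isAlgebraic_adjoin_simple halg.isIntegral
    obtain ⟨c, hc⟩ := IntermediateField.mem_bot.1
      ((IntermediateField.eq_bot_of_isAlgClosed_of_isAlgebraic K⟮x⟯) ▸ mem_adjoin_simple_self K x)
    exact hx (by rw [← hc, Derivation.map_algebraMap])
  refine ⟨x, htr, ?_⟩
  have : Algebra.EssFiniteType K⟮x⟯ F := Algebra.EssFiniteType.of_comp K K⟮x⟯ F
  have hsurj := KaehlerDifferential.map_surjective K K⟮x⟯ F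
  have : Algebra.FormallyUnramified K⟮x⟯ F := ⟨⟨fun a b => by
    suffices h : ∀ c : Ω[F⁄K⟮x⟯], c = 0 by rw [h a, h b]
    intro c
    obtain ⟨w, rfl⟩ := hsurj c
    obtain ⟨m, rfl⟩ := Submodule.mem_span_singleton.1
      (((finrank_eq_one_iff_of_nonzero _ hx).1 IsCurveOver.finrank_kaehler).ge
        (Submodule.mem_top (x := w)))
    rw [map_smul, KaehlerDifferential.map_D]
    have h0 : KaehlerDifferential.D K⟮x⟯ F
        (algebraMap K⟮x⟯ F ⟨x, mem_adjoin_simple_self K x⟩) = 0 :=
      Derivation.map_algebraMap _ _
    change KaehlerDifferential.D K⟮x⟯ F x = 0 at h0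
    show m • KaehlerDifferential.D K⟮x⟯ F (algebraMap F F x) = 0
    rw [Algebra.algebraMap_self_apply, h0, smul_zero]⟩⟩
  exact Algebra.FormallyUnramified.finite_of_free _ _

end FermatAgent.Curve.Jac

end
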