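import Fermat.Agent.Curve.Jac.Newton

/-!
# Places over simple points of a plane model

Exactly one place lies over a simple point, and the first coordinate is unramified there.
-/

set_option autoImplicit false

noncomputable section

open AlgebraicCurve Polynomial
open scoped Polynomial Classical

namespace FermatAgent.Curve.Jac

variable {K F : Type*} [Field K] [Field F] [Algebra K F] [IsAlgClosed K] [IsFF K F]

omit [IsAlgClosed K] in
/-- Evaluation in two steps. -/
theorem bev_eq_eval {t η : K} (G : K[X][X]) : bev t η G = (G.eval (C η)).eval t := by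
  induction G using Polynomial.induction_on' with
  | add p q hp hq => rw [map_add, hp, hq, eval_add, eval_add]
  | monomial n a =>
    rw [← C_mul_X_pow_eq_monomial, map_mul, map_pow, bev_C, bev_X]
    simp

/-- A place over a point of the plane. -/
structure IsOverPt (u z : F) (w : Place K F) (t η : K) : Prop where
  reg_u : OrdGE w 0 u
  reg_z : OrdGE w 0 z
  val_u : pval w u = t
  val_z : pval w z = η

variable {u z : F} {R : K[X][X]} {t η : K} {w w' : Place K F}

omit [IsAlgClosed K] [IsFF K F] in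
theorem sub_ne_zero_of_transcendental (hu : Transcendental K u) (t : K) :
    u - algebraMap K F t ≠ 0 := fun h0 => hu (by
  rw [sub_eq_zero.1 h0]; exact isAlgebraic_algebraMap t)

namespace IsOverPt

variable (hw : IsOverPt u z w t η)
include hw

/-- Polynomials in the coordinates are regular at a place over the point. -/
theorem ordGE (G : K[X][X]) : OrdGE w 0 (fev u z G) := ordGE_fev hw.reg_u hw.reg_z G

/-- Their values are the values of the polynomials at the point. -/
theorem pval_fev (G : K[X][X]) : pval w (fev u z G) = bev t η G := by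
  rw [Jac.pval_fev hw.reg_u hw.reg_z, hw.val_u, hw.val_z]

/-- A polynomial nonzero at the point is a unit at the place. -/
theorem ord_eq_zero {G : K[X][X]} (hG : bev t η G ≠ 0) :
    fev u z G ≠ 0 ∧ w.ord (fev u z G) = 0 := by
  have hne : fev u z G ≠ 0 := fun h0 => hG (by rw [← hw.pval_fev, h0, pval_zero])
  refine ⟨hne, ?_⟩
  have h1 := (ordGE_iff_le hne).1 (hw.ordGE G)
  by_contra h2
  exact hG (hw.pval_fev G ▸ (pval_eq_zero_iff (hw.ordGE G)).2 (Or.inr (by omega)))

/-- `u - t` vanishes at a place over `(t, η)`. -/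
theorem ord_sub_pos (hu : Transcendental K u) : 0 < w.ord (u - algebraMap K F t) := by
  have := (ordGE_iff_le (sub_ne_zero_of_transcendental hu t)).1 (hw.val_u ▸ pval_spec hw.reg_u)
  omega

theorem ord_factor (hu : Transcendental K u) {f : F} (hf : f ≠ 0) {k : ℤ} {A E : K[X][X]}
    (hA : bev t η A ≠ 0) (hE : bev t η E ≠ 0)
    (hfac : f * fev u z E = (u - algebraMap K F t) ^ k * fev u z A) :
    w.ord f = k * w.ord (u - algebraMap K F t) := by
  have hne := sub_ne_zero_of_transcendental hu t
  obtain ⟨hA0, hAord⟩ := hw.ord_eq_zero hA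
  obtain ⟨hE0, hEord⟩ := hw.ord_eq_zero hE
  have h1 := congrArg w.ord hfac
  rwa [w.ord_mul hf hE0, w.ord_mul (zpow_ne_zero _ hne) hA0, hEord, hAord, w.ord_zpow, add_zero,
    add_zero] at h1

/-- A quotient with denominator nonzero at the point takes the value of the quotient. -/
theorem pval_of_regular {f : F} {A E : K[X][X]}
    (hE : bev t η E ≠ 0) (hfE : f * fev u z E = fev u z A) :
    OrdGE w 0 f ∧ pval w f = bev t η A / bev t η E := by
  obtain ⟨hE0, -⟩ := hw.ord_eq_zero hE
  obtain ⟨hinv, hinvv⟩ := pval_inv (hw.ordGE E) (by rwa [hw.pval_fev])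
  have hf : f = fev u z A * (fev u z E)⁻¹ := by
    rw [← hfE, mul_inv_cancel_right₀ hE0]
  rw [hf]
  refine ⟨((hw.ordGE A).mul hinv).mono (by simp), ?_⟩
  rw [pval_mul (hw.ordGE A) hinv, hinvv, hw.pval_fev, hw.pval_fev, div_eq_mul_inv]

end IsOverPt

/-- A plane curve `R (u, z) = 0` whose coordinates generate, and a simple point of it. -/
structure IsSimplePt (u z : F) (R : K[X][X]) (t η : K) : Prop where
  tr : Transcendental K u
  gen : ∀ f : F, ∃ (A : K[X][X]) (D : K[X]), D ≠ 0 ∧ f * aeval u D = fev u z A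
  eqn : fev u z R = 0
  root : bev t η R = 0
  simple : bev t η (derivative R) ≠ 0

/-- In the local ring of a simple point every element is a power of `u - t` times a unit. -/
theorem IsSimplePt.exists_factor (h : IsSimplePt u z R t η) (hw : IsOverPt u z w t η) {f : F}
    (hf : f ≠ 0) : ∃ (k : ℤ) (A E : K[X][X]), bev t η A ≠ 0 ∧ bev t η E ≠ 0 ∧
      f * fev u z E = (u - algebraMap K F t) ^ k * fev u z A := by
  have hne := sub_ne_zero_of_transcendental h.tr t
  have hpos := hw.ord_sub_pos h.tr
  -- the linear factor in `z`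
  obtain ⟨S, hS⟩ : X - C (C η) ∣ R - C (R.eval (C η)) := X_sub_C_dvd_sub_C_eval
  have hS1 : bev t η S ≠ 0 := by
    have h1 := congrArg (fun p => bev t η (derivative p)) hS
    simp only [derivative_C, sub_zero, derivative_mul, derivative_X, one_mul,
      map_add, map_mul, map_sub, bev_X, bev_C, eval_C, sub_self, zero_mul, add_zero] at h1
    exact h1 ▸ h.simple
  obtain ⟨B, hB⟩ : X - C t ∣ R.eval (C η) :=
    dvd_iff_isRoot.2 (by rw [IsRoot, ← bev_eq_eval]; exact h.root)
  have hzS : (z - algebraMap K F η) * fev u z S =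
      (u - algebraMap K F t) * (-aeval u B) := by
    have h1 := congrArg (fev u z) hS
    rw [map_sub, h.eqn, map_mul, map_sub, fev_X, fev_C, fev_C, aeval_C, hB, map_mul, map_sub,
      aeval_X, aeval_C] at h1
    rw [← h1]; ring
  have step : ∀ G : K[X][X], bev t η G = 0 → ∃ G' : K[X][X],
      fev u z G * fev u z S = (u - algebraMap K F t) * fev u z G' := by
    intro G hG
    obtain ⟨G₂, hG₂⟩ : X - C (C η) ∣ G - C (G.eval (C η)) := X_sub_C_dvd_sub_C_eval
    obtain ⟨G₁, hG₁⟩ : X - C t ∣ G.eval (C η) :=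
      dvd_iff_isRoot.2 (by rw [IsRoot, ← bev_eq_eval]; exact hG)
    refine ⟨C G₁ * S - C B * G₂, ?_⟩
    have h1 := congrArg (fev u z) hG₂
    rw [map_sub, map_mul, map_sub, fev_X, fev_C, fev_C, aeval_C, hG₁, map_mul, map_sub, aeval_X,
      aeval_C] at h1
    rw [map_sub, map_mul, map_mul, fev_C, fev_C]
    linear_combination (fev u z S) * h1 + (fev u z G₂) * hzS
  have key : ∀ (n : ℕ) (G : K[X][X]), fev u z G ≠ 0 → (w.ord (fev u z G)).toNat = n →
      ∃ (k : ℕ) (A E : K[X][X]), bev t η A ≠ 0 ∧ bev t η E ≠ 0 ∧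
        fev u z G * fev u z E = (u - algebraMap K F t) ^ k * fev u z A := by
    intro n
    induction n using Nat.strong_induction_on with
    | _ n ih =>
      intro G hG hn
      by_cases hb : bev t η G = 0
      · obtain ⟨G', hG'⟩ := step G hb
        obtain ⟨hS0, hSord⟩ := hw.ord_eq_zero hS1
        have hG'0 : fev u z G' ≠ 0 := fun h0 => by
          rw [h0, mul_zero] at hG'
          exact mul_ne_zero hG hS0 hG'
        have hord := congrArg w.ord hG'
        rw [w.ord_mul hG hS0, w.ord_mul hne hG'0, hSord, add_zero] at hord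
        have h0 := (ordGE_iff_le hG'0).1 (hw.ordGE G')
        obtain ⟨k, A, E, hA, hE, hk⟩ := ih _ (by omega) G' hG'0 rfl
        refine ⟨k + 1, A, S * E, hA, by rw [map_mul]; exact mul_ne_zero hS1 hE, ?_⟩
        rw [map_mul, ← mul_assoc, hG', mul_assoc, hk, pow_succ]
        ring
      · exact ⟨0, G, 1, hb, by simp, by simp⟩
  obtain ⟨A₀, D, hD, hfD⟩ := h.gen f
  have hD0 : fev u z (C D) ≠ 0 := by
    rw [fev_C]; exact fun h0 => hD (transcendental_iff.1 h.tr D h0)
  have hA0 : fev u z A₀ ≠ 0 := by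
    rw [← hfD]; exact mul_ne_zero hf (by rwa [fev_C] at hD0)
  obtain ⟨m, A₁, E₁, hA₁, hE₁, hm⟩ := key _ A₀ hA0 rfl
  obtain ⟨l, A₂, E₂, hA₂, hE₂, hl⟩ := key _ (C D) hD0 rfl
  refine ⟨(m : ℤ) - l, A₁ * E₂, A₂ * E₁, by rw [map_mul]; exact mul_ne_zero hA₁ hE₂,
    by rw [map_mul]; exact mul_ne_zero hA₂ hE₁, ?_⟩
  rw [zpow_sub₀ hne, zpow_natCast, zpow_natCast, map_mul, map_mul, div_mul_eq_mul_div,
    eq_div_iff (pow_ne_zero _ hne)]
  rw [fev_C] at hl
  linear_combination (-f * fev u z E₁) * hl + (fev u z E₁ * fev u z E₂) * hfD +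
    (fev u z E₂) * hm

/-- A simple point is unramified over the line. -/
theorem IsSimplePt.ord_sub_eq_one (h : IsSimplePt u z R t η) (hw : IsOverPt u z w t η) :
    w.ord (u - algebraMap K F t) = 1 := by
  obtain ⟨f, hf0, hf⟩ := exists_ord_eq_one w
  obtain ⟨k, A, E, hA, hE, hfac⟩ := h.exists_factor hw hf0
  exact Int.eq_one_of_dvd_one (hw.ord_sub_pos h.tr).le
    ⟨k, by rw [← hf, hw.ord_factor h.tr hf0 hA hE hfac, mul_comm]⟩

/-- Only one place lies over a simple point. -/
theorem IsSimplePt.over_unique (h : IsSimplePt u z R t η) (hw : IsOverPt u z w t η)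
    (hw' : IsOverPt u z w' t η) : w = w' := by
  refine eq_of_toValuationSubring_le fun f hf => ?_
  rcases eq_or_ne f 0 with rfl | hf0
  · exact zero_mem _
  obtain ⟨k, A, E, hA, hE, hfac⟩ := h.exists_factor hw hf0
  rw [mem_iff_ord_nonneg hf0] at hf ⊢
  rw [hw.ord_factor h.tr hf0 hA hE hfac, h.ord_sub_eq_one hw] at hf
  rwa [hw'.ord_factor h.tr hf0 hA hE hfac, h.ord_sub_eq_one hw']

/-- Every point on a plane curve is under a place. -/
theorem exists_overPt (hu : Transcendental K u)
    (hkills : ∀ G : K[X][X], fev u z G = 0 → bev t η G = 0) : ∃ w, IsOverPt u z w t η := by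
  set A : Subring F := (fev (K := K) u z).range
  let I : Ideal A := (RingHom.ker (bev t η)).map (fev (K := K) u z).rangeRestrict
  have hI : I ≠ ⊤ := fun htop => by
    have h1 : (1 : A) ∈ I := htop ▸ Submodule.mem_top
    obtain ⟨G, hG, hG1⟩ :=
      (Ideal.mem_map_iff_of_surjective (fev (K := K) u z).rangeRestrict
        (RingHom.rangeRestrict_surjective _)).1 h1
    have h2 : fev u z (G - 1) = 0 := by
      rw [map_sub, map_one, sub_eq_zero]
      exact congrArg Subtype.val hG1
    have h3 := hkills _ h2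
    rw [map_sub, RingHom.mem_ker.1 hG, map_one, zero_sub] at h3
    exact one_ne_zero (neg_eq_zero.1 h3)
  obtain ⟨B, hAB, hB⟩ := Ideal.image_subset_nonunits_valuationSubring I hI
  have hK : ∀ a : K, algebraMap K F a ∈ B := fun a =>
    hAB ⟨C (C a), by rw [fev_C, aeval_C]⟩
  have hker : ∀ G : K[X][X], bev t η G = 0 → fev u z G ∈ B.nonunits := fun G hG =>
    hB ⟨⟨_, G, rfl⟩, Ideal.mem_map_of_mem _ (RingHom.mem_ker.2 hG), rfl⟩
  have hut : fev u z (C X - C (C t)) = u - algebraMap K F t := by
    rw [map_sub, fev_C, fev_C, aeval_X, aeval_C]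
  have hzη : fev u z (X - C (C η)) = z - algebraMap K F η := by
    rw [map_sub, fev_X, fev_C, aeval_C]
  have hne := sub_ne_zero_of_transcendental hu t
  have hinv : (u - algebraMap K F t)⁻¹ ∉ B := fun hmem => by
    have h1 := hker (C X - C (C t)) (by rw [map_sub, bev_C, bev_C, eval_X, eval_C, sub_self])
    rw [hut, ← inv_inv (u - algebraMap K F t), ValuationSubring.inv_mem_nonunits_iff] at h1
    rcases h1 with h1 | h1
    · exact inv_ne_zero hne h1
    · exact h1 hmem
  let w : Place K F := placeOfValuationSubring B hK fun htop =>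
    hinv (htop ▸ ValuationSubring.mem_top _)
  have hreg : ∀ G : K[X][X], OrdGE w 0 (fev u z G) := fun G =>
    mem_iff_ordGE.1 (hAB ⟨G, rfl⟩ : fev u z G ∈ w.toValuationSubring)
  have hone : ∀ G : K[X][X], bev t η G = 0 → OrdGE w 1 (fev u z G) := fun G hG => by
    by_contra hnot
    have hG0 : fev u z G ≠ 0 := fun h0 => hnot (Or.inl h0)
    have hmem : (fev u z G)⁻¹ ∈ w.toValuationSubring :=
      (mem_iff_ord_nonneg (inv_ne_zero hG0)).2 (by
        have h1 := (ordGE_iff_le hG0).1 (hreg G)
        rw [ordGE_iff_le hG0] at hnot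
        rw [w.ord_inv]; omega)
    have h1 := hker G hG
    rw [← inv_inv (fev u z G), ValuationSubring.inv_mem_nonunits_iff] at h1
    rcases h1 with h1 | h1
    · exact inv_ne_zero hG0 h1
    · exact h1 hmem
  have hu : OrdGE w 0 u := by simpa [fev_C] using hreg (C X)
  have hz : OrdGE w 0 z := by simpa [fev_X] using hreg X
  refine ⟨w, hu, hz, (pval_eq_iff hu).2 ?_, (pval_eq_iff hz).2 ?_⟩
  · rw [← hut]; exact hone _ (by rw [map_sub, bev_C, bev_C, eval_X, eval_C, sub_self])
  · rw [← hzη]; exact hone _ (by rw [map_sub, bev_X, bev_C, eval_C, sub_self])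

namespace Model

variable {v : Place K F} (M : Model v)

/-- A simple point of the model. -/
def IsPt (t η : K) : Prop := bev t η M.R = 0 ∧ bev t η (derivative M.R) ≠ 0

theorem transcendental_u : Transcendental K M.u :=
  transcendental_of_ord_ne_zero (v := v) (by rw [M.ord_u]; exact one_ne_zero)

/-- The first coordinate of a model is regular at its place. -/
theorem reg_u : OrdGE v 0 M.u := Or.inr (by rw [M.ord_u]; exact zero_le_one)

variable {M}

/-- A point of the model is a simple point of its curve. -/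
theorem IsPt.isSimplePt (h : M.IsPt t η) : IsSimplePt M.u M.z M.R t η :=
  ⟨M.transcendental_u, M.generate, M.eq_zero, h.1, h.2⟩

theorem IsPt.bev_eq_zero (h : M.IsPt t η) {G : K[X][X]} (hG : fev M.u M.z G = 0) :
    bev t η G = 0 := by
  obtain ⟨D, H, hD, hDH⟩ := M.divides G hG
  set ρ : K[X][X] →+* K[X] := mapRingHom (evalRingHom t) with hρ
  have hρR : ρ M.R ≠ 0 := fun h0 => h.2 (by
    show eval₂ (evalRingHom t) η (derivative M.R) = 0
    rw [← eval_map, ← derivative_map]
    show (derivative (ρ M.R)).eval η = 0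
    rw [h0, derivative_zero, eval_zero])
  suffices Hind : ∀ (n : ℕ) (D : K[X]) (H : K[X][X]), D.natDegree = n → D ≠ 0 →
      C D * G = M.R * H → bev t η G = 0 from Hind _ D H rfl hD hDH
  intro n
  induction n using Nat.strong_induction_on with
  | _ n ih =>
    intro D H hn hD hDH
    by_cases hDt : D.eval t = 0
    · obtain ⟨D₁, hD₁⟩ := dvd_iff_isRoot.2 (show IsRoot D t from hDt)
      have hρH : ρ H = 0 := by
        have h1 := congrArg ρ hDH
        rw [map_mul, map_mul, hρ, coe_mapRingHom, map_C, coe_evalRingHom, hDt, C_0, zero_mul] at h1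
        exact (mul_eq_zero.1 h1.symm).resolve_left hρR
      obtain ⟨H₁, hH₁⟩ : C (X - C t) ∣ H := C_dvd_iff_dvd_coeff _ _ |>.2 fun i => by
        refine dvd_iff_isRoot.2 ?_
        have := congrArg (fun p => coeff p i) hρH
        simpa [hρ, IsRoot] using this
      have hD₁0 : D₁ ≠ 0 := fun h0 => hD (by rw [hD₁, h0, mul_zero])
      refine ih D₁.natDegree ?_ D₁ H₁ rfl hD₁0 ?_
      · rw [← hn, hD₁, natDegree_mul (X_sub_C_ne_zero t) hD₁0, natDegree_X_sub_C]
        omega
      · refine mul_left_cancel₀ (C_ne_zero.2 (X_sub_C_ne_zero t)) ?_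
        rw [← mul_assoc, ← C_mul, ← hD₁, hDH, hH₁]
        ring
    · have h1 := congrArg (bev t η) hDH
      rw [map_mul, map_mul, h.1, zero_mul, bev_C] at h1
      exact (mul_eq_zero.1 h1).resolve_left hDt

/-- A point of the model is under a place. -/
theorem IsPt.exists_over (h : M.IsPt t η) : ∃ w, IsOverPt M.u M.z w t η :=
  exists_overPt M.transcendental_u fun _ => h.bev_eq_zero

/-- The place of a model lies over `(0, z(v))`. -/
theorem isOver_self : IsOverPt M.u M.z v 0 (pval v M.z) :=
  ⟨M.reg_u, M.reg_z, (pval_eq_zero_iff M.reg_u).2 (Or.inr M.ord_u.ge), rfl⟩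

/-- `(0, z(v))` is a point of the model. -/
theorem isPt_self : M.IsPt 0 (pval v M.z) :=
  ⟨by rw [← isOver_self.pval_fev, M.eq_zero, pval_zero], M.simple⟩

/-- A function regular at `v` is a quotient regular at all nearby points. -/
theorem exists_regular {f : F} (hf : OrdGE v 0 f) :
    ∃ (A E : K[X][X]), bev 0 (pval v M.z) E ≠ 0 ∧ f * fev M.u M.z E = fev M.u M.z A := by
  rcases eq_or_ne f 0 with rfl | hf0
  · exact ⟨0, 1, by simp, by simp⟩
  obtain ⟨k, A, E, hA, hE, hfac⟩ := (isPt_self (M := M)).isSimplePt.exists_factor isOver_self hf0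
  have hord := (isOver_self (M := M)).ord_factor M.transcendental_u hf0 hA hE hfac
  rw [map_zero, sub_zero, M.ord_u, mul_one] at hord
  have hk : 0 ≤ k := hord ▸ (ordGE_iff_le hf0).1 hf
  refine ⟨C (X ^ k.toNat) * A, E, hE, ?_⟩
  rw [hfac, map_zero, sub_zero, map_mul, fev_C, map_pow, aeval_X, ← zpow_natCast,
    Int.toNat_of_nonneg hk]

end Model

end FermatAgent.Curve.Jac

end
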