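import Fermat.Agent.Curve.Riemann
import Fermat.Agent.Curve.Expansion
import Mathlib.Analysis.Normed.Field.Lemmas
import Mathlib.Topology.Algebra.Field
import Mathlib.Order.Filter.Ultrafilter.Basic

/-!
# Values of functions at places, convergence of places

The value `pval v f` of a function regular at a place, and the convergence of a family of places
tested on the values of the functions regular at the limit.
-/

set_option autoImplicit false

noncomputable section

open AlgebraicCurve Filter
open scoped Topology Classical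

namespace FermatAgent.Curve.Jac

variable {K F : Type*} [Field K] [Field F] [Algebra K F] [IsAlgClosed K] [IsFF K F]

/-- The value of a function at a place where it is regular (zero elsewhere). -/
def pval (v : Place K F) (f : F) : K :=
  if h : OrdGE v 0 f then evalAt v ⟨f, mem_iff_ordGE.2 h⟩ else 0

variable {v : Place K F} {f g : F}

/-- A regular function minus its value vanishes. -/
theorem pval_spec (h : OrdGE v 0 f) : OrdGE v 1 (f - algebraMap K F (pval v f)) := by
  rw [pval, dif_pos h]
  exact evalAt_spec v ⟨f, mem_iff_ordGE.2 h⟩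

/-- The value is the constant whose difference vanishes. -/
theorem pval_eq_iff (h : OrdGE v 0 f) {c : K} :
    pval v f = c ↔ OrdGE v 1 (f - algebraMap K F c) := by
  refine ⟨fun hc => hc ▸ pval_spec h, fun hc => ?_⟩
  have h1 := (pval_spec h).sub hc
  rw [sub_sub_sub_cancel_left, ← map_sub] at h1
  by_contra hne
  have hne' : c - pval v f ≠ 0 := sub_ne_zero.2 (Ne.symm hne)
  rw [ordGE_iff_le ((_root_.map_ne_zero _).2 hne'), ord_algebraMap hne'] at h1
  omega

/-- The value is zero iff the function vanishes. -/
theorem pval_eq_zero_iff (h : OrdGE v 0 f) : pval v f = 0 ↔ OrdGE v 1 f := by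
  rw [pval_eq_iff h, map_zero, sub_zero]

/-- The value of a constant. -/
theorem pval_algebraMap (c : K) : pval v (algebraMap K F c) = c := by
  rw [pval_eq_iff (ordGE_algebraMap c), sub_self]
  exact OrdGE.zero

/-- The value of zero. -/
theorem pval_zero : pval v (0 : F) = 0 := by
  rw [← map_zero (algebraMap K F), pval_algebraMap]

/-- The value of one. -/
theorem pval_one : pval v (1 : F) = 1 := by
  rw [← map_one (algebraMap K F), pval_algebraMap]

/-- Values add. -/
theorem pval_add (hf : OrdGE v 0 f) (hg : OrdGE v 0 g) :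
    pval v (f + g) = pval v f + pval v g := by
  rw [pval_eq_iff (hf.add hg), map_add, add_sub_add_comm]
  exact (pval_spec hf).add (pval_spec hg)

/-- Values negate. -/
theorem pval_neg (hf : OrdGE v 0 f) : pval v (-f) = -pval v f := by
  rw [pval_eq_iff hf.neg, map_neg, ← neg_sub']
  exact (pval_spec hf).neg

/-- Values subtract. -/
theorem pval_sub (hf : OrdGE v 0 f) (hg : OrdGE v 0 g) :
    pval v (f - g) = pval v f - pval v g := by
  rw [sub_eq_add_neg, pval_add hf hg.neg, pval_neg hg, sub_eq_add_neg]

/-- Values multiply. -/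
theorem pval_mul (hf : OrdGE v 0 f) (hg : OrdGE v 0 g) :
    pval v (f * g) = pval v f * pval v g := by
  rw [pval_eq_iff ((hf.mul hg).mono (by simp))]
  rw [show f * g - algebraMap K F (pval v f * pval v g) =
      (f - algebraMap K F (pval v f)) * g +
        algebraMap K F (pval v f) * (g - algebraMap K F (pval v g)) by rw [map_mul]; ring]
  exact (((pval_spec hf).mul hg).mono (by simp)).add
    (((ordGE_algebraMap _).mul (pval_spec hg)).mono (by simp))

omit [IsAlgClosed K] [IsFF K F] in
/-- Polynomials in a regular function are regular. -/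
theorem ordGE_aeval (hf : OrdGE v 0 f) (p : Polynomial K) : OrdGE v 0 (Polynomial.aeval f p) := by
  induction p using Polynomial.induction_on' with
  | add p q hp hq => rw [map_add]; exact hp.add hq
  | monomial n a =>
    rw [Polynomial.aeval_monomial]
    exact ((ordGE_algebraMap a).mul (hf.pow n)).mono (by simp)

/-- The value of a power. -/
theorem pval_pow (hf : OrdGE v 0 f) (n : ℕ) : pval v (f ^ n) = pval v f ^ n := by
  induction n with
  | zero => simp [pval_one]
  | succ n ih =>
    rw [pow_succ, pow_succ, pval_mul ((hf.pow n).mono (by simp)) hf, ih]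

/-- The value of a polynomial in a function. -/
theorem pval_aeval (hf : OrdGE v 0 f) (p : Polynomial K) :
    pval v (Polynomial.aeval f p) = p.eval (pval v f) := by
  induction p using Polynomial.induction_on' with
  | add p q hp hq => rw [map_add, pval_add (ordGE_aeval hf p) (ordGE_aeval hf q), hp, hq,
      Polynomial.eval_add]
  | monomial n a =>
    rw [Polynomial.aeval_monomial, pval_mul (ordGE_algebraMap a) ((hf.pow n).mono (by simp)),
      pval_algebraMap, pval_pow hf, Polynomial.eval_monomial]

/-- The value of a sum. -/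
theorem pval_sum {ι : Type*} {s : Finset ι} {φ : ι → F} (h : ∀ i ∈ s, OrdGE v 0 (φ i)) :
    pval v (∑ i ∈ s, φ i) = ∑ i ∈ s, pval v (φ i) := by
  induction s using Finset.induction_on with
  | empty => simp [pval_zero]
  | insert a s ha ih =>
    rw [Finset.sum_insert ha, Finset.sum_insert ha,
      pval_add (h a (Finset.mem_insert_self a s))
        (OrdGE.sum fun i hi => h i (Finset.mem_insert_of_mem hi)),
      ih fun i hi => h i (Finset.mem_insert_of_mem hi)]

/-- The value of a multiple. -/
theorem pval_smul (c : K) (hf : OrdGE v 0 f) : pval v (c • f) = c * pval v f := by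
  rw [Algebra.smul_def, pval_mul (ordGE_algebraMap c) hf, pval_algebraMap]

/-- The value of an inverse. -/
theorem pval_inv (hf : OrdGE v 0 f) (h : pval v f ≠ 0) :
    OrdGE v 0 f⁻¹ ∧ pval v f⁻¹ = (pval v f)⁻¹ := by
  have hf0 : f ≠ 0 := fun h0 => h (h0 ▸ pval_zero)
  have hord : v.ord f = 0 := by
    have h1 := (ordGE_iff_le hf0).1 hf
    by_contra h2
    exact h ((pval_eq_zero_iff hf).2 (Or.inr (by omega)))
  have hi : OrdGE v 0 f⁻¹ := Or.inr (by rw [v.ord_inv]; omega)
  refine ⟨hi, eq_inv_of_mul_eq_one_left ?_⟩
  rw [← pval_mul hi hf, inv_mul_cancel₀ hf0, pval_one]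

/-! ### Convergence -/

section Lim

variable {L E : Type*} [NormedField L] [Field E] [Algebra L E] [IsAlgClosed L] [IsFF L E]

/-- A family of places converges to a place if the values of regular functions converge. -/
def Conv (U : Filter (Place L E)) (v : Place L E) : Prop :=
  ∀ f : E, OrdGE v 0 f →
    (∀ᶠ Q in U, OrdGE Q 0 f) ∧ Tendsto (fun Q => pval Q f) U (𝓝 (pval v f))

/-- If the values of `f` tend to `a`, those of `1 / (f - a)` have no limit. -/
theorem not_tendsto_pval_inv_sub {U : Filter (Place L E)} [NeBot U] {f : E} {a b : L}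
    (hne : f - algebraMap L E a ≠ 0) (hreg : ∀ᶠ Q in U, OrdGE Q 0 f)
    (ha : Tendsto (fun Q => pval Q f) U (𝓝 a))
    (hreg' : ∀ᶠ Q in U, OrdGE Q 0 (f - algebraMap L E a)⁻¹) :
    ¬ Tendsto (fun Q => pval Q (f - algebraMap L E a)⁻¹) U (𝓝 b) := fun hb => by
  have hone : ∀ᶠ Q in U, (pval Q f - a) * pval Q (f - algebraMap L E a)⁻¹ = 1 := by
    filter_upwards [hreg, hreg'] with Q hQ hQ'
    calc (pval Q f - a) * pval Q (f - algebraMap L E a)⁻¹
        = pval Q (f - algebraMap L E a) * pval Q (f - algebraMap L E a)⁻¹ := by
          rw [pval_sub hQ (ordGE_algebraMap a), pval_algebraMap]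
      _ = 1 := by
          rw [← pval_mul (hQ.sub (ordGE_algebraMap a)) hQ', mul_inv_cancel₀ hne, pval_one]
  have := tendsto_nhds_unique (((ha.sub tendsto_const_nhds).mul hb).congr' hone)
    tendsto_const_nhds
  rw [sub_self, zero_mul] at this
  exact zero_ne_one this

/-- It suffices to have some limit for every regular function. -/
theorem conv_of_limits (U : Filter (Place L E)) [NeBot U] (v : Place L E)
    (h : ∀ f : E, OrdGE v 0 f →
      (∀ᶠ Q in U, OrdGE Q 0 f) ∧ ∃ a, Tendsto (fun Q => pval Q f) U (𝓝 a)) : Conv U v := by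
  intro f hf
  obtain ⟨hreg, a, ha⟩ := h f hf
  refine ⟨hreg, ?_⟩
  suffices a = pval v f by rwa [← this]
  by_contra hne
  have hf' : OrdGE v 0 (f - algebraMap L E a) := hf.sub (ordGE_algebraMap a)
  have hval : pval v (f - algebraMap L E a) ≠ 0 := by
    rw [pval_sub hf (ordGE_algebraMap a), pval_algebraMap, sub_ne_zero]
    exact Ne.symm hne
  obtain ⟨hinv, -⟩ := pval_inv hf' hval
  obtain ⟨hreg', b, hb⟩ := h _ hinv
  have hne0 : f - algebraMap L E a ≠ 0 := fun h0 => hval (h0 ▸ pval_zero)
  exact not_tendsto_pval_inv_sub hne0 hreg ha hreg' hb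

end Lim

end FermatAgent.Curve.Jac

end
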